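/-
GATE-H / S32 (helper47): the relation "`(M', act')` is an equivariant quotient of an `act`-stable
subgroup of a finite power of `(M, act)`".  Mathlib only; no axioms on `act`, `act'` are asked.

* `IsSubquotPow act act'` : the definition (`X₁ ≤ Fin r → M` stable, `f : X₁ →+ M'` onto,
  equivariant).
* `isSubquotPow_iff_graph` : the subtype-free "graph" form.
* `IsSubquotPow.of_fintype`, `of_surjective`, `of_addEquiv`, `refl`, `trans`.
-/
import Mathlib

set_option autoImplicit false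

namespace Fermat.Agent.GH.S32

open Function

variable {G : Type*} {M M' M'' : Type*} [AddCommGroup M] [AddCommGroup M'] [AddCommGroup M'']

/-- `(M', act')` is an equivariant quotient of an `act`-stable subgroup of `M ^ r`. -/
def IsSubquotPow (act : G → M → M) (act' : G → M' → M') : Prop :=
  ∃ (r : ℕ) (X₁ : AddSubgroup (Fin r → M)) (f : X₁ →+ M'), Surjective f ∧
    ∃ hst : ∀ g, ∀ x ∈ X₁, (fun i => act g (x i)) ∈ X₁,
      ∀ g (x : X₁), f ⟨fun i => act g (x.1 i), hst g x.1 x.2⟩ = act' g (f x)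

/-- graph form over an arbitrary finite index type -/
def IsSubquotGraph (ι : Type*) (act : G → M → M) (act' : G → M' → M') : Prop :=
  ∃ Γ : AddSubgroup ((ι → M) × M'), (∀ y : M', ∃ x, (x, y) ∈ Γ) ∧
    (∀ y : M', ((0 : ι → M), y) ∈ Γ → y = 0) ∧
    ∀ g, ∀ q ∈ Γ, ((fun i => act g (q.1 i)), act' g q.2) ∈ Γ

/-- the graph of `f : X₁ →+ M'` -/
def graphOf {ι : Type*} (X₁ : AddSubgroup (ι → M)) (f : X₁ →+ M') :
    AddSubgroup ((ι → M) × M') where
  carrier := {q | ∃ hq : q.1 ∈ X₁, f ⟨q.1, hq⟩ = q.2}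
  add_mem' := by
    intro q q' hq hq'
    obtain ⟨h1, h2⟩ := hq
    obtain ⟨h1', h2'⟩ := hq'
    refine ⟨X₁.add_mem h1 h1', ?_⟩
    have h3 := map_add f ⟨q.1, h1⟩ ⟨q'.1, h1'⟩
    rw [h2, h2'] at h3
    exact h3
  zero_mem' := ⟨X₁.zero_mem, map_zero f⟩
  neg_mem' := by
    intro q hq
    obtain ⟨h1, h2⟩ := hq
    refine ⟨X₁.neg_mem h1, ?_⟩
    have h3 := map_neg f ⟨q.1, h1⟩
    rw [h2] at h3
    exact h3

theorem mem_graphOf {ι : Type*} {X₁ : AddSubgroup (ι → M)} {f : X₁ →+ M'} {a : ι → M} {y : M'} :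
    (a, y) ∈ graphOf X₁ f ↔ ∃ ha : a ∈ X₁, f ⟨a, ha⟩ = y := Iff.rfl

theorem isSubquotGraph_graphOf {ι : Type*} {act : G → M → M} {act' : G → M' → M'}
    (X₁ : AddSubgroup (ι → M)) (f : X₁ →+ M') (hf : Surjective f)
    (hst : ∀ g, ∀ x ∈ X₁, (fun i => act g (x i)) ∈ X₁)
    (heq : ∀ g (x : X₁), f ⟨fun i => act g (x.1 i), hst g x.1 x.2⟩ = act' g (f x)) :
    IsSubquotGraph ι act act' := by
  refine ⟨graphOf X₁ f, ?_, ?_, ?_⟩
  · intro y
    obtain ⟨x, hx⟩ := hf y
    exact ⟨x.1, mem_graphOf.mpr ⟨x.2, hx⟩⟩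
  · intro y hy
    obtain ⟨h0, h1⟩ := mem_graphOf.mp hy
    rw [← h1]
    exact map_zero f
  · rintro g ⟨a, y⟩ hq
    obtain ⟨ha, h1⟩ := mem_graphOf.mp hq
    refine mem_graphOf.mpr ⟨hst g a ha, ?_⟩
    rw [heq g ⟨a, ha⟩, h1]

theorem isSubquotGraph_of_isSubquotPow {act : G → M → M} {act' : G → M' → M'}
    (h : IsSubquotPow act act') : ∃ r : ℕ, IsSubquotGraph (Fin r) act act' := by
  obtain ⟨r, X₁, f, hf, hst, heq⟩ := h
  exact ⟨r, isSubquotGraph_graphOf X₁ f hf hst heq⟩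

theorem isSubquotPow_of_isSubquotGraph_fin {act : G → M → M} {act' : G → M' → M'} {r : ℕ}
    (h : IsSubquotGraph (Fin r) act act') : IsSubquotPow act act' := by
  obtain ⟨Γ, hsurj, hfun, hst⟩ := h
  -- uniqueness of the second component
  have huniq : ∀ x y z, (x, y) ∈ Γ → (x, z) ∈ Γ → y = z := by
    intro x y z hy hz
    have h1 : ((0 : Fin r → M), y - z) ∈ Γ := by
      have := Γ.sub_mem hy hz
      rwa [Prod.mk_sub_mk, sub_self] at this
    exact sub_eq_zero.mp (hfun _ h1)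
  let X₁ : AddSubgroup (Fin r → M) := Γ.map (AddMonoidHom.fst _ _)
  have hX : ∀ x : X₁, ∃ y, (x.1, y) ∈ Γ := by
    rintro ⟨x, ⟨a, y⟩, hq, rfl⟩
    exact ⟨y, hq⟩
  choose F hF using hX
  let f : X₁ →+ M' :=
    { toFun := F
      map_zero' := huniq 0 _ _ (hF 0) Γ.zero_mem
      map_add' := fun a b => huniq _ _ _ (hF (a + b)) (Γ.add_mem (hF a) (hF b)) }
  have hst1 : ∀ g, ∀ x ∈ X₁, (fun i => act g (x i)) ∈ X₁ := by
    rintro g x ⟨⟨a, y⟩, hq, rfl⟩
    exact ⟨_, hst g _ hq, rfl⟩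
  refine ⟨r, X₁, f, ?_, hst1, ?_⟩
  · intro y
    obtain ⟨x, hx⟩ := hsurj y
    refine ⟨⟨x, ⟨(x, y), hx, rfl⟩⟩, ?_⟩
    exact huniq _ _ _ (hF _) hx
  · intro g x
    exact huniq _ _ _ (hF _) (hst g _ (hF x))

/-- reindexing the graph form along an equivalence of index types -/
theorem IsSubquotGraph.reindex {ι κ : Type*} (e : ι ≃ κ) {act : G → M → M}
    {act' : G → M' → M'} (h : IsSubquotGraph ι act act') : IsSubquotGraph κ act act' := by
  obtain ⟨Γ, hsurj, hfun, hst⟩ := h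
  let φ : ((κ → M) × M') →+ ((ι → M) × M') :=
    { toFun := fun q => (fun i => q.1 (e i), q.2)
      map_zero' := rfl
      map_add' := fun _ _ => rfl }
  refine ⟨Γ.comap φ, ?_, ?_, ?_⟩
  · intro y
    obtain ⟨x, hx⟩ := hsurj y
    refine ⟨fun j => x (e.symm j), ?_⟩
    show ((fun i => x (e.symm (e i))), y) ∈ Γ
    simpa using hx
  · intro y hy
    exact hfun y hy
  · intro g q hq
    exact hst g _ hq

/-- the graph form over any finite index type gives `IsSubquotPow` -/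
theorem isSubquotPow_of_isSubquotGraph {ι : Type*} [Finite ι] {act : G → M → M}
    {act' : G → M' → M'} (h : IsSubquotGraph ι act act') : IsSubquotPow act act' := by
  obtain ⟨r, ⟨e⟩⟩ := Finite.exists_equiv_fin ι
  exact isSubquotPow_of_isSubquotGraph_fin (h.reindex e)

theorem isSubquotPow_iff_graph {act : G → M → M} {act' : G → M' → M'} :
    IsSubquotPow act act' ↔ ∃ r : ℕ, IsSubquotGraph (Fin r) act act' :=
  ⟨isSubquotGraph_of_isSubquotPow, fun ⟨_, h⟩ => isSubquotPow_of_isSubquotGraph_fin h⟩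

namespace IsSubquotPow

/-- a stable subgroup of `ι → M` (`ι` finite) with an equivariant surjection onto `M'` -/
theorem of_fintype {ι : Type*} [Finite ι] {act : G → M → M} {act' : G → M' → M'}
    (X₁ : AddSubgroup (ι → M)) (f : X₁ →+ M') (hf : Surjective f)
    (hst : ∀ g, ∀ x ∈ X₁, (fun i => act g (x i)) ∈ X₁)
    (heq : ∀ g (x : X₁), f ⟨fun i => act g (x.1 i), hst g x.1 x.2⟩ = act' g (f x)) :
    IsSubquotPow act act' := by
  exact isSubquotPow_of_isSubquotGraph (ι := ι) (isSubquotGraph_graphOf X₁ f hf hst heq)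

/-- an equivariant surjection `M →+ M'` -/
theorem of_surjective {act : G → M → M} {act' : G → M' → M'} (f : M →+ M') (hf : Surjective f)
    (heq : ∀ g x, f (act g x) = act' g (f x)) : IsSubquotPow act act' := by
  apply isSubquotPow_of_isSubquotGraph (ι := Unit)
  let φ : ((Unit → M) × M') →+ M' :=
    { toFun := fun q => f (q.1 ()) - q.2
      map_zero' := by simp
      map_add' := fun a b => by
        simp only [Prod.fst_add, Prod.snd_add, Pi.add_apply, map_add]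
        abel }
  refine ⟨φ.ker, ?_, ?_, ?_⟩
  · intro y
    obtain ⟨x, rfl⟩ := hf y
    exact ⟨fun _ => x, by simp [φ, AddMonoidHom.mem_ker]⟩
  · intro y hy
    have h1 : f 0 - y = 0 := hy
    rw [map_zero, zero_sub, neg_eq_zero] at h1
    exact h1
  · intro g q hq
    have h1 : f (q.1 ()) - q.2 = 0 := hq
    show f (act g (q.1 ())) - act' g q.2 = 0
    rw [heq, sub_eq_zero.mp h1, sub_self]

/-- an equivariant additive isomorphism -/
theorem of_addEquiv {act : G → M → M} {act' : G → M' → M'} (e : M ≃+ M')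
    (heq : ∀ g x, e (act g x) = act' g (e x)) : IsSubquotPow act act' :=
  of_surjective e.toAddMonoidHom e.surjective heq

theorem refl (act : G → M → M) : IsSubquotPow act act :=
  of_addEquiv (AddEquiv.refl M) fun _ _ => rfl

/-- transitivity -/
theorem trans {act : G → M → M} {act' : G → M' → M'} {act'' : G → M'' → M''}
    (h : IsSubquotPow act act') (h' : IsSubquotPow act' act'') : IsSubquotPow act act'' := by
  obtain ⟨r, Γ, hsurj, hfun, hst⟩ := isSubquotGraph_of_isSubquotPow h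
  obtain ⟨s, Γ', hsurj', hfun', hst'⟩ := isSubquotGraph_of_isSubquotPow h'
  apply isSubquotPow_of_isSubquotGraph (ι := Fin s × Fin r)
  let Δ : AddSubgroup ((Fin s × Fin r → M) × M'') :=
    { carrier := {q | ∃ y : Fin s → M', (∀ j, ((fun i => q.1 (j, i)), y j) ∈ Γ) ∧ (y, q.2) ∈ Γ'}
      add_mem' := by
        rintro ⟨a, z⟩ ⟨b, w⟩ ⟨y, hy1, hy2⟩ ⟨y', hy1', hy2'⟩
        exact ⟨y + y', fun j => Γ.add_mem (hy1 j) (hy1' j), Γ'.add_mem hy2 hy2'⟩
      zero_mem' := ⟨0, fun _ => Γ.zero_mem, Γ'.zero_mem⟩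
      neg_mem' := by
        rintro ⟨a, z⟩ ⟨y, hy1, hy2⟩
        exact ⟨-y, fun j => Γ.neg_mem (hy1 j), Γ'.neg_mem hy2⟩ }
  refine ⟨Δ, ?_, ?_, ?_⟩
  · intro z
    obtain ⟨y, hy⟩ := hsurj' z
    choose x hx using fun j => hsurj (y j)
    exact ⟨fun q => x q.1 q.2, y, fun j => hx j, hy⟩
  · rintro z ⟨y, hy1, hy2⟩
    have hy0 : y = 0 := by
      funext j
      exact hfun _ (hy1 j)
    rw [hy0] at hy2
    exact hfun' _ hy2
  · rintro g ⟨a, z⟩ ⟨y, hy1, hy2⟩
    exact ⟨fun j => act' g (y j), fun j => hst g _ (hy1 j), hst' g _ hy2⟩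

end IsSubquotPow

end Fermat.Agent.GH.S32
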