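/-
GATE-H / S32 node FLATMOD (helper61): the frozen "finite flat model" shape as a predicate
`FlatMod p M act` on a finite Galois module `(M, act)`, and its dictionary with the function orders of
node N0 (`Fermat.Agent.GH.N0.IsStableOrder`).

* `FlatMod p M act` : the inner `∃ H, …` of the frozen `GaloisRepAdic.IsFlatAt` / of the frozen S19
  conclusion, for an arbitrary additive group `M` with maps `act σ : M → M`.
* `isFlatAt_iff` : `ρ.IsFlatAt p ↔ Finite (ResidueField A) ∧ ∀ I, Finite (A ⧸ I) → FlatMod p (V/IV) …`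
  (by `Iff.rfl`).
* `s19_iff` : the frozen S19 conclusion is `FlatMod ℓ J₀(p)[ℓ^k] (Top.torsAct …)` (helper32's
  `GH/Top/Tors.lean` action on the torsion subtype).
* `isStableOrder_of_flatMod` : from a finite flat model to a Galois-stable, Δ-stable, separating,
  finitely generated function order `H' ⊆ Map(M, ℚ̄)` (the image of `h ↦ (x ↦ (e.symm x) h)`).
-/
import Mathlib
import Fermat.Prelude.Def_GaloisRep_Flat
import Fermat.Prelude.Def_ModularCurve_ArithmeticGalois
import Fermat.Agent.S28.RatLocal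
import Fermat.Agent.GH.N0.Order
import Fermat.Agent.GH.N0.Final
import Fermat.Agent.GH.Closure.Main
import Fermat.Agent.GH.S32.IsSubquot
import Fermat.Agent.GH.Top.Tors

set_option autoImplicit false
set_option linter.unusedSectionVars false

open scoped TensorProduct
open ModularCurve

namespace Fermat.Agent.GH.S32

/-- **The frozen finite-flat-model shape** for a Galois module `(M, act)`: a finite flat cocommutative
Hopf algebra `H` over `ℤ_(p) = ratLocalizedAt p` whose `ℚ̄`-points (with convolution) are `M`,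
Galois-equivariantly. -/
def FlatMod (p : ℕ) (M : Type) [AddCommGroup M]
    (act : (AlgebraicClosure ℚ ≃ₐ[ℚ] AlgebraicClosure ℚ) → M → M) : Prop :=
  ∃ (H : Type) (_ : CommRing H) (_ : HopfAlgebra (GaloisRep.ratLocalizedAt p) H),
    Module.Finite (GaloisRep.ratLocalizedAt p) H ∧
    Module.Flat (GaloisRep.ratLocalizedAt p) H ∧
    Coalgebra.IsCocomm (GaloisRep.ratLocalizedAt p) H ∧
    ∃ e : WithConv (H →ₐ[GaloisRep.ratLocalizedAt p] AlgebraicClosure ℚ) ≃ M,
      (∀ f g : WithConv (H →ₐ[GaloisRep.ratLocalizedAt p] AlgebraicClosure ℚ),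
        e (f * g) = e f + e g) ∧
      ∀ (σ : AlgebraicClosure ℚ ≃ₐ[ℚ] AlgebraicClosure ℚ)
        (f g : WithConv (H →ₐ[GaloisRep.ratLocalizedAt p] AlgebraicClosure ℚ)),
        (∀ h : H, g h = σ (f h)) → e g = act σ (e f)

/-- (a) the frozen `IsFlatAt` in terms of `FlatMod`. -/
theorem isFlatAt_iff {A : Type} [CommRing A] [IsLocalRing A] (ρ : GaloisRepAdic A) (p : ℕ) :
    ρ.IsFlatAt p ↔ Finite (IsLocalRing.ResidueField A) ∧ ∀ I : Ideal A, Finite (A ⧸ I) →
      FlatMod p (ρ.V ⧸ (I • (⊤ : Submodule A ρ.V))) (fun σ => ρ.levelAction I σ) :=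
  Iff.rfl

/-- (b) the frozen S19 conclusion is `FlatMod` for `(J₀(p)[ℓ^k], torsAct)`. -/
theorem s19_iff (p : ℕ) [NeZero p] (ℓ : ℕ) (k : ℕ) :
    (∃ (H : Type) (_ : CommRing H) (_ : HopfAlgebra (GaloisRep.ratLocalizedAt ℓ) H),
      Module.Finite (GaloisRep.ratLocalizedAt ℓ) H ∧ Module.Flat (GaloisRep.ratLocalizedAt ℓ) H ∧
      Coalgebra.IsCocomm (GaloisRep.ratLocalizedAt ℓ) H ∧
      ∃ e : WithConv (H →ₐ[GaloisRep.ratLocalizedAt ℓ] AlgebraicClosure ℚ) ≃
          ↥(Submodule.torsionBy ℤ (JZero p) ((ℓ : ℤ) ^ k)),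
        (∀ f g, e (f * g) = e f + e g) ∧
        ∀ (σ : AlgebraicClosure ℚ ≃ₐ[ℚ] AlgebraicClosure ℚ)
          (f g : WithConv (H →ₐ[GaloisRep.ratLocalizedAt ℓ] AlgebraicClosure ℚ)),
          (∀ h : H, g h = σ (f h)) → ((e g : JZero p)) = σ • (e f : JZero p)) ↔
    FlatMod ℓ ↥(Submodule.torsionBy ℤ (JZero p) ((ℓ : ℤ) ^ k))
      (fun σ x => Top.torsAct p ((ℓ : ℤ) ^ k) σ x) := by
  constructor
  · rintro ⟨H, i1, i2, h1, h2, h3, e, he, hσ⟩
    exact ⟨H, i1, i2, h1, h2, h3, e, he, fun σ f g hfg => Subtype.ext (hσ σ f g hfg)⟩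
  · rintro ⟨H, i1, i2, h1, h2, h3, e, he, hσ⟩
    exact ⟨H, i1, i2, h1, h2, h3, e, he, fun σ f g hfg => congrArg Subtype.val (hσ σ f g hfg)⟩

/-! ### (c) from a finite flat model to a function order -/

/-- every tensor is a `Fin`-indexed finite sum of pure tensors. -/
theorem exists_fin_sum_tmul {R A B : Type*} [CommSemiring R] [AddCommMonoid A] [AddCommMonoid B]
    [Module R A] [Module R B] (t : A ⊗[R] B) :
    ∃ (n : ℕ) (a : Fin n → A) (b : Fin n → B), t = ∑ i, a i ⊗ₜ[R] b i := by
  induction t using TensorProduct.induction_on with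
  | zero => exact ⟨0, Fin.elim0, Fin.elim0, by simp⟩
  | tmul x y => exact ⟨1, fun _ => x, fun _ => y, by simp⟩
  | add s t hs ht =>
    obtain ⟨n, a, b, rfl⟩ := hs
    obtain ⟨m, c, d, rfl⟩ := ht
    refine ⟨n + m, Fin.append a c, Fin.append b d, ?_⟩
    rw [Fin.sum_univ_add]
    simp

section Order

variable {p : ℕ} {M : Type} [AddCommGroup M]
  {act : (AlgebraicClosure ℚ ≃ₐ[ℚ] AlgebraicClosure ℚ) → M → M}

/-- a module with a finite flat model is finite. -/
theorem finite_of_flatMod (h : FlatMod p M act) : Finite M := by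
  obtain ⟨H, _, _, hfin, -, -, e, -, -⟩ := h
  have : Finite (WithConv (H →ₐ[GaloisRep.ratLocalizedAt p] AlgebraicClosure ℚ)) :=
    Finite.of_equiv _ (WithConv.equiv _).symm
  exact Finite.of_equiv _ e

/-- `ℚ̄^{G_ℚ} = ℚ`. -/
theorem fixed_mem_range (c : AlgebraicClosure ℚ)
    (hc : ∀ σ : AlgebraicClosure ℚ ≃ₐ[ℚ] AlgebraicClosure ℚ, σ • c = c) :
    c ∈ (algebraMap ℚ (AlgebraicClosure ℚ)).range := by
  have h1 : IsAlgClosure ℚ (AlgebraicClosure ℚ) := ⟨inferInstance, AlgebraicClosure.isAlgebraic ℚ⟩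
  have h2 : IsGalois ℚ (AlgebraicClosure ℚ) := IsAlgClosure.isGalois ℚ _
  exact (InfiniteGalois.mem_range_algebraMap_iff_fixed c).2 hc

/-- the evaluation model of a family of points. -/
noncomputable def evModel {H : Type} [CommRing H] [Algebra (GaloisRep.ratLocalizedAt p) H]
    (e : WithConv (H →ₐ[GaloisRep.ratLocalizedAt p] AlgebraicClosure ℚ) ≃ M) :
    H →ₐ[GaloisRep.ratLocalizedAt p] (M → AlgebraicClosure ℚ) :=
  AlgHom.pi (fun x : M => (e.symm x).ofConv)

theorem evModel_apply {H : Type} [CommRing H] [Algebra (GaloisRep.ratLocalizedAt p) H]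
    (e : WithConv (H →ₐ[GaloisRep.ratLocalizedAt p] AlgebraicClosure ℚ) ≃ M) (h : H) (x : M) :
    evModel e h x = (e.symm x) h := rfl

/-- **(c)** a finite flat model gives a Galois-stable, Δ-stable, separating, finitely generated
function order: `H' := ` the image of `h ↦ (x ↦ (e.symm x) h)` in `Map(M, ℚ̄)`. -/
theorem isStableOrder_of_flatMod (h : FlatMod p M act) :
    ∃ H' : Subalgebra (GaloisRep.ratLocalizedAt p) (M → AlgebraicClosure ℚ),
      N0.IsStableOrder ℚ act H' := by
  obtain ⟨H, _, _, hfin, -, -, e, he, hσ⟩ := h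
  -- `e.symm` turns `+` into the convolution
  have hsymm : ∀ x y : M, e.symm (x + y) = e.symm x * e.symm y := by
    intro x y
    apply e.injective
    rw [he, e.apply_symm_apply, e.apply_symm_apply, e.apply_symm_apply]
  have he1 : e 1 = 0 := by
    have h1 := he 1 1
    rw [mul_one] at h1
    exact left_eq_add.mp h1
  -- the `σ`-twist of a point
  have htwist : ∀ (σ : AlgebraicClosure ℚ ≃ₐ[ℚ] AlgebraicClosure ℚ) (x : M) (a : H),
      (e.symm (act σ x)) a = σ ((e.symm x) a) := by
    intro σ x a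
    let σR : AlgebraicClosure ℚ →ₐ[GaloisRep.ratLocalizedAt p] AlgebraicClosure ℚ :=
      (AlgEquiv.restrictScalars (GaloisRep.ratLocalizedAt p) σ : _ ≃ₐ[_] _)
    let g : WithConv (H →ₐ[GaloisRep.ratLocalizedAt p] AlgebraicClosure ℚ) :=
      WithConv.toConv (σR.comp (e.symm x).ofConv)
    have hg : e g = act σ (e (e.symm x)) := hσ σ (e.symm x) g (fun _ => rfl)
    rw [e.apply_symm_apply] at hg
    rw [← hg, e.symm_apply_apply]
    rfl
  refine ⟨(evModel e).range, ?_⟩
  refine
    { fixed := fixed_mem_range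
      act_zero := ?_
      equivariant := ?_
      fg := ?_
      sep := ?_
      delta := ?_ }
  · -- act σ 0 = 0
    intro σ
    have h1 : e 1 = act σ (e 1) := by
      refine hσ σ 1 1 (fun a => ?_)
      rw [AlgHom.convOne_apply, IsScalarTower.algebraMap_apply (GaloisRep.ratLocalizedAt p) ℚ
        (AlgebraicClosure ℚ), AlgEquiv.commutes]
    rw [he1] at h1
    exact h1.symm
  · rintro _ ⟨a, rfl⟩ σ x
    exact htwist σ x a
  · exact Module.Finite.of_surjective (evModel e).rangeRestrict.toLinearMap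
      (evModel e).rangeRestrict_surjective
  · intro x y hxy
    by_contra hcon
    apply hxy
    apply e.symm.injective
    apply WithConv.ext
    apply AlgHom.ext
    intro a
    by_contra hne
    exact hcon ⟨evModel e a, ⟨a, rfl⟩, hne⟩
  · rintro _ ⟨a, rfl⟩
    obtain ⟨n, u, v, huv⟩ := exists_fin_sum_tmul (Coalgebra.comul (R := GaloisRep.ratLocalizedAt p) a)
    refine ⟨n, fun i => ⟨evModel e (u i), u i, rfl⟩, fun i => ⟨evModel e (v i), v i, rfl⟩, ?_⟩
    intro x y
    change (e.symm (x + y)) a = ∑ i, (e.symm x) (u i) * (e.symm y) (v i)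
    rw [hsymm, AlgHom.convMul_apply, huv, map_sum]
    simp only [Algebra.TensorProduct.lift_tmul]

end Order

/-! ### (d) from a function order to a finite flat model (node N0) -/

section OfOrder

variable {p : ℕ} [Fact p.Prime] {M : Type} [AddCommGroup M] [Finite M]
  {act : (AlgebraicClosure ℚ ≃ₐ[ℚ] AlgebraicClosure ℚ) → M → M}

/-- **(d)** a stable function order gives a finite flat model (`N0.flatShape_of_order`). -/
theorem flatMod_of_isStableOrder {H : Subalgebra (GaloisRep.ratLocalizedAt p) (M → AlgebraicClosure ℚ)}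
    (h : N0.IsStableOrder ℚ act H) : FlatMod p M act :=
  N0.flatShape_of_order act H h.act_zero h.equivariant h.fg h.sep h.delta

end OfOrder

/-! ### the dictionary with helper57's `HasFinOrder` (additive actions) -/

section Dict

open Closure

variable {p : ℕ} [Fact p.Prime] {M : Type*} [AddCommGroup M]

/-- in a stable order the maps `act σ` are additive. -/
theorem act_add_of_isStableOrder
    {act : (AlgebraicClosure ℚ ≃ₐ[ℚ] AlgebraicClosure ℚ) → M → M}
    {H : Subalgebra (GaloisRep.ratLocalizedAt p) (M → AlgebraicClosure ℚ)}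
    (h : N0.IsStableOrder ℚ act H) (σ : AlgebraicClosure ℚ ≃ₐ[ℚ] AlgebraicClosure ℚ) (x y : M) :
    act σ (x + y) = act σ x + act σ y := by
  by_contra hne
  obtain ⟨f, hf, hfne⟩ := h.sep _ _ hne
  apply hfne
  obtain ⟨n, a, b, hab⟩ := h.delta f hf
  rw [h.equivariant f hf, hab, hab, Finset.smul_sum]
  refine Finset.sum_congr rfl fun i _ => ?_
  rw [smul_mul', ← h.equivariant _ (a i).2, ← h.equivariant _ (b i).2]

/-- a stable order (N0) is a finite Δ-order (CLOSURE) for the additive form of the action. -/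
theorem hasFinOrder_of_isStableOrder
    {act : (AlgebraicClosure ℚ ≃ₐ[ℚ] AlgebraicClosure ℚ) → M →+ M}
    {H : Subalgebra (GaloisRep.ratLocalizedAt p) (M → AlgebraicClosure ℚ)}
    (h : N0.IsStableOrder ℚ (fun σ x => act σ x) H) : HasFinOrder p act := by
  refine ⟨H, ⟨h.equivariant, ?_, h.sep, h.delta⟩, h.fg⟩
  intro f hf x
  have := h.fg
  have hint : IsIntegral (GaloisRep.ratLocalizedAt p) (⟨f, hf⟩ : H) := IsIntegral.of_finite _ _
  exact hint.map (N0.evPt H.val x)

/-- a finite Δ-order (CLOSURE) is a stable order (N0). -/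
theorem isStableOrder_of_isDeltaOrder
    {act : (AlgebraicClosure ℚ ≃ₐ[ℚ] AlgebraicClosure ℚ) → M →+ M}
    {H : Subalgebra (GaloisRep.ratLocalizedAt p) (M → AlgebraicClosure ℚ)}
    (h : IsDeltaOrder p act H) (hfin : Module.Finite (GaloisRep.ratLocalizedAt p) H) :
    N0.IsStableOrder ℚ (fun σ x => act σ x) H where
  fixed := N0.fixed_algebraicClosure_rat
  act_zero := fun σ => map_zero (act σ)
  equivariant := h.heq
  fg := hfin
  sep := h.hsep
  delta := h.hΔ

end Dict

/-! ### (e) closure of `FlatMod` under equivariant subquotients of finite powers -/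

section Subquot

open Closure

variable {p : ℕ} [Fact p.Prime]

/-- the componentwise action on a finite power. -/
def piAct {M : Type*} [AddCommGroup M] (r : ℕ)
    (act : (AlgebraicClosure ℚ ≃ₐ[ℚ] AlgebraicClosure ℚ) → M →+ M) :
    (AlgebraicClosure ℚ ≃ₐ[ℚ] AlgebraicClosure ℚ) → (Fin r → M) →+ (Fin r → M) :=
  fun σ =>
    { toFun := fun x i => act σ (x i)
      map_zero' := by
        funext i
        simp
      map_add' := by
        intro x y
        funext i
        simp }

@[simp]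
theorem piAct_apply {M : Type*} [AddCommGroup M] (r : ℕ)
    (act : (AlgebraicClosure ℚ ≃ₐ[ℚ] AlgebraicClosure ℚ) → M →+ M)
    (σ : AlgebraicClosure ℚ ≃ₐ[ℚ] AlgebraicClosure ℚ) (x : Fin r → M) (i : Fin r) :
    piAct r act σ x i = act σ (x i) := rfl

/-- finite powers of a module with a finite Δ-order have one. -/
theorem hasFinOrder_pi {M : Type*} [AddCommGroup M]
    {act : (AlgebraicClosure ℚ ≃ₐ[ℚ] AlgebraicClosure ℚ) → M →+ M} (h : HasFinOrder p act) :
    ∀ r : ℕ, HasFinOrder p (piAct r act)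
  | 0 => hasFinOrder_of_subsingleton _
  | r + 1 => by
    have hp := h.prod (hasFinOrder_pi h r)
    let j : (Fin (r + 1) → M) →+ M × (Fin r → M) :=
      { toFun := fun x => (x 0, Fin.tail x)
        map_zero' := rfl
        map_add' := fun _ _ => rfl }
    refine hp.of_injective j ?_ (fun σ x => rfl)
    intro x y hxy
    have h0 : x 0 = y 0 := congrArg Prod.fst hxy
    have ht : Fin.tail x = Fin.tail y := congrArg Prod.snd hxy
    funext i
    refine Fin.cases h0 (fun k => ?_) i
    exact congrFun ht k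

/-- **(e)** `FlatMod` passes to equivariant quotients of stable subgroups of finite powers. -/
theorem flatMod_of_isSubquotPow {M M' : Type} [AddCommGroup M] [AddCommGroup M']
    {act : (AlgebraicClosure ℚ ≃ₐ[ℚ] AlgebraicClosure ℚ) → M → M}
    {act' : (AlgebraicClosure ℚ ≃ₐ[ℚ] AlgebraicClosure ℚ) → M' → M'}
    (h : FlatMod p M act) (hs : IsSubquotPow act act') : FlatMod p M' act' := by
  have hfinM : Finite M := finite_of_flatMod h
  obtain ⟨H, hH⟩ := isStableOrder_of_flatMod h
  -- the additive form of `act`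
  let actH : (AlgebraicClosure ℚ ≃ₐ[ℚ] AlgebraicClosure ℚ) → M →+ M := fun σ =>
    { toFun := act σ
      map_zero' := hH.act_zero σ
      map_add' := act_add_of_isStableOrder hH σ }
  have h1 : HasFinOrder p actH := hasFinOrder_of_isStableOrder (act := actH) hH
  obtain ⟨r, X₁, f, hf, hst, heq⟩ := hs
  have h2 := hasFinOrder_pi h1 r
  -- the action on `X₁`
  let actX : (AlgebraicClosure ℚ ≃ₐ[ℚ] AlgebraicClosure ℚ) → X₁ →+ X₁ := fun σ =>
    { toFun := fun x => ⟨fun i => act σ (x.1 i), hst σ x.1 x.2⟩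
      map_zero' := by
        apply Subtype.ext
        funext i
        exact hH.act_zero σ
      map_add' := by
        intro x y
        apply Subtype.ext
        funext i
        exact act_add_of_isStableOrder hH σ (x.1 i) (y.1 i) }
  have h3 : HasFinOrder p actX :=
    h2.of_injective X₁.subtype Subtype.val_injective (fun σ x => rfl)
  have heq' : ∀ σ (x : X₁), f (actX σ x) = act' σ (f x) := fun σ x => heq σ x
  -- the additive form of `act'`
  let actH' : (AlgebraicClosure ℚ ≃ₐ[ℚ] AlgebraicClosure ℚ) → M' →+ M' := fun σ =>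
    { toFun := act' σ
      map_zero' := by
        rw [← map_zero f, ← heq', map_zero, map_zero]
      map_add' := by
        intro y z
        obtain ⟨u, rfl⟩ := hf y
        obtain ⟨v, rfl⟩ := hf z
        rw [← map_add, ← heq', ← heq', ← heq', map_add, map_add] }
  have h4 : HasFinOrder p actH' := h3.of_surjective f hf heq'
  obtain ⟨H', hH', hfin'⟩ := h4
  have : Finite M' := Finite.of_surjective f hf
  exact flatMod_of_isStableOrder (isStableOrder_of_isDeltaOrder hH' hfin')

/-- the zero module has a finite flat model (for the clause `I = ⊤`). -/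
theorem flatMod_of_subsingleton {M : Type} [AddCommGroup M] [Subsingleton M]
    (act : (AlgebraicClosure ℚ ≃ₐ[ℚ] AlgebraicClosure ℚ) → M → M) : FlatMod p M act := by
  let actH : (AlgebraicClosure ℚ ≃ₐ[ℚ] AlgebraicClosure ℚ) → M →+ M := fun _ => AddMonoidHom.id M
  obtain ⟨H', hH', hfin'⟩ := hasFinOrder_of_subsingleton (ℓ := p) actH
  have : Finite M := Finite.of_subsingleton
  have hst := isStableOrder_of_isDeltaOrder hH' hfin'
  have hact : (fun σ x => actH σ x) = act := by
    funext σ x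
    exact Subsingleton.elim _ _
  rw [hact] at hst
  exact flatMod_of_isStableOrder hst

end Subquot

/-! ### consumer forms (for `GH/S32/Top.lean`) -/

section Consumer

/-- the frozen S19 conclusion at `(N, ℓ, k)` gives `FlatMod` for `J₀(N)[ℓ^k]`. -/
theorem flatMod_torsion_of_s19 (N : ℕ) [NeZero N] (ℓ : ℕ) (k : ℕ)
    (h : ∃ (H : Type) (_ : CommRing H) (_ : HopfAlgebra (GaloisRep.ratLocalizedAt ℓ) H),
      Module.Finite (GaloisRep.ratLocalizedAt ℓ) H ∧ Module.Flat (GaloisRep.ratLocalizedAt ℓ) H ∧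
      Coalgebra.IsCocomm (GaloisRep.ratLocalizedAt ℓ) H ∧
      ∃ e : WithConv (H →ₐ[GaloisRep.ratLocalizedAt ℓ] AlgebraicClosure ℚ) ≃
          ↥(Submodule.torsionBy ℤ (JZero N) ((ℓ : ℤ) ^ k)),
        (∀ f g, e (f * g) = e f + e g) ∧
        ∀ (σ : AlgebraicClosure ℚ ≃ₐ[ℚ] AlgebraicClosure ℚ)
          (f g : WithConv (H →ₐ[GaloisRep.ratLocalizedAt ℓ] AlgebraicClosure ℚ)),
          (∀ h : H, g h = σ (f h)) → ((e g : JZero N)) = σ • (e f : JZero N)) :
    FlatMod ℓ ↥(Submodule.torsionBy ℤ (JZero N) ((ℓ : ℤ) ^ k))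
      (fun σ x => Top.torsAct N ((ℓ : ℤ) ^ k) σ x) :=
  (s19_iff N ℓ k).1 h

/-- `IsFlatAt` from `FlatMod` at every finite level. -/
theorem isFlatAt_of_flatMod {A : Type} [CommRing A] [IsLocalRing A] (ρ : GaloisRepAdic A) (p : ℕ)
    (hres : Finite (IsLocalRing.ResidueField A))
    (h : ∀ I : Ideal A, Finite (A ⧸ I) →
      FlatMod p (ρ.V ⧸ (I • (⊤ : Submodule A ρ.V))) (fun σ => ρ.levelAction I σ)) :
    ρ.IsFlatAt p :=
  ⟨hres, h⟩

/-- **`IsFlatAt` from flat models of auxiliary modules**: if every finite level `V/IV` is an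
equivariant subquotient of a finite power of a Galois module with a finite flat model, then `ρ` is
flat at `p`. -/
theorem isFlatAt_of_isSubquotPow {A : Type} [CommRing A] [IsLocalRing A] (ρ : GaloisRepAdic A)
    (p : ℕ) [Fact p.Prime] (hres : Finite (IsLocalRing.ResidueField A))
    (h : ∀ I : Ideal A, Finite (A ⧸ I) →
      ∃ (M : Type) (_ : AddCommGroup M)
        (act : (AlgebraicClosure ℚ ≃ₐ[ℚ] AlgebraicClosure ℚ) → M → M),
        FlatMod p M act ∧
          IsSubquotPow act (fun (σ : AlgebraicClosure ℚ ≃ₐ[ℚ] AlgebraicClosure ℚ)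
            (v : ρ.V ⧸ (I • (⊤ : Submodule A ρ.V))) => ρ.levelAction I σ v)) :
    ρ.IsFlatAt p := by
  refine isFlatAt_of_flatMod ρ p hres fun I hI => ?_
  obtain ⟨M, _, act, hM, hsub⟩ := h I hI
  exact flatMod_of_isSubquotPow hM hsub

end Consumer

end Fermat.Agent.GH.S32
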