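/-
GATE-H / S32, node INST, part A (helper47): the finite-level Hecke/Galois module
`X n = R ⊗[ℤ] Kum_{p^n}` over `R ⊗[ℤ] 𝕋`, for Kummer level data `D : KumLevelData N S p`.

* `heckeX D R n : R ⊗[ℤ] 𝕋 →+* AddMonoid.End (R ⊗[ℤ] D.K n)`, `galX D R n : G_ℚ →* …`;
* `commute_heckeX_galX` (from `D.Comm` and `hNS`);
* `natCast_pow_eq_zero` : `p ^ n` kills `X n`;
* `isSubquotPow_galX` : `X n` is an equivariant quotient of a finite power of `K n`;
* `exists_shift` : `∃ c, ∀ k t', heckeX (k + c) t' = 0 → ∃ t'', t' = p ^ k • t''`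
  (faithfulness on the lattice, flat base change, Artin–Rees).
-/
import Fermat.Agent.GJ.Tate.LevelsInst
import Fermat.Agent.GH.S32.FaithShift
import Fermat.Agent.GH.S32.IsSubquot

set_option autoImplicit false

noncomputable section

namespace Fermat.Agent.GH.S32.InstCore

open TensorProduct CuspForm Function
open Fermat.Agent.Common_helper32 Fermat.Agent.GJ.Tate Fermat.Agent.GJ.Tate.Lim

/-- additive endomorphisms as `ℤ`-linear endomorphisms -/
def addEndToIntEnd (A : Type*) [AddCommGroup A] : AddMonoid.End A →+* Module.End ℤ A where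
  toFun f := f.toIntLinearMap
  map_one' := rfl
  map_mul' _ _ := rfl
  map_zero' := rfl
  map_add' _ _ := rfl

theorem addEndToIntEnd_apply {A : Type*} [AddCommGroup A] (f : AddMonoid.End A) (x : A) :
    addEndToIntEnd A f x = f x := rfl

variable {N : ℕ} [NeZero N] {S : Finset ℕ} {p : ℕ} (D : KumLevelData N S p)

/-- Hecke and Galois commute on every `K n`. -/
theorem commute_heckeHom_gal (hm : D.Comm) (hNS : ∀ q : ℕ, q.Prime → q ∣ N → q ∈ S) (n : ℕ)
    (t : heckeAlgebra N 2 (↑S : Set ℕ)) (g : GQ) : Commute (D.heckeHom n t) (D.gal n g) := by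
  obtain ⟨t, ht⟩ := t
  induction ht using Algebra.adjoin_induction with
  | mem x hx =>
    rcases hx with ⟨ℓ, hℓ, hℓN, hℓS, rfl⟩ | ⟨q, hqN, hq, hqS, rfl⟩
    · have hℓS' : ℓ ∉ S := by simpa using hℓS
      have e : (⟨heckeTLin 2 hℓ hℓN, Algebra.subset_adjoin
          (Or.inl ⟨ℓ, hℓ, hℓN, hℓS, rfl⟩)⟩ : heckeAlgebra N 2 (↑S : Set ℕ)) = heckeTl N S ℓ := by
        rw [heckeTl_eq hℓ hℓN hℓS]
        rfl
      rw [e, D.heckeHom_heckeTl n ℓ hℓ hℓS']
      exact hm n ℓ hℓ hℓS' g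
    · exact absurd (by simpa using hNS q hq hqN) hqS
  | algebraMap r =>
    have e : (⟨algebraMap ℤ _ r, Subalgebra.algebraMap_mem _ r⟩ : heckeAlgebra N 2 (↑S : Set ℕ))
        = algebraMap ℤ _ r := rfl
    rw [e, eq_intCast (algebraMap ℤ (heckeAlgebra N 2 (↑S : Set ℕ))) r, map_intCast]
    exact Int.cast_commute r _
  | add x y hx hy ihx ihy =>
    have e : (⟨x + y, Subalgebra.add_mem _ hx hy⟩ : heckeAlgebra N 2 (↑S : Set ℕ))
        = ⟨x, hx⟩ + ⟨y, hy⟩ := rfl
    rw [e, map_add]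
    exact ihx.add_left ihy
  | mul x y hx hy ihx ihy =>
    have e : (⟨x * y, Subalgebra.mul_mem _ hx hy⟩ : heckeAlgebra N 2 (↑S : Set ℕ))
        = ⟨x, hx⟩ * ⟨y, hy⟩ := rfl
    rw [e, map_mul]
    exact ihx.mul_left ihy

variable (R : Type*) [CommRing R]

/-- the Hecke action on `K n`, as a `ℤ`-algebra homomorphism -/
def heckeK (n : ℕ) : heckeAlgebra N 2 (↑S : Set ℕ) →ₐ[ℤ] Module.End ℤ (D.K n) :=
  ((addEndToIntEnd (D.K n)).comp (D.heckeHom n)).toIntAlgHom

theorem heckeK_apply (n : ℕ) (t : heckeAlgebra N 2 (↑S : Set ℕ)) (x : D.K n) :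
    heckeK D n t x = D.heckeHom n t x := rfl

/-- the action of `R ⊗ 𝕋` on `R ⊗ K n`, `R`-linear form -/
def heckeXlin (n : ℕ) :
    R ⊗[ℤ] heckeAlgebra N 2 (↑S : Set ℕ) →ₐ[R] Module.End R (R ⊗[ℤ] D.K n) :=
  tensorEndAlg R (heckeK D n)

/-- the action of `R ⊗ 𝕋` on `X n = R ⊗ K n` -/
def heckeX (n : ℕ) :
    R ⊗[ℤ] heckeAlgebra N 2 (↑S : Set ℕ) →+* AddMonoid.End (R ⊗[ℤ] D.K n) :=
  (endToAddEnd R (R ⊗[ℤ] D.K n)).comp (heckeXlin D R n).toRingHom

theorem heckeX_apply (n : ℕ) (t' : R ⊗[ℤ] heckeAlgebra N 2 (↑S : Set ℕ)) (x : R ⊗[ℤ] D.K n) :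
    heckeX D R n t' x = heckeXlin D R n t' x := rfl

theorem heckeX_tmul_tmul (n : ℕ) (r : R) (t : heckeAlgebra N 2 (↑S : Set ℕ)) (r' : R)
    (k : D.K n) : heckeX D R n (r ⊗ₜ t) (r' ⊗ₜ k) = (r * r') ⊗ₜ D.heckeHom n t k := by
  rw [heckeX_apply, heckeXlin, tensorEndAlg_tmul, LinearMap.smul_apply,
    LinearMap.baseChange_tmul, TensorProduct.smul_tmul', smul_eq_mul]
  rfl

/-- base change of additive endomorphisms, as a ring homomorphism -/
def ringX (n : ℕ) : AddMonoid.End (D.K n) →+* AddMonoid.End (R ⊗[ℤ] D.K n) :=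
  (endToAddEnd R (R ⊗[ℤ] D.K n)).comp
    (((Module.End.baseChangeHom ℤ R (D.K n) : Module.End ℤ (D.K n) →ₐ[ℤ] _) :
      Module.End ℤ (D.K n) →+* _).comp (addEndToIntEnd (D.K n)))

theorem ringX_tmul (n : ℕ) (f : AddMonoid.End (D.K n)) (r : R) (k : D.K n) :
    ringX D R n f (r ⊗ₜ k) = r ⊗ₜ f k := by
  show ((addEndToIntEnd (D.K n) f).baseChange R) (r ⊗ₜ k) = _
  rw [LinearMap.baseChange_tmul]
  rfl

/-- the Galois action on `X n = R ⊗ K n` -/
def galX (n : ℕ) : GQ →* AddMonoid.End (R ⊗[ℤ] D.K n) :=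
  (ringX D R n).toMonoidHom.comp (D.gal n)

theorem galX_apply (n : ℕ) (g : GQ) : galX D R n g = ringX D R n (D.gal n g) := rfl

theorem galX_tmul (n : ℕ) (g : GQ) (r : R) (k : D.K n) :
    galX D R n g (r ⊗ₜ k) = r ⊗ₜ D.gal n g k := ringX_tmul D R n _ r k

theorem heckeX_one_tmul (n : ℕ) (t : heckeAlgebra N 2 (↑S : Set ℕ)) :
    heckeX D R n ((1 : R) ⊗ₜ t) = ringX D R n (D.heckeHom n t) := by
  refine DFunLike.ext _ _ fun x => ?_
  induction x using TensorProduct.induction_on with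
  | zero => rw [map_zero, map_zero]
  | add a b ha hb => rw [map_add, map_add, ha, hb]
  | tmul r' k => rw [heckeX_tmul_tmul, one_mul, ringX_tmul]

theorem heckeX_galX_apply (hm : D.Comm) (hNS : ∀ q : ℕ, q.Prime → q ∣ N → q ∈ S) (n : ℕ)
    (t' : R ⊗[ℤ] heckeAlgebra N 2 (↑S : Set ℕ)) (g : GQ) (x : R ⊗[ℤ] D.K n) :
    heckeX D R n t' (galX D R n g x) = galX D R n g (heckeX D R n t' x) := by
  induction t' using TensorProduct.induction_on with
  | zero => rw [map_zero]; exact (map_zero _).symm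
  | add a b ha hb =>
    rw [map_add]
    show heckeX D R n a (galX D R n g x) + heckeX D R n b (galX D R n g x) =
      galX D R n g (heckeX D R n a x + heckeX D R n b x)
    rw [ha, hb, map_add]
  | tmul r t =>
    induction x using TensorProduct.induction_on with
    | zero => rw [map_zero, map_zero, map_zero]
    | add a b ha hb => rw [map_add, map_add, map_add, map_add, ha, hb]
    | tmul r' k =>
      rw [galX_tmul, heckeX_tmul_tmul, heckeX_tmul_tmul, galX_tmul]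
      congr 1
      exact DFunLike.congr_fun (commute_heckeHom_gal D hm hNS n t g).eq k

theorem commute_heckeX_galX (hm : D.Comm) (hNS : ∀ q : ℕ, q.Prime → q ∣ N → q ∈ S) (n : ℕ)
    (t' : R ⊗[ℤ] heckeAlgebra N 2 (↑S : Set ℕ)) (g : GQ) :
    Commute (heckeX D R n t') (galX D R n g) :=
  DFunLike.ext _ _ fun x => heckeX_galX_apply D R hm hNS n t' g x

/-- `p ^ n` kills `K n`. -/
theorem natCast_pow_K (n : ℕ) : ((p ^ n : ℕ) : AddMonoid.End (D.K n)) = 0 :=
  D.tateLevels.tors n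

/-- `p ^ n` kills `X n`. -/
theorem natCast_pow_eq_zero (n : ℕ) : ((p ^ n : ℕ) : AddMonoid.End (R ⊗[ℤ] D.K n)) = 0 := by
  rw [← map_natCast (ringX D R n), natCast_pow_K D n, map_zero]

theorem pow_smul_eq_zero (n : ℕ) (k : D.K n) : ((p ^ n : ℕ) : ℤ) • k = 0 := by
  have h := DFunLike.congr_fun (natCast_pow_K D n) k
  rw [natCast_zsmul]
  rwa [AddMonoid.End.natCast_apply] at h

section Quot

variable {ι : Type*} [Fintype ι] (s : ι → R)

/-- `(x_i) ↦ ∑ s_i ⊗ x_i` -/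
def sumMap (n : ℕ) : (ι → D.K n) →+ R ⊗[ℤ] D.K n where
  toFun x := ∑ i, s i ⊗ₜ[ℤ] x i
  map_zero' := by simp
  map_add' x y := by simp [TensorProduct.tmul_add, Finset.sum_add_distrib]

theorem sumMap_apply (n : ℕ) (x : ι → D.K n) : sumMap D R s n x = ∑ i, s i ⊗ₜ[ℤ] x i := rfl

theorem sumMap_single [DecidableEq ι] (n : ℕ) (i : ι) (k : D.K n) :
    sumMap D R s n (Pi.single i k) = s i ⊗ₜ[ℤ] k := by
  rw [sumMap_apply, Finset.sum_eq_single i]
  · rw [Pi.single_eq_same]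
  · intro j _ hj
    rw [Pi.single_eq_of_ne hj, TensorProduct.tmul_zero]
  · intro h
    exact absurd (Finset.mem_univ i) h

theorem sumMap_surjective (n : ℕ)
    (hs : ∀ r : R, ∃ (i : ι) (r' : R), r = s i + ((p ^ n : ℕ) : R) * r') :
    Surjective (sumMap D R s n) := by
  classical
  intro x
  induction x using TensorProduct.induction_on with
  | zero => exact ⟨0, map_zero _⟩
  | add a b ha hb =>
    obtain ⟨a', rfl⟩ := ha
    obtain ⟨b', rfl⟩ := hb
    exact ⟨a' + b', map_add _ _ _⟩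
  | tmul r k =>
    obtain ⟨i, r', rfl⟩ := hs r
    refine ⟨Pi.single i k, ?_⟩
    rw [sumMap_single, TensorProduct.add_tmul]
    have h0 : (((p ^ n : ℕ) : R) * r') ⊗ₜ[ℤ] k = 0 := by
      have e : ((p ^ n : ℕ) : R) * r' = ((p ^ n : ℕ) : ℤ) • r' := by
        rw [natCast_zsmul, nsmul_eq_mul]
      rw [e, TensorProduct.smul_tmul, pow_smul_eq_zero, TensorProduct.tmul_zero]
    rw [h0, add_zero]

theorem galX_sumMap (n : ℕ) (g : GQ) (x : ι → D.K n) :
    galX D R n g (sumMap D R s n x) = sumMap D R s n (fun i => D.gal n g (x i)) := by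
  rw [sumMap_apply, sumMap_apply, map_sum]
  exact Finset.sum_congr rfl fun i _ => galX_tmul D R n g (s i) (x i)

/-- `X n` is an equivariant quotient of a finite power of `K n`. -/
theorem isSubquotPow_galX (n : ℕ)
    (hs : ∀ r : R, ∃ (i : ι) (r' : R), r = s i + ((p ^ n : ℕ) : R) * r') :
    IsSubquotPow (fun (g : GQ) (x : D.K n) => D.gal n g x)
      (fun (g : GQ) (x : R ⊗[ℤ] D.K n) => galX D R n g x) := by
  refine IsSubquotPow.of_fintype (ι := ι) (⊤ : AddSubgroup (ι → D.K n))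
    ((sumMap D R s n).comp (AddSubgroup.subtype ⊤)) ?_ (fun _ _ _ => AddSubgroup.mem_top _) ?_
  · intro y
    obtain ⟨x, rfl⟩ := sumMap_surjective D R s n hs y
    exact ⟨⟨x, AddSubgroup.mem_top _⟩, rfl⟩
  · intro g x
    exact (galX_sumMap D R s n g x.1).symm

end Quot

section Shift

/-- the comparison map `R ⊗ Λ → R ⊗ K n` -/
def thetaX (n : ℕ) : R ⊗[ℤ] D.Λ →ₗ[R] R ⊗[ℤ] D.K n :=
  (D.Θ n).toIntLinearMap.baseChange R

theorem thetaX_tmul (n : ℕ) (r : R) (x : D.Λ) : thetaX D R n (r ⊗ₜ x) = r ⊗ₜ D.Θ n x := by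
  rw [thetaX, LinearMap.baseChange_tmul]
  rfl

/-- the comparison map intertwines the two Hecke actions -/
theorem thetaX_heckeTensor (n : ℕ) (t' : R ⊗[ℤ] heckeAlgebra N 2 (↑S : Set ℕ))
    (x : R ⊗[ℤ] D.Λ) :
    thetaX D R n (D.heckeTensor R t' x) = heckeXlin D R n t' (thetaX D R n x) := by
  induction t' using TensorProduct.induction_on with
  | zero => rw [map_zero, map_zero, LinearMap.zero_apply, LinearMap.zero_apply, map_zero]
  | add a b ha hb =>
    rw [map_add, map_add, LinearMap.add_apply, LinearMap.add_apply, map_add, ha, hb]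
  | tmul r t =>
    induction x using TensorProduct.induction_on with
    | zero => rw [map_zero, map_zero, map_zero]
    | add a b ha hb => rw [map_add, map_add, map_add, map_add, ha, hb]
    | tmul r' x =>
      rw [KumLevelData.heckeTensor, heckeXlin, tensorEndAlg_tmul, tensorEndAlg_tmul,
        LinearMap.smul_apply, LinearMap.baseChange_tmul, thetaX_tmul, LinearMap.smul_apply,
        LinearMap.baseChange_tmul, map_smul, thetaX_tmul]
      congr 2
      exact (D.heckeHom_Θ n t x).symm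

/-- the kernel of the comparison map is `p ^ n • (R ⊗ Λ)` -/
theorem exists_eq_smul_of_thetaX_eq_zero (n : ℕ) (z : R ⊗[ℤ] D.Λ) (hz : thetaX D R n z = 0) :
    ∃ y : R ⊗[ℤ] D.Λ, z = ((p : R) ^ n) • y := by
  let f : D.Λ →ₗ[ℤ] D.Λ := ((p ^ n : ℕ) : ℤ) • LinearMap.id
  let g : D.Λ →ₗ[ℤ] D.K n := (D.Θ n).toIntLinearMap
  have hfg : Function.Exact f g := by
    intro x
    constructor
    · intro hx
      obtain ⟨y, rfl⟩ := D.Θ_eq_zero n x hx
      refine ⟨y, ?_⟩
      show ((p ^ n : ℕ) : ℤ) • y = (p ^ n) • y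
      rw [natCast_zsmul]
    · rintro ⟨y, rfl⟩
      show D.Θ n (((p ^ n : ℕ) : ℤ) • y) = 0
      rw [natCast_zsmul]
      exact D.Θ_pow_smul n y
  have hg : Surjective g := D.Θ_surjective n
  have hex := lTensor_exact R hfg hg
  have hz' : (g.lTensor R) z = 0 := hz
  obtain ⟨w, rfl⟩ := (hex z).mp hz'
  refine ⟨w, ?_⟩
  have e : f.lTensor R = ((p ^ n : ℕ) : ℤ) • LinearMap.id := by
    rw [LinearMap.lTensor_smul, LinearMap.lTensor_id]
  rw [e, LinearMap.smul_apply, LinearMap.id_apply, ← Int.cast_smul_eq_zsmul R, Int.cast_natCast,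
    Nat.cast_pow]

variable [IsNoetherianRing R] [Module.Flat ℤ R]

/-- **the shift**: an element of `R ⊗ 𝕋` killing `X (k + c)` is divisible by `p ^ k`. -/
theorem exists_shift : ∃ c : ℕ, ∀ (k : ℕ) (t' : R ⊗[ℤ] heckeAlgebra N 2 (↑S : Set ℕ)),
    heckeX D R (k + c) t' = 0 → ∃ t'' : R ⊗[ℤ] heckeAlgebra N 2 (↑S : Set ℕ),
      t' = ((p : R) ^ k) • t'' := by
  obtain ⟨c, hc⟩ := FaithShift.exists_faith_shift (D.heckeTensor R)
    (D.heckeTensor_injective R) (p : R)
  refine ⟨c, fun k t' h => hc k t' fun x => ?_⟩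
  apply exists_eq_smul_of_thetaX_eq_zero D R (k + c)
  rw [thetaX_heckeTensor]
  exact DFunLike.congr_fun h (thetaX D R (k + c) x)

end Shift

end Fermat.Agent.GH.S32.InstCore
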