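/-
GATE-H / S32, node INST, auxiliary lemmas (helper47).
-/
import Fermat.Agent.GH.S32.InstCore

set_option autoImplicit false

namespace Fermat.Agent.GH.S32.InstAux47

open Function IsLocalRing

/-- the trivial case: a subsingleton target -/
theorem isSubquotPow_of_subsingleton {G M M' : Type*} [AddCommGroup M] [AddCommGroup M']
    [Subsingleton M'] (act : G → M → M) (act' : G → M' → M') : IsSubquotPow act act' := by
  refine IsSubquotPow.of_fintype (ι := Empty) (⊤ : AddSubgroup (Empty → M)) 0 ?_
    (fun _ _ _ => AddSubgroup.mem_top _) ?_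
  · intro y
    exact ⟨0, Subsingleton.elim _ _⟩
  · intro g x
    exact Subsingleton.elim _ _

section DVR

variable {O : Type*} [CommRing O] [IsDomain O] [IsDiscreteValuationRing O]
  [Finite (ResidueField O)]

/-- quotients of a DVR with finite residue field by nonzero principal ideals are finite -/
theorem finite_quotient_span {a : O} (ha0 : a ≠ 0) : Finite (O ⧸ Ideal.span {a}) := by
  obtain ⟨ϖ, hϖ⟩ := IsDiscreteValuationRing.exists_irreducible O
  have hm : maximalIdeal O = Ideal.span {ϖ} :=
    (IsDiscreteValuationRing.irreducible_iff_uniformizer ϖ).mp hϖ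
  have hne : Ideal.span {a} ≠ ⊥ := by
    rw [Ne, Ideal.span_singleton_eq_bot]
    exact ha0
  obtain ⟨e, he⟩ := IsDiscreteValuationRing.ideal_eq_span_pow_irreducible hne hϖ
  have h3 : Ideal.span {a} = (maximalIdeal O) ^ e := by
    rw [he, hm, Ideal.span_singleton_pow]
  rw [h3]
  have : Finite (O ⧸ maximalIdeal O) := inferInstanceAs (Finite (ResidueField O))
  exact Ideal.finite_quotient_pow (IsNoetherian.noetherian _) e

end DVR

section Local

variable {T : Type*} [CommRing T] [IsLocalRing T]

/-- a proper ideal of finite index in a local ring contains a power of the maximal ideal -/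
theorem exists_pow_le_of_finite_quotient (I : Ideal T) (hI : I ≠ ⊤) [Finite (T ⧸ I)] :
    ∃ k : ℕ, maximalIdeal T ^ k ≤ I := by
  have : Nontrivial (T ⧸ I) := Ideal.Quotient.nontrivial_iff.mpr hI
  have hloc : IsLocalRing (T ⧸ I) :=
    IsLocalRing.of_surjective' (Ideal.Quotient.mk I) Ideal.Quotient.mk_surjective
  have hlh : IsLocalHom (Ideal.Quotient.mk I) :=
    IsLocalHom.of_surjective _ Ideal.Quotient.mk_surjective
  have hnil : IsNilpotent (Ideal.jacobson (⊥ : Ideal (T ⧸ I))) :=
    IsArtinianRing.isNilpotent_jacobson_bot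
  rw [IsLocalRing.jacobson_eq_maximalIdeal ⊥ bot_ne_top] at hnil
  obtain ⟨k, hk⟩ := hnil
  refine ⟨k, fun x hx => ?_⟩
  have h1 : (maximalIdeal T).map (Ideal.Quotient.mk I) ≤ maximalIdeal (T ⧸ I) := by
    rw [Ideal.map_le_iff_le_comap]
    intro y hy
    exact map_nonunit (Ideal.Quotient.mk I) y hy
  have h2 : Ideal.Quotient.mk I x ∈ maximalIdeal (T ⧸ I) ^ k := by
    have := Ideal.mem_map_of_mem (Ideal.Quotient.mk I) hx
    rw [Ideal.map_pow] at this
    exact Ideal.pow_right_mono h1 k this
  rw [hk] at h2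
  exact Ideal.Quotient.eq_zero_iff_mem.mp h2

/-- `2` is a unit in a local ring of odd residue characteristic -/
theorem isUnit_two {p : ℕ} (hp : p.Prime) (hp2 : p ≠ 2) (hpT : (p : T) ∈ maximalIdeal T) :
    IsUnit (2 : T) := by
  rw [← IsLocalRing.notMem_maximalIdeal]
  intro h2
  obtain ⟨j, hj⟩ := hp.eq_two_or_odd'.resolve_left hp2
  have h1 : (1 : T) = (p : T) - 2 * (j : T) := by
    rw [hj]
    push_cast
    ring
  have h3 : (1 : T) ∈ maximalIdeal T := by
    rw [h1]
    exact Ideal.sub_mem _ hpT (Ideal.mul_mem_right _ _ h2)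
  exact (IsLocalRing.maximalIdeal.isMaximal T).ne_top ((Ideal.eq_top_iff_one _).mpr h3)

end Local

section KFinite

open Fermat.Agent.GJ.Tate

variable {N : ℕ} [NeZero N] {S : Finset ℕ} {p : ℕ} (D : KumLevelData N S p)

/-- the Kummer groups are finite -/
theorem finite_K (hp : p ≠ 0) (n : ℕ) : Finite (D.K n) := by
  have hfg : AddGroup.FG D.Λ := Module.Finite.iff_addGroup_fg.mp inferInstance
  have : AddGroup.FG (D.K n) := AddGroup.fg_of_surjective (D.Θ_surjective n)
  apply AddCommGroup.finite_of_fg_isAddTorsion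
  intro x
  rw [isOfFinAddOrder_iff_nsmul_eq_zero]
  refine ⟨p ^ n, pow_pos (Nat.pos_of_ne_zero hp) n, ?_⟩
  have h := InstCore.pow_smul_eq_zero D n x
  rwa [natCast_zsmul] at h

end KFinite

end Fermat.Agent.GH.S32.InstAux47
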