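/-
GATE-H / S32, node LOC (helper47).

Pure algebra (Mathlib only).  A commutative ring `𝒯` ("big Hecke ring") acts on a finite abelian
group `X` through `hecke : 𝒯 →+* AddMonoid.End X`; `𝔪` is a maximal ideal of `𝒯`.

* `HMod hecke` : `X` as a `𝒯`-module.
* `exists_cut` : (Nakayama, no idempotents) there are `k` and `ẽ ≡ 1 mod 𝔪` with
  `𝔪 ^ k • ẽ • X = 0`, i.e. `ẽ • X ⊆ prim hecke 𝔪 k := X[𝔪 ^ k]`.
* `Rloc hecke 𝔪 k := 𝒯 ⧸ Ann (X[𝔪 ^ k])` : finite, local, acting faithfully on `X[𝔪 ^ k]`.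
* `mk_eq_zero_of_forall` / `annihilator_le_ker` : an element of `𝒯` killing `X[𝔪 ^ k]` lies in the
  kernel of every `π : 𝒯 →+* C` which (1) kills the annihilator of `X` and (2) has `π ẽ` a unit.
-/
import Mathlib

set_option autoImplicit false

namespace Fermat.Agent.GH.S32.Loc

open Function

section Basic

variable {𝒯 : Type*} [CommRing 𝒯] {X : Type*} [AddCommGroup X]

/-- `X` as a `𝒯`-module through `hecke` (type synonym). -/
def HMod (_hecke : 𝒯 →+* AddMonoid.End X) : Type _ := X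

variable (hecke : 𝒯 →+* AddMonoid.End X)

instance : AddCommGroup (HMod hecke) := inferInstanceAs (AddCommGroup X)

instance : Module 𝒯 (HMod hecke) := Module.compHom X hecke

instance [Finite X] : Finite (HMod hecke) := inferInstanceAs (Finite X)

/-- the identity `X → HMod hecke` -/
def toH : X ≃+ HMod hecke := AddEquiv.refl X

theorem smul_toH (t : 𝒯) (x : X) : t • toH hecke x = toH hecke (hecke t x) := rfl

theorem smul_def (t : 𝒯) (x : HMod hecke) : t • x = toH hecke (hecke t ((toH hecke).symm x)) := rfl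

variable (𝔪 : Ideal 𝒯)

/-- `X[𝔪 ^ k]` -/
def prim (k : ℕ) : Submodule 𝒯 (HMod hecke) where
  carrier := {x | ∀ s ∈ 𝔪 ^ k, s • x = 0}
  add_mem' := fun {x y} hx hy s hs => by rw [smul_add, hx s hs, hy s hs, add_zero]
  zero_mem' := fun s _ => smul_zero s
  smul_mem' := fun t x hx s hs => by rw [smul_comm, hx s hs, smul_zero]

theorem mem_prim {k : ℕ} {x : HMod hecke} : x ∈ prim hecke 𝔪 k ↔ ∀ s ∈ 𝔪 ^ k, s • x = 0 :=
  Iff.rfl

/-- **the cut** (Nakayama): `ẽ ≡ 1 mod 𝔪` with `ẽ • X ⊆ X[𝔪 ^ k]`. -/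
theorem exists_cut [Finite X] :
    ∃ (k : ℕ) (e : 𝒯), e - 1 ∈ 𝔪 ∧ ∀ x : HMod hecke, e • x ∈ prim hecke 𝔪 k := by
  -- the descending chain `𝔪 ^ k • ⊤` stabilises
  let f : ℕ →o (Submodule 𝒯 (HMod hecke))ᵒᵈ :=
    ⟨fun k => OrderDual.toDual (𝔪 ^ k • (⊤ : Submodule 𝒯 (HMod hecke))), by
      intro a b hab
      show 𝔪 ^ b • (⊤ : Submodule 𝒯 (HMod hecke)) ≤ 𝔪 ^ a • ⊤
      exact Submodule.smul_mono_left (Ideal.pow_le_pow_right hab)⟩
  obtain ⟨k, hk⟩ := IsArtinian.monotone_stabilizes f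
  have hk1 : 𝔪 ^ k • (⊤ : Submodule 𝒯 (HMod hecke)) = 𝔪 ^ (k + 1) • ⊤ :=
    congrArg OrderDual.ofDual (hk (k + 1) (Nat.le_succ k))
  have hle : 𝔪 ^ k • (⊤ : Submodule 𝒯 (HMod hecke)) ≤ 𝔪 • (𝔪 ^ k • ⊤) := by
    rw [← Submodule.mul_smul, ← pow_succ', ← hk1]
  have hfg : (𝔪 ^ k • (⊤ : Submodule 𝒯 (HMod hecke))).FG :=
    IsNoetherian.noetherian _
  obtain ⟨e, he1, he2⟩ :=
    Submodule.exists_sub_one_mem_and_smul_eq_zero_of_fg_of_le_smul 𝔪 _ hfg hle
  refine ⟨k, e, he1, fun x s hs => ?_⟩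
  rw [smul_comm]
  exact he2 _ (Submodule.smul_mem_smul hs Submodule.mem_top)

end Basic

section Ring

variable {𝒯 : Type*} [CommRing 𝒯] {X : Type*} [AddCommGroup X]
  (hecke : 𝒯 →+* AddMonoid.End X) (𝔪 : Ideal 𝒯) (k : ℕ)

/-- the local Hecke ring: `𝒯` modulo the annihilator of `X[𝔪 ^ k]` -/
abbrev Rloc : Type _ := 𝒯 ⧸ Module.annihilator 𝒯 (prim hecke 𝔪 k)

instance : Module (Rloc hecke 𝔪 k) (prim hecke 𝔪 k) := Module.quotientAnnihilator

theorem mk_smul (t : 𝒯) (x : prim hecke 𝔪 k) :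
    (Ideal.Quotient.mk (Module.annihilator 𝒯 (prim hecke 𝔪 k)) t : Rloc hecke 𝔪 k) • x = t • x :=
  rfl

/-- faithfulness, by construction -/
theorem eq_zero_of_forall_smul (r : Rloc hecke 𝔪 k) (h : ∀ x : prim hecke 𝔪 k, r • x = 0) :
    r = 0 := by
  obtain ⟨t, rfl⟩ := Ideal.Quotient.mk_surjective r
  rw [Ideal.Quotient.eq_zero_iff_mem, Module.mem_annihilator]
  intro x
  exact h x

theorem pow_le_annihilator : 𝔪 ^ k ≤ Module.annihilator 𝒯 (prim hecke 𝔪 k) := by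
  intro s hs
  rw [Module.mem_annihilator]
  intro x
  apply Subtype.ext
  exact x.2 s hs

instance [Finite X] : Finite (Rloc hecke 𝔪 k) := by
  let φ : Rloc hecke 𝔪 k → (prim hecke 𝔪 k → prim hecke 𝔪 k) := fun r x => r • x
  have hφ : Injective φ := by
    intro r r' h
    rw [← sub_eq_zero]
    apply eq_zero_of_forall_smul
    intro x
    rw [sub_smul, sub_eq_zero]
    exact congrFun h x
  exact Finite.of_injective φ hφ

theorem isNilpotent_mk_of_mem {t : 𝒯} (ht : t ∈ 𝔪) :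
    IsNilpotent (Ideal.Quotient.mk (Module.annihilator 𝒯 (prim hecke 𝔪 k)) t) := by
  refine ⟨k, ?_⟩
  rw [← map_pow, Ideal.Quotient.eq_zero_iff_mem]
  exact pow_le_annihilator hecke 𝔪 k (Ideal.pow_mem_pow ht k)

theorem isUnit_mk_of_notMem [h𝔪 : 𝔪.IsMaximal] {t : 𝒯} (ht : t ∉ 𝔪) :
    IsUnit (Ideal.Quotient.mk (Module.annihilator 𝒯 (prim hecke 𝔪 k)) t) := by
  obtain ⟨y, i, hi, hyi⟩ := h𝔪.exists_inv ht
  have h1 : Ideal.Quotient.mk (Module.annihilator 𝒯 (prim hecke 𝔪 k)) y *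
      Ideal.Quotient.mk (Module.annihilator 𝒯 (prim hecke 𝔪 k)) t =
      1 - Ideal.Quotient.mk (Module.annihilator 𝒯 (prim hecke 𝔪 k)) i := by
    rw [← map_mul, ← map_one (Ideal.Quotient.mk _), ← map_sub, ← hyi, add_sub_cancel_right]
  have h2 : IsUnit (1 - Ideal.Quotient.mk (Module.annihilator 𝒯 (prim hecke 𝔪 k)) i) :=
    (isNilpotent_mk_of_mem hecke 𝔪 k hi).isUnit_one_sub
  rw [← h1] at h2
  exact isUnit_of_mul_isUnit_right h2

/-- `Rloc` is local as soon as it is nontrivial. -/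
theorem isLocalRing [h𝔪 : 𝔪.IsMaximal] [Nontrivial (Rloc hecke 𝔪 k)] :
    IsLocalRing (Rloc hecke 𝔪 k) := by
  apply IsLocalRing.of_isUnit_or_isUnit_one_sub_self
  intro a
  obtain ⟨t, rfl⟩ := Ideal.Quotient.mk_surjective a
  by_cases ht : t ∈ 𝔪
  · exact Or.inr (isNilpotent_mk_of_mem hecke 𝔪 k ht).isUnit_one_sub
  · exact Or.inl (isUnit_mk_of_notMem hecke 𝔪 k ht)

end Ring

section Hom

variable {𝒯 : Type*} [CommRing 𝒯] {X : Type*} [AddCommGroup X]
  (hecke : 𝒯 →+* AddMonoid.End X) (𝔪 : Ideal 𝒯) (k : ℕ)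
  {C : Type*} [CommRing C] (π : 𝒯 →+* C)

/-- an element killing `X[𝔪 ^ k]` lies in the kernel of `π`, if `π` kills the annihilator of `X`
and the cut `e` maps to a unit. -/
theorem annihilator_le_ker (hker : ∀ t, hecke t = 0 → π t = 0) (e : 𝒯)
    (he : ∀ x : HMod hecke, e • x ∈ prim hecke 𝔪 k) (heu : IsUnit (π e)) :
    Module.annihilator 𝒯 (prim hecke 𝔪 k) ≤ RingHom.ker π := by
  intro t ht
  rw [Module.mem_annihilator] at ht
  have h0 : hecke (t * e) = 0 := by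
    ext x
    have h1 := congrArg Subtype.val (ht ⟨e • toH hecke x, he _⟩)
    have h2 : (t * e) • toH hecke x = 0 := by rw [mul_smul]; exact h1
    exact h2
  have h3 := hker _ h0
  rw [map_mul] at h3
  rw [RingHom.mem_ker]
  exact (heu.mul_left_eq_zero).mp h3

variable (hle : Module.annihilator 𝒯 (prim hecke 𝔪 k) ≤ RingHom.ker π)

/-- the induced map `Rloc → C` -/
def fR : Rloc hecke 𝔪 k →+* C :=
  Ideal.Quotient.lift _ π (fun _ ht => RingHom.mem_ker.mp (hle ht))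

theorem fR_mk (t : 𝒯) :
    fR hecke 𝔪 k π hle (Ideal.Quotient.mk _ t) = π t := rfl

theorem fR_surjective (hπ : Surjective π) : Surjective (fR hecke 𝔪 k π hle) := by
  intro c
  obtain ⟨t, rfl⟩ := hπ c
  exact ⟨Ideal.Quotient.mk _ t, rfl⟩

include hle in
theorem nontrivial_Rloc [Nontrivial C] : Nontrivial (Rloc hecke 𝔪 k) :=
  (fR hecke 𝔪 k π hle).domain_nontrivial

end Hom

section Galois

variable {𝒯 : Type*} [CommRing 𝒯] {X : Type*} [AddCommGroup X]
  (hecke : 𝒯 →+* AddMonoid.End X) (𝔪 : Ideal 𝒯) (k : ℕ)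
  {G : Type*} [Group G] (gal : G →* AddMonoid.End X)
  (hcomm : ∀ t g, Commute (hecke t) (gal g))

include hcomm in
theorem gal_smul (g : G) (t : 𝒯) (x : HMod hecke) :
    toH hecke (gal g ((toH hecke).symm (t • x))) = t • toH hecke (gal g ((toH hecke).symm x)) := by
  have h := congrArg (fun f : AddMonoid.End X => f ((toH hecke).symm x)) (hcomm t g).eq
  exact h.symm

include hcomm in
theorem gal_mem_prim (g : G) (x : HMod hecke) (hx : x ∈ prim hecke 𝔪 k) :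
    toH hecke (gal g ((toH hecke).symm x)) ∈ prim hecke 𝔪 k := by
  intro s hs
  rw [← gal_smul hecke gal hcomm, hx s hs]
  exact map_zero (gal g)

/-- the Galois action on `X[𝔪 ^ k]`, linear over `Rloc` -/
def actR : G →* Module.End (Rloc hecke 𝔪 k) (prim hecke 𝔪 k) where
  toFun g :=
    { toFun := fun x => ⟨toH hecke (gal g ((toH hecke).symm x.1)),
        gal_mem_prim hecke 𝔪 k gal hcomm g x.1 x.2⟩
      map_add' := fun x y => Subtype.ext (map_add (gal g) _ _)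
      map_smul' := fun r x => by
        obtain ⟨t, rfl⟩ := Ideal.Quotient.mk_surjective r
        apply Subtype.ext
        exact gal_smul hecke gal hcomm g t x.1 }
  map_one' := by
    ext x
    show gal 1 _ = _
    rw [map_one]
    rfl
  map_mul' g h := by
    ext x
    show gal (g * h) _ = _
    rw [map_mul]
    rfl

theorem coe_actR (g : G) (x : prim hecke 𝔪 k) :
    ((actR hecke 𝔪 k gal hcomm g x : prim hecke 𝔪 k) : HMod hecke) =
      toH hecke (gal g ((toH hecke).symm x.1)) := rfl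

end Galois

section Delta

variable {𝒯 : Type*} [CommRing 𝒯] {X : Type*} [AddCommGroup X]
  (hecke : 𝒯 →+* AddMonoid.End X) (𝔪 : Ideal 𝒯) (k : ℕ)
  {G : Type*} [Group G] (gal : G →* AddMonoid.End X)
  (hcomm : ∀ t g, Commute (hecke t) (gal g))
  {m : ℕ} (hm : (m : AddMonoid.End X) = 0) (δ : G →* (ZMod m)ˣ)

include hm in
theorem natCast_mem_annihilator : (m : 𝒯) ∈ Module.annihilator 𝒯 (prim hecke 𝔪 k) := by
  rw [Module.mem_annihilator]
  intro x
  apply Subtype.ext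
  show toH hecke (hecke (m : 𝒯) ((toH hecke).symm x.1)) = 0
  rw [map_natCast, hm]
  rfl

/-- `ZMod m → Rloc` -/
def zmodHom : ZMod m →+* Rloc hecke 𝔪 k :=
  (Ideal.Quotient.lift (Ideal.span {(m : ℤ)}) (Int.castRingHom (Rloc hecke 𝔪 k)) (by
    intro a ha
    obtain ⟨b, rfl⟩ := Ideal.mem_span_singleton'.mp ha
    rw [map_mul, map_natCast]
    have h0 : ((m : ℕ) : Rloc hecke 𝔪 k) = 0 := by
      rw [← map_natCast (Ideal.Quotient.mk (Module.annihilator 𝒯 (prim hecke 𝔪 k))),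
        Ideal.Quotient.eq_zero_iff_mem]
      exact natCast_mem_annihilator hecke 𝔪 k hm
    rw [h0, mul_zero])).comp
    (Int.quotientSpanNatEquivZMod m).symm.toRingHom

/-- the character with values in `Rlocˣ` -/
def δR : G →* (Rloc hecke 𝔪 k)ˣ :=
  (Units.map (zmodHom hecke 𝔪 k hm).toMonoidHom).comp δ

theorem coe_δR (g : G) (c : ℕ) (hc : (c : ZMod m) = δ g) :
    ((δR hecke 𝔪 k hm δ g : (Rloc hecke 𝔪 k)ˣ) : Rloc hecke 𝔪 k) = (c : Rloc hecke 𝔪 k) := by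
  show zmodHom hecke 𝔪 k hm ((δ g : (ZMod m)ˣ) : ZMod m) = _
  rw [← hc, map_natCast]

/-- the Cayley–Hamilton relation on `X[𝔪 ^ k]` -/
theorem rel_of (g : G) (t : 𝒯) (c : ℕ) (hc : (c : ZMod m) = δ g)
    (ht : hecke t = gal g + (c : AddMonoid.End X) * gal g⁻¹) :
    actR hecke 𝔪 k gal hcomm g +
      ((δR hecke 𝔪 k hm δ g : (Rloc hecke 𝔪 k)ˣ) : Rloc hecke 𝔪 k) •
        actR hecke 𝔪 k gal hcomm g⁻¹ =
      (Ideal.Quotient.mk (Module.annihilator 𝒯 (prim hecke 𝔪 k)) t : Rloc hecke 𝔪 k) •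
        (1 : Module.End (Rloc hecke 𝔪 k) (prim hecke 𝔪 k)) := by
  ext x
  rw [coe_δR hecke 𝔪 k hm δ g c hc, LinearMap.add_apply, LinearMap.smul_apply,
    LinearMap.smul_apply, Module.End.one_apply, Nat.cast_smul_eq_nsmul, mk_smul]
  show toH hecke (gal g ((toH hecke).symm x.1)) +
      c • toH hecke (gal g⁻¹ ((toH hecke).symm x.1)) = toH hecke (hecke t ((toH hecke).symm x.1))
  rw [ht]
  rfl

theorem eq_mk_of_rel (g : G) (t : 𝒯) (c : ℕ) (hc : (c : ZMod m) = δ g)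
    (ht : hecke t = gal g + (c : AddMonoid.End X) * gal g⁻¹) (r : Rloc hecke 𝔪 k)
    (hr : actR hecke 𝔪 k gal hcomm g +
      ((δR hecke 𝔪 k hm δ g : (Rloc hecke 𝔪 k)ˣ) : Rloc hecke 𝔪 k) •
        actR hecke 𝔪 k gal hcomm g⁻¹ =
      r • (1 : Module.End (Rloc hecke 𝔪 k) (prim hecke 𝔪 k))) :
    r = Ideal.Quotient.mk (Module.annihilator 𝒯 (prim hecke 𝔪 k)) t := by
  rw [rel_of hecke 𝔪 k gal hcomm hm δ g t c hc ht] at hr
  rw [← sub_eq_zero]
  apply eq_zero_of_forall_smul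
  intro x
  have h := LinearMap.congr_fun hr x
  rw [LinearMap.smul_apply, LinearMap.smul_apply, Module.End.one_apply] at h
  rw [sub_smul, ← h, sub_self]

end Delta

end Fermat.Agent.GH.S32.Loc
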