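/-
GATE-H / S32, Tate side, (GMA₂) core (helper51; second seat on helper93's S32-TATE-GMA, 4590 §2/§3).
Mathlib-only.

`R` a commutative local ring with `2 ∈ Rˣ`, `B` an `R`-algebra with `R → B` injective, carrying a
"trace involution": an `R`-linear anti-involution `ι` and an `R`-linear `τ : B → R` with
`b + ι b = τ b`, and an `R`-algebra surjection `π : B → M₂(k)` (`k` the residue field) with nil
kernel.  THEN `B` is the matrix algebra `M₂(R)`:
there are `e e' x y : B` with the matrix-unit relations, `B = R e ⊕ R x ⊕ R y ⊕ R e'`.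

Steps (ii)–(vi) of helper93's proof:
* `nrm`, `mul_inv_eq` : `b * ι b = nrm b ∈ R`, multiplicative;
* `exists_units` : the matrix units;
* `span_units`, `units_independent` : `B` is free on `e, x, y, e'`.
-/
import Mathlib

set_option autoImplicit false

noncomputable section

namespace Fermat.Agent.GH.S32.GmaCore

open Matrix

/-- A trace involution on an `R`-algebra `B`: an `R`-linear anti-involution `ι` and an `R`-linear
form `τ` with `b + ι b = τ b`. -/
structure TraceInv (R : Type*) (B : Type*) [CommRing R] [Ring B] [Algebra R B] where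
  /-- the involution -/
  inv : B →ₗ[R] B
  /-- the trace -/
  tr : B →ₗ[R] R
  inv_mul : ∀ a b, inv (a * b) = inv b * inv a
  inv_inv : ∀ b, inv (inv b) = b
  add_inv : ∀ b, b + inv b = algebraMap R B (tr b)

/-- idempotents of a local ring -/
theorem eq_zero_or_one_of_idem {R : Type*} [CommRing R] [IsLocalRing R] {r : R} (h : r * r = r) :
    r = 0 ∨ r = 1 := by
  have h0 : r * (1 - r) = 0 := by rw [mul_sub, mul_one, h, sub_self]
  rcases IsLocalRing.isUnit_or_isUnit_one_sub_self r with hu | hu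
  · right
    have := hu.mul_left_cancel (h0.trans (mul_zero r).symm)
    exact (sub_eq_zero.1 this).symm
  · left
    have h1 : (1 - r) * r = (1 - r) * 0 := by rw [mul_comm, h0, mul_zero]
    exact hu.mul_left_cancel h1

namespace TraceInv

variable {R : Type*} {B : Type*} [CommRing R] [Ring B] [Algebra R B] (D : TraceInv R B)

local notation "a" => algebraMap R B

theorem inv_eq (b : B) : D.inv b = a (D.tr b) - b := by
  rw [← D.add_inv b, add_sub_cancel_left]

theorem inv_one : D.inv 1 = 1 := by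
  have h : ∀ c, D.inv 1 * c = c := fun c => by
    have := D.inv_mul (D.inv c) 1
    rw [mul_one, D.inv_inv] at this
    exact this.symm
  have := h 1
  rwa [mul_one] at this

theorem inv_algebraMap_mul (r : R) (b : B) : D.inv (a r * b) = a r * D.inv b := by
  rw [← Algebra.smul_def, map_smul, Algebra.smul_def]

theorem inv_algebraMap (r : R) : D.inv (a r) = a r := by
  have := D.inv_algebraMap_mul r 1
  rwa [mul_one, D.inv_one, mul_one] at this

theorem commute_inv (b : B) : Commute b (D.inv b) := by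
  rw [D.inv_eq]
  exact (Algebra.commute_algebraMap_right _ _).sub_right (Commute.refl b)

theorem tr_inv (b : B) (hinj : Function.Injective a) : D.tr (D.inv b) = D.tr b := by
  apply hinj
  rw [← D.add_inv (D.inv b), D.inv_inv, add_comm, D.add_inv]

variable (h2 : IsUnit (2 : R))

/-- the norm `b * ι b ∈ R` -/
def nrm (b : B) : R := ((h2.unit⁻¹ : Rˣ) : R) * D.tr (b * D.inv b)

theorem mul_inv_eq (b : B) : b * D.inv b = a (D.nrm h2 b) := by
  have hfix : D.inv (b * D.inv b) = b * D.inv b := by rw [D.inv_mul, D.inv_inv]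
  have h := D.add_inv (b * D.inv b)
  rw [hfix] at h
  have h' : a 2 * (b * D.inv b) = a (D.tr (b * D.inv b)) := by
    rw [← h, map_ofNat, two_mul]
  unfold nrm
  rw [map_mul, ← h', ← mul_assoc, ← map_mul, IsUnit.val_inv_mul, map_one, one_mul]

theorem inv_mul_eq (b : B) : D.inv b * b = a (D.nrm h2 b) := by
  rw [← (D.commute_inv b).eq, D.mul_inv_eq h2]

theorem nrm_mul (hinj : Function.Injective a) (b c : B) :
    D.nrm h2 (b * c) = D.nrm h2 b * D.nrm h2 c := by
  apply hinj
  calc a (D.nrm h2 (b * c)) = b * ((c * D.inv c) * D.inv b) := by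
        rw [← D.mul_inv_eq h2, D.inv_mul, mul_assoc, mul_assoc]
    _ = a (D.nrm h2 c) * (b * D.inv b) := by
        rw [D.mul_inv_eq h2 c, ← mul_assoc, ← Algebra.commutes (D.nrm h2 c) b, mul_assoc]
    _ = a (D.nrm h2 b * D.nrm h2 c) := by
        rw [D.mul_inv_eq h2 b, ← map_mul, mul_comm]

end TraceInv

/-! ### The matrix units of `M₂(k)` -/

section Units

variable (k : Type*) [Field k]

/-- `E₁₁` -/
def E11 : Matrix (Fin 2) (Fin 2) k := !![1, 0; 0, 0]
/-- `E₁₂` -/
def E12 : Matrix (Fin 2) (Fin 2) k := !![0, 1; 0, 0]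
/-- `E₂₁` -/
def E21 : Matrix (Fin 2) (Fin 2) k := !![0, 0; 1, 0]
/-- `E₂₂` -/
def E22 : Matrix (Fin 2) (Fin 2) k := !![0, 0; 0, 1]

theorem E11_idem : IsIdempotentElem (E11 k) := by
  unfold IsIdempotentElem E11
  rw [Matrix.mul_fin_two]
  simp

theorem E11_ne_one : E11 k ≠ 1 := by
  intro h
  have := congrFun (congrFun h 1) 1
  simp [E11] at this

theorem E11_ne_zero : E11 k ≠ 0 := by
  intro h
  have := congrFun (congrFun h 0) 0
  simp [E11] at this

theorem one_sub_E11 : 1 - E11 k = E22 k := by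
  unfold E11 E22
  rw [Matrix.one_fin_two]
  ext i j
  fin_cases i <;> fin_cases j <;> simp

theorem E11_mul_E12_mul_E22 : E11 k * E12 k * E22 k = E12 k := by
  unfold E11 E12 E22
  rw [Matrix.mul_fin_two, Matrix.mul_fin_two]
  simp

theorem E22_mul_E21_mul_E11 : E22 k * E21 k * E11 k = E21 k := by
  unfold E11 E21 E22
  rw [Matrix.mul_fin_two, Matrix.mul_fin_two]
  simp

theorem E12_mul_E21 : E12 k * E21 k = E11 k := by
  unfold E11 E12 E21
  rw [Matrix.mul_fin_two]
  simp

theorem algebraMap_mul_E11_apply (c : k) :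
    (algebraMap k (Matrix (Fin 2) (Fin 2) k) c * E11 k) 0 0 = c := by
  rw [Matrix.algebraMap_eq_diagonal]
  simp [E11, Matrix.diagonal_mul]

end Units

/-! ### The main theorem -/

section Main

variable {R : Type*} [CommRing R] [IsLocalRing R] {B : Type*} [Ring B] [Algebra R B]
  (D : TraceInv R B) (h2 : IsUnit (2 : R)) (hinj : Function.Injective (algebraMap R B))
  (π : B →+* Matrix (Fin 2) (Fin 2) (IsLocalRing.ResidueField R))
  (hπsurj : Function.Surjective π) (hπnil : ∀ b, π b = 0 → IsNilpotent b)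
  (hπR : ∀ r : R, π (algebraMap R B r) =
    algebraMap (IsLocalRing.ResidueField R) (Matrix (Fin 2) (Fin 2) (IsLocalRing.ResidueField R))
      (IsLocalRing.residue R r))

local notation "a" => algebraMap R B

/-- The matrix units: the data `(e, x, y, e')` with the multiplication table of `M₂`. -/
structure IsUnits (e x y e' : B) : Prop where
  ee : e * e = e
  e'e' : e' * e' = e'
  add : e + e' = 1
  ee' : e * e' = 0
  e'e : e' * e = 0
  xy : x * y = e
  yx : y * x = e'
  ex : e * x = x
  xe' : x * e' = x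
  e'y : e' * y = y
  ye : y * e = y

namespace IsUnits

variable {e x y e' : B} (h : IsUnits e x y e')
include h

theorem xe : x * e = 0 := by rw [← h.xe', mul_assoc, h.e'e, mul_zero]
theorem e'x : e' * x = 0 := by rw [← h.ex, ← mul_assoc, h.e'e, zero_mul]
theorem ey : e * y = 0 := by rw [← h.e'y, ← mul_assoc, h.ee', zero_mul]
theorem ye' : y * e' = 0 := by rw [← h.ye, mul_assoc, h.ee', mul_zero]
theorem xx : x * x = 0 := by
  have h1 : x * x = x * e' * (e * x) := by rw [h.xe', h.ex]
  rw [h1, mul_assoc, ← mul_assoc e', h.e'e, zero_mul, mul_zero]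
theorem yy : y * y = 0 := by
  have h1 : y * y = y * e * (e' * y) := by rw [h.ye, h.e'y]
  rw [h1, mul_assoc, ← mul_assoc e, h.ee', zero_mul, mul_zero]

end IsUnits

include D h2 hinj hπsurj hπnil hπR in
/-- **(GMA₂) core, matrix-unit form.** -/
theorem exists_matrix_units :
    ∃ e x y e' : B, IsUnits e x y e' ∧
      (∀ b : B, ∃ α β γ δ : R, b = α • e + β • x + γ • y + δ • e') ∧
      (∀ r : R, r • e = 0 → r = 0) ∧ (∀ r : R, r • e' = 0 → r = 0) ∧
      D.tr e = 1 ∧ D.tr x = 0 ∧ D.tr y = 0 ∧ D.tr e' = 1 ∧ D.inv e = e' := by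
  classical
  -- Step 1: lift `E₁₁`
  obtain ⟨e, he, hπe⟩ := exists_isIdempotentElem_eq_of_ker_isNilpotent π
    (fun b hb => hπnil b hb) (E11 _) (hπsurj (E11 _) |>.elim fun b hb => ⟨b, hb⟩) (E11_idem _)
  have hee : e * e = e := he.eq
  -- Step 2: `nrm e = 0`
  have hn : D.nrm h2 e = 0 := by
    have hid : D.nrm h2 e * D.nrm h2 e = D.nrm h2 e := by rw [← D.nrm_mul h2 hinj, hee]
    rcases eq_zero_or_one_of_idem hid with h | h
    · exact h
    · exfalso
      have h1 : e * D.inv e = 1 := by rw [D.mul_inv_eq h2, h, map_one]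
      have h3 : e = 1 := by
        calc e = e * (e * D.inv e) := by rw [h1, mul_one]
          _ = e * D.inv e := by rw [← mul_assoc, hee]
          _ = 1 := h1
      have : π e = 1 := by rw [h3, map_one]
      rw [hπe] at this
      exact E11_ne_one _ this
  obtain ⟨e', he'def⟩ : ∃ e', e' = D.inv e := ⟨_, rfl⟩
  have hinve' : D.inv e' = e := by rw [he'def, D.inv_inv]
  have hee' : e * e' = 0 := by rw [he'def, D.mul_inv_eq h2, hn, map_zero]
  have he'e : e' * e = 0 := by rw [he'def, D.inv_mul_eq h2, hn, map_zero]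
  have he'e' : e' * e' = e' := by rw [he'def, ← D.inv_mul, hee]
  -- Step 3: `τ e = 1`
  have hsum : e + e' = a (D.tr e) := by rw [he'def]; exact D.add_inv e
  have hτid : D.tr e * D.tr e = D.tr e := by
    apply hinj
    rw [map_mul, ← hsum, add_mul, mul_add, mul_add, hee, hee', he'e, he'e', add_zero, zero_add]
  have hτ1 : D.tr e = 1 := by
    rcases eq_zero_or_one_of_idem hτid with h | h
    · exfalso
      rw [h, map_zero] at hsum
      have h3 : e' = -e := eq_neg_of_add_eq_zero_right hsum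
      have h4 := hee'
      rw [h3, mul_neg, hee, neg_eq_zero] at h4
      rw [h4, map_zero] at hπe
      exact E11_ne_zero _ hπe.symm
    · exact h
  have hone : e + e' = 1 := by rw [hsum, hτ1, map_one]
  have hπe' : π e' = E22 _ := by
    have : π e' = 1 - π e := by rw [← map_one π, ← hone, map_add, add_sub_cancel_left]
    rw [this, hπe, one_sub_E11]
  -- scalars killing `e` or `e'` vanish
  have hkill : ∀ r : R, r • e = 0 → r = 0 := by
    intro r hr
    have h1 : r • e' = 0 := by rw [he'def, ← map_smul, hr, map_zero]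
    apply hinj
    rw [map_zero, Algebra.algebraMap_eq_smul_one, ← hone, smul_add, hr, h1, add_zero]
  have hkill' : ∀ r : R, r • e' = 0 → r = 0 := by
    intro r hr
    have h1 : r • e = 0 := by rw [← hinve', ← map_smul, hr, map_zero]
    exact hkill r h1
  -- Step 4: the corners
  have hcorner : ∀ b : B, e * b * e = D.tr (e * b * e) • e := by
    intro b
    have h1 : D.inv (e * b * e) = e' * (D.inv b * e') := by
      rw [mul_assoc, D.inv_mul, D.inv_mul, ← he'def, mul_assoc]
    have h3 := D.add_inv (e * b * e)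
    rw [h1] at h3
    have h4 : e * (e * b * e + e' * (D.inv b * e')) = e * b * e := by
      rw [mul_add, ← mul_assoc e e', hee', zero_mul, add_zero, ← mul_assoc, ← mul_assoc, hee]
    rw [h3] at h4
    rw [Algebra.smul_def, Algebra.commutes]
    exact h4.symm
  have hcorner' : ∀ b : B, e' * b * e' = D.tr (e' * b * e') • e' := by
    intro b
    have h1 : D.inv (e' * b * e') = e * (D.inv b * e) := by
      rw [mul_assoc, D.inv_mul, D.inv_mul, hinve', mul_assoc]
    have h3 := D.add_inv (e' * b * e')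
    rw [h1] at h3
    have h4 : e' * (e' * b * e' + e * (D.inv b * e)) = e' * b * e' := by
      rw [mul_add, ← mul_assoc e' e, he'e, zero_mul, add_zero, ← mul_assoc, ← mul_assoc, he'e']
    rw [h3] at h4
    rw [Algebra.smul_def, Algebra.commutes]
    exact h4.symm
  -- Step 5: lifts of `E₁₂`, `E₂₁`
  obtain ⟨x₁, hx₁⟩ := hπsurj (E12 _)
  obtain ⟨y₁, hy₁⟩ := hπsurj (E21 _)
  obtain ⟨x₀, hx₀def⟩ : ∃ x₀, x₀ = e * x₁ * e' := ⟨_, rfl⟩
  obtain ⟨y, hydef⟩ : ∃ y, y = e' * y₁ * e := ⟨_, rfl⟩
  have hπx₀ : π x₀ = E12 _ := by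
    rw [hx₀def, map_mul, map_mul, hπe, hx₁, hπe', E11_mul_E12_mul_E22]
  have hπy : π y = E21 _ := by
    rw [hydef, map_mul, map_mul, hπe, hy₁, hπe', E22_mul_E21_mul_E11]
  have hex₀ : e * x₀ = x₀ := by rw [hx₀def, ← mul_assoc, ← mul_assoc, hee]
  have hx₀e' : x₀ * e' = x₀ := by rw [hx₀def, mul_assoc, he'e']
  have he'y : e' * y = y := by rw [hydef, ← mul_assoc, ← mul_assoc, he'e']
  have hye : y * e = y := by rw [hydef, mul_assoc, hee]
  obtain ⟨lam, hlam⟩ : ∃ lam : R, x₀ * y = lam • e := by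
    refine ⟨D.tr (e * (x₀ * y) * e), ?_⟩
    rw [← hcorner, mul_assoc, mul_assoc, hye, ← mul_assoc, hex₀]
  have hlamu : IsUnit lam := by
    rw [← IsLocalRing.residue_ne_zero_iff_isUnit]
    have h1 : π (x₀ * y) = E11 _ := by rw [map_mul, hπx₀, hπy, E12_mul_E21]
    rw [hlam, Algebra.smul_def, map_mul, hπR, hπe] at h1
    have h3 := congrFun (congrFun h1 0) 0
    rw [algebraMap_mul_E11_apply] at h3
    rw [h3]
    simp [E11]
  obtain ⟨x, hxdef⟩ : ∃ x, x = ((hlamu.unit⁻¹ : Rˣ) : R) • x₀ := ⟨_, rfl⟩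
  have hex : e * x = x := by rw [hxdef, mul_smul_comm, hex₀]
  have hxe' : x * e' = x := by rw [hxdef, smul_mul_assoc, hx₀e']
  have hxy : x * y = e := by
    rw [hxdef, smul_mul_assoc, hlam, smul_smul, IsUnit.val_inv_mul, one_smul]
  obtain ⟨mu, hmu⟩ : ∃ mu : R, y * x = mu • e' := by
    refine ⟨D.tr (e' * (y * x) * e'), ?_⟩
    rw [← hcorner', mul_assoc, mul_assoc, hxe', ← mul_assoc, he'y]
  have hmu1 : mu = 1 := by
    have h1 : x = mu • x := by
      calc x = x * y * x := by rw [hxy, hex]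
        _ = x * (mu • e') := by rw [mul_assoc, hmu]
        _ = mu • x := by rw [mul_smul_comm, hxe']
    have h3 : (1 - mu) • e = 0 := by
      rw [← hxy, ← smul_mul_assoc, sub_smul, one_smul, ← h1, sub_self, zero_mul]
    have := hkill _ h3
    exact (sub_eq_zero.1 this).symm
  have hyx : y * x = e' := by rw [hmu, hmu1, one_smul]
  have hU : IsUnits e x y e' :=
    ⟨hee, he'e', hone, hee', he'e, hxy, hyx, hex, hxe', he'y, hye⟩
  -- the traces of the units
  have hτe' : D.tr e' = 1 := by rw [he'def, D.tr_inv e hinj, hτ1]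
  have hτx : D.tr x = 0 := by
    apply hkill
    have h1 : D.inv x = e * (D.inv x * e') := by
      conv_lhs => rw [← hex, ← hxe', D.inv_mul, D.inv_mul, hinve', ← he'def, mul_assoc]
    have h3 := D.add_inv x
    have h4 : e * (x + D.inv x) * e = 0 := by
      rw [h1, mul_add, add_mul, hex, hU.xe, zero_add]
      simp only [mul_assoc, he'e, mul_zero]
    rw [h3, ← Algebra.commutes, mul_assoc, hee, ← Algebra.smul_def] at h4
    exact h4
  have hτy : D.tr y = 0 := by
    apply hkill'
    have h1 : D.inv y = e' * (D.inv y * e) := by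
      conv_lhs => rw [← he'y, ← hye, D.inv_mul, D.inv_mul, hinve', ← he'def, mul_assoc]
    have h3 := D.add_inv y
    have h4 : e' * (y + D.inv y) * e' = 0 := by
      rw [h1, mul_add, add_mul, he'y, hU.ye', zero_add]
      simp only [mul_assoc, hee', mul_zero]
    rw [h3, ← Algebra.commutes, mul_assoc, he'e', ← Algebra.smul_def] at h4
    exact h4
  refine ⟨e, x, y, e', hU, ?_, hkill, hkill', hτ1, hτx, hτy, hτe', he'def.symm⟩
  -- Step 6: spanning
  intro b
  obtain ⟨α, hα⟩ : ∃ α : R, e * b * e = α • e := ⟨_, hcorner b⟩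
  obtain ⟨δ, hδ⟩ : ∃ δ : R, e' * b * e' = δ • e' := ⟨_, hcorner' b⟩
  obtain ⟨β, hβ⟩ : ∃ β : R, e * (b * e' * y) * e = β • e := ⟨_, hcorner _⟩
  obtain ⟨γ, hγ⟩ : ∃ γ : R, e * (x * e' * b) * e = γ • e := ⟨_, hcorner _⟩
  refine ⟨α, β, γ, δ, ?_⟩
  have h1 : b = e * b * e + e * b * e' + e' * b * e + e' * b * e' := by
    calc b = (e + e') * b * (e + e') := by rw [hone, one_mul, mul_one]
      _ = _ := by
        simp only [add_mul, mul_add]
        abel
  have hex' : ∀ z, e * (x * z) = x * z := fun z => by rw [← mul_assoc, hex]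
  have hyx' : ∀ z, y * (x * z) = e' * z := fun z => by rw [← mul_assoc, hyx]
  have he'e'' : ∀ z, e' * (e' * z) = e' * z := fun z => by rw [← mul_assoc, he'e']
  have h3 : e * b * e' = β • x := by
    calc e * b * e' = (e * (b * e' * y) * e) * x := by
          simp only [mul_assoc, hex, hyx, he'e']
      _ = β • x := by rw [hβ, smul_mul_assoc, hex]
  have h4 : e' * b * e = γ • y := by
    calc e' * b * e = y * (e * (x * e' * b) * e) := by
          simp only [mul_assoc, hex', hyx', he'e'']
      _ = γ • y := by rw [hγ, mul_smul_comm, hye]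
  rw [← hα, ← hδ, ← h3, ← h4]
  exact h1

end Main

/-! ### From matrix units to `M₂(R) ≃ₐ[R] B` -/

section Equiv

variable {R : Type*} [CommRing R] {B : Type*} [Ring B] [Algebra R B]

/-- the linear map `M₂(R) → B` attached to four elements -/
def unitsLin (e x y e' : B) : Matrix (Fin 2) (Fin 2) R →ₗ[R] B where
  toFun M := M 0 0 • e + M 0 1 • x + M 1 0 • y + M 1 1 • e'
  map_add' M N := by
    simp only [Matrix.add_apply, add_smul]
    abel
  map_smul' r M := by
    simp only [Matrix.smul_apply, smul_eq_mul, mul_smul, smul_add, RingHom.id_apply]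

theorem unitsLin_apply (e x y e' : B) (M : Matrix (Fin 2) (Fin 2) R) :
    unitsLin e x y e' M = M 0 0 • e + M 0 1 • x + M 1 0 • y + M 1 1 • e' := rfl

variable {e x y e' : B} (h : IsUnits e x y e')

include h in
theorem unitsLin_one : unitsLin (R := R) e x y e' 1 = 1 := by
  rw [unitsLin_apply]
  simp [h.add]

include h in
theorem unitsLin_mul (M N : Matrix (Fin 2) (Fin 2) R) :
    unitsLin e x y e' (M * N) = unitsLin e x y e' M * unitsLin e x y e' N := by
  simp only [unitsLin_apply, Matrix.mul_apply, Fin.sum_univ_two, add_mul, mul_add,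
    smul_mul_smul_comm, h.ee, h.e'e', h.ee', h.e'e, h.xy, h.yx, h.ex, h.xe', h.e'y, h.ye,
    h.xe, h.e'x, h.ey, h.ye', h.xx, h.yy, smul_zero, add_zero, zero_add]
  module

/-- the algebra map `M₂(R) → B` attached to matrix units -/
def unitsAlgHom : Matrix (Fin 2) (Fin 2) R →ₐ[R] B :=
  AlgHom.ofLinearMap (unitsLin e x y e') (unitsLin_one h) (unitsLin_mul h)

theorem unitsAlgHom_apply (M : Matrix (Fin 2) (Fin 2) R) :
    unitsAlgHom h M = M 0 0 • e + M 0 1 • x + M 1 0 • y + M 1 1 • e' := rfl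

include h in
theorem unitsAlgHom_bijective
    (hspan : ∀ b : B, ∃ α β γ δ : R, b = α • e + β • x + γ • y + δ • e')
    (hk : ∀ r : R, r • e = 0 → r = 0) (hk' : ∀ r : R, r • e' = 0 → r = 0) :
    Function.Bijective (unitsAlgHom (R := R) h) := by
  constructor
  · rw [injective_iff_map_eq_zero]
    intro M hM
    rw [unitsAlgHom_apply] at hM
    have h00 : M 0 0 • e = 0 := by
      have := congrArg (fun s => e * s * e) hM
      simpa only [mul_add, add_mul, mul_smul_comm, smul_mul_assoc, h.ee, h.ex, h.xe, h.ey,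
        h.ee', zero_mul, mul_zero, smul_zero, add_zero] using this
    have h01 : M 0 1 • e = 0 := by
      have := congrArg (fun s => e * s * y) hM
      simpa only [mul_add, add_mul, mul_smul_comm, smul_mul_assoc, h.ee, h.ex, h.ey, h.xy,
        h.ee', h.e'y, zero_mul, mul_zero, smul_zero, add_zero, zero_add] using this
    have h10 : M 1 0 • e = 0 := by
      have := congrArg (fun s => x * s * e) hM
      simpa only [mul_add, add_mul, mul_smul_comm, smul_mul_assoc, h.xe, h.xx, h.xy, h.ee,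
        h.xe', zero_mul, mul_zero, smul_zero, add_zero, zero_add] using this
    have h11 : M 1 1 • e' = 0 := by
      have := congrArg (fun s => e' * s * e') hM
      simpa only [mul_add, add_mul, mul_smul_comm, smul_mul_assoc, h.e'e, h.e'x, h.e'y, h.ye',
        h.e'e', zero_mul, mul_zero, smul_zero, add_zero, zero_add] using this
    ext i j
    fin_cases i <;> fin_cases j
    · exact hk _ h00
    · exact hk _ h01
    · exact hk _ h10
    · exact hk' _ h11
  · intro b
    obtain ⟨α, β, γ, δ, rfl⟩ := hspan b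
    refine ⟨!![α, β; γ, δ], ?_⟩
    rw [unitsAlgHom_apply]
    simp

end Equiv

/-! ### The statement in helper93's binders -/

section Final

variable {R : Type*} [CommRing R] [IsLocalRing R] {B : Type*} [Ring B] [Algebra R B]

/-- **(GMA₂) core, with the trace**: a local `R` with `2 ∈ Rˣ`, an `R`-algebra `B ⊇ R` with a
trace involution `D = (ι, τ)` and a surjection onto `M₂(k)` with nil kernel ⟹ an isomorphism
`Φ : M₂(R) ≃ₐ[R] B` under which `τ` is the matrix trace and `ι` the adjugate. -/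
theorem exists_algEquiv_trace (D : TraceInv R B) (h2 : IsUnit (2 : R))
    (hinj : Function.Injective (algebraMap R B))
    (π : B →+* Matrix (Fin 2) (Fin 2) (IsLocalRing.ResidueField R))
    (hπsurj : Function.Surjective π) (hπnil : ∀ b, π b = 0 → IsNilpotent b)
    (hπR : ∀ r : R, π (algebraMap R B r) =
      algebraMap (IsLocalRing.ResidueField R)
        (Matrix (Fin 2) (Fin 2) (IsLocalRing.ResidueField R)) (IsLocalRing.residue R r)) :
    ∃ Φ : Matrix (Fin 2) (Fin 2) R ≃ₐ[R] B,
      (∀ M, D.tr (Φ M) = Matrix.trace M) ∧ (∀ M, D.inv (Φ M) = Φ (Matrix.adjugate M)) := by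
  obtain ⟨e, x, y, e', hU, hspan, hk, hk', hτe, hτx, hτy, hτe', hιe⟩ :=
    exists_matrix_units D h2 hinj π hπsurj hπnil hπR
  have htr : ∀ M : Matrix (Fin 2) (Fin 2) R, D.tr (unitsAlgHom hU M) = Matrix.trace M := by
    intro M
    rw [unitsAlgHom_apply, map_add, map_add, map_add, map_smul, map_smul, map_smul, map_smul,
      hτe, hτx, hτy, hτe', Matrix.trace_fin_two]
    simp
  refine ⟨AlgEquiv.ofBijective (unitsAlgHom hU) (unitsAlgHom_bijective hU hspan hk hk'),
    htr, fun M => ?_⟩
  show D.inv (unitsAlgHom hU M) = unitsAlgHom hU (Matrix.adjugate M)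
  rw [D.inv_eq, htr, Matrix.adjugate_fin_two, unitsAlgHom_apply, unitsAlgHom_apply,
    Algebra.algebraMap_eq_smul_one, ← hU.add, Matrix.trace_fin_two]
  simp only [Matrix.of_apply, Matrix.cons_val', Matrix.cons_val_zero, Matrix.cons_val_one,
    Matrix.cons_val_fin_one]
  module

/-- **(GMA₂) core** without the redundant `ι 1 = 1`. -/
theorem nonempty_algEquiv' (h2 : IsUnit (2 : R)) (hinj : Function.Injective (algebraMap R B))
    (ι : B →ₗ[R] B) (hιmul : ∀ a b, ι (a * b) = ι b * ι a) (hιι : ∀ b, ι (ι b) = b)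
    (τ : B →ₗ[R] R) (hτ : ∀ b, b + ι b = algebraMap R B (τ b))
    (π : B →+* Matrix (Fin 2) (Fin 2) (IsLocalRing.ResidueField R))
    (hπsurj : Function.Surjective π) (hπnil : ∀ b, π b = 0 → IsNilpotent b)
    (hπR : ∀ r : R, π (algebraMap R B r) =
      algebraMap (IsLocalRing.ResidueField R)
        (Matrix (Fin 2) (Fin 2) (IsLocalRing.ResidueField R)) (IsLocalRing.residue R r)) :
    Nonempty (Matrix (Fin 2) (Fin 2) R ≃ₐ[R] B) := by
  obtain ⟨Φ, -, -⟩ :=
    exists_algEquiv_trace ⟨ι, τ, hιmul, hιι, hτ⟩ h2 hinj π hπsurj hπnil hπR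
  exact ⟨Φ⟩

/-- **(GMA₂) core** in the EXACT binder list of helper93 4626 (`hι1` is not used). -/
theorem nonempty_algEquiv (h2 : IsUnit (2 : R)) (hinj : Function.Injective (algebraMap R B))
    (ι : B →ₗ[R] B) (_hι1 : ι 1 = 1) (hιmul : ∀ a b, ι (a * b) = ι b * ι a)
    (hιι : ∀ b, ι (ι b) = b)
    (τ : B →ₗ[R] R) (hτ : ∀ b, b + ι b = algebraMap R B (τ b))
    (π : B →+* Matrix (Fin 2) (Fin 2) (IsLocalRing.ResidueField R))
    (hπsurj : Function.Surjective π) (hπnil : ∀ b, π b = 0 → IsNilpotent b)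
    (hπR : ∀ r : R, π (algebraMap R B r) =
      algebraMap (IsLocalRing.ResidueField R)
        (Matrix (Fin 2) (Fin 2) (IsLocalRing.ResidueField R)) (IsLocalRing.residue R r)) :
    Nonempty (Matrix (Fin 2) (Fin 2) R ≃ₐ[R] B) :=
  nonempty_algEquiv' h2 hinj ι hιmul hιι τ hτ π hπsurj hπnil hπR

/-- The same with the trace: `∃ Φ : M₂(R) ≃ₐ[R] B` with `τ (Φ M) = tr M`, `ι (Φ M) = Φ (adj M)`. -/
theorem exists_algEquiv (h2 : IsUnit (2 : R)) (hinj : Function.Injective (algebraMap R B))
    (ι : B →ₗ[R] B) (hιmul : ∀ a b, ι (a * b) = ι b * ι a) (hιι : ∀ b, ι (ι b) = b)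
    (τ : B →ₗ[R] R) (hτ : ∀ b, b + ι b = algebraMap R B (τ b))
    (π : B →+* Matrix (Fin 2) (Fin 2) (IsLocalRing.ResidueField R))
    (hπsurj : Function.Surjective π) (hπnil : ∀ b, π b = 0 → IsNilpotent b)
    (hπR : ∀ r : R, π (algebraMap R B r) =
      algebraMap (IsLocalRing.ResidueField R)
        (Matrix (Fin 2) (Fin 2) (IsLocalRing.ResidueField R)) (IsLocalRing.residue R r)) :
    ∃ Φ : Matrix (Fin 2) (Fin 2) R ≃ₐ[R] B,
      (∀ M, τ (Φ M) = Matrix.trace M) ∧ (∀ M, ι (Φ M) = Φ (Matrix.adjugate M)) :=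
  exists_algEquiv_trace ⟨ι, τ, hιmul, hιι, hτ⟩ h2 hinj π hπsurj hπnil hπR

end Final

end Fermat.Agent.GH.S32.GmaCore
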