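/-
GATE-H / S32 TATE SIDE (helper93): bridge from helper51's `GmaCore.exists_algEquiv` (residue field
`IsLocalRing.ResidueField R`, `π` a ring hom with `hπR`) to a GENERAL residue field `k` with
`[Algebra R k]`, `R ↠ k`, and `π : B →ₐ[R] M₂(k)`.  Mathlib-only.
-/
import Fermat.Agent.GH.S32.GmaCore

set_option autoImplicit false

namespace Fermat.Agent.GH.S32.GmaBridge

variable {R : Type*} [CommRing R] [IsLocalRing R] {k : Type*} [Field k] [Algebra R k]

theorem ker_ofId_eq (hres : Function.Surjective (algebraMap R k)) :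
    RingHom.ker (Algebra.ofId R k : R →ₐ[R] k) = IsLocalRing.maximalIdeal R := by
  have hmax : (RingHom.ker (algebraMap R k)).IsMaximal :=
    RingHom.ker_isMaximal_of_surjective _ hres
  exact IsLocalRing.eq_maximalIdeal hmax

/-- the residue field of `R` is `k`. -/
noncomputable def resEquiv (hres : Function.Surjective (algebraMap R k)) :
    IsLocalRing.ResidueField R ≃ₐ[R] k :=
  (Ideal.quotientEquivAlgOfEq R (ker_ofId_eq hres).symm).trans
    (Ideal.quotientKerAlgEquivOfSurjective (f := (Algebra.ofId R k : R →ₐ[R] k)) hres)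

variable {B : Type*} [Ring B] [Algebra R B]

/-- **(GMA₂) core for a general residue field.** -/
theorem exists_algEquiv (hres : Function.Surjective (algebraMap R k)) (h2 : IsUnit (2 : R))
    (hinj : Function.Injective (algebraMap R B))
    (ι : B →ₗ[R] B) (hιmul : ∀ a b, ι (a * b) = ι b * ι a) (hιι : ∀ b, ι (ι b) = b)
    (τ : B →ₗ[R] R) (hτ : ∀ b, b + ι b = algebraMap R B (τ b))
    (π : B →ₐ[R] Matrix (Fin 2) (Fin 2) k)
    (hπsurj : Function.Surjective π) (hπnil : ∀ b, π b = 0 → IsNilpotent b) :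
    ∃ Φ : Matrix (Fin 2) (Fin 2) R ≃ₐ[R] B,
      (∀ M, τ (Φ M) = Matrix.trace M) ∧ (∀ M, ι (Φ M) = Φ (Matrix.adjugate M)) := by
  let e : Matrix (Fin 2) (Fin 2) k ≃ₐ[R] Matrix (Fin 2) (Fin 2) (IsLocalRing.ResidueField R) :=
    (resEquiv hres).symm.mapMatrix
  let π' : B →ₐ[R] Matrix (Fin 2) (Fin 2) (IsLocalRing.ResidueField R) :=
    (e : Matrix (Fin 2) (Fin 2) k →ₐ[R] _).comp π
  refine GmaCore.exists_algEquiv h2 hinj ι hιmul hιι τ hτ (π' : B →+* _) ?_ ?_ ?_
  · intro m
    obtain ⟨b, hb⟩ := hπsurj (e.symm m)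
    exact ⟨b, by show e (π b) = m; rw [hb, AlgEquiv.apply_symm_apply]⟩
  · intro b hb
    apply hπnil
    have : e (π b) = 0 := hb
    rwa [map_eq_zero_iff e e.injective] at this
  · intro r
    show π' (algebraMap R B r) = _
    rw [AlgHom.commutes]
    ext i j
    simp [Matrix.algebraMap_matrix_apply]

end Fermat.Agent.GH.S32.GmaBridge
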