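/-
GATE-H / S32 TATE SIDE, leaf (BLR₂) (helper93).  Mathlib-only.

Setting: `C` a commutative ring with `2 ∈ Cˣ`, `G` a group, `ρ : G →* M₂(C)` whose image spans
`M₂(C)`, `Q` a `C`-module with a `C`-linear `G`-action `act`, and `δ : G →* Cˣ` ANY character such
that `g + δ(g) g⁻¹` acts on `Q` as the scalar `tr ρ(g)`.

* `actA_eq_zero_of_rhoA_eq_zero` : the kernel of `C[G] → M₂(C)` kills `Q`
  (Boston–Lenstra–Ribet / Carayol, in the degree-2 form with the involution `ι(g) = δ(g) g⁻¹`).
* `exists_algHom` : hence `Q` is an `M₂(C)`-module compatibly with `G`: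
  `∃ Φ : M₂(C) →ₐ[C] End_C Q, Φ (ρ g) = act g`.
-/
import Mathlib

set_option autoImplicit false

namespace Fermat.Agent.GH.S32.Blr

open MonoidAlgebra

variable {C : Type*} [CommRing C] {G : Type*} [Group G]

section Iota

variable (δ : G →* Cˣ)

/-- the monoid hom `g ↦ op (δ g • g⁻¹)` into the opposite of the group algebra -/
noncomputable def iotaHom : G →* (MonoidAlgebra C G)ᵐᵒᵖ where
  toFun g := MulOpposite.op (((δ g : Cˣ) : C) • of C G g⁻¹)
  map_one' := by
    rw [map_one, Units.val_one, one_smul, inv_one, map_one, MulOpposite.op_one]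
  map_mul' g h := by
    rw [← MulOpposite.op_mul]
    congr 1
    rw [smul_mul_smul_comm, ← map_mul, mul_inv_rev, map_mul, Units.val_mul, mul_comm]

/-- `ι` as an algebra hom into the opposite algebra -/
noncomputable def iotaOp : MonoidAlgebra C G →ₐ[C] (MonoidAlgebra C G)ᵐᵒᵖ :=
  lift C _ G (iotaHom δ)

/-- the anti-involution `ι(g) = δ(g) g⁻¹` of the group algebra -/
noncomputable def iota (r : MonoidAlgebra C G) : MonoidAlgebra C G :=
  (iotaOp δ r).unop

theorem iota_of (g : G) : iota δ (of C G g) = ((δ g : Cˣ) : C) • of C G g⁻¹ := by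
  unfold iota iotaOp
  rw [lift_of]
  rfl

theorem iota_add (r s : MonoidAlgebra C G) : iota δ (r + s) = iota δ r + iota δ s := by
  unfold iota
  rw [map_add, MulOpposite.unop_add]

theorem iota_smul (c : C) (r : MonoidAlgebra C G) : iota δ (c • r) = c • iota δ r := by
  unfold iota
  rw [map_smul, MulOpposite.unop_smul]

theorem iota_mul (r s : MonoidAlgebra C G) : iota δ (r * s) = iota δ s * iota δ r := by
  unfold iota
  rw [map_mul, MulOpposite.unop_mul]

theorem iota_one : iota δ (1 : MonoidAlgebra C G) = 1 := by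
  unfold iota
  rw [map_one, MulOpposite.unop_one]

theorem iota_iota (r : MonoidAlgebra C G) : iota δ (iota δ r) = r := by
  induction r using MonoidAlgebra.induction_on with
  | of g =>
    rw [iota_of, iota_smul, iota_of, inv_inv, smul_smul, map_inv, ← Units.val_mul,
      mul_inv_cancel, Units.val_one, one_smul]
  | add x y hx hy => rw [iota_add, iota_add, hx, hy]
  | smul c x hx => rw [iota_smul, iota_smul, hx]

end Iota

section Main

variable {Q : Type*} [AddCommGroup Q] [Module C Q]
variable (ρ : G →* Matrix (Fin 2) (Fin 2) C) (act : G →* Module.End C Q) (δ : G →* Cˣ)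

/-- `ρ` on the group algebra -/
noncomputable def rhoA : MonoidAlgebra C G →ₐ[C] Matrix (Fin 2) (Fin 2) C :=
  lift C _ G ρ

/-- the action on the group algebra -/
noncomputable def actA : MonoidAlgebra C G →ₐ[C] Module.End C Q :=
  lift C _ G act

theorem rhoA_of (g : G) : rhoA ρ (of C G g) = ρ g := lift_of _ _

theorem actA_of (g : G) : actA act (of C G g) = act g := lift_of _ _

variable {ρ act δ}

/-- the basic relation `r + ι(r) = tr ρ(r)` on `Q`, for all `r` in the group algebra -/
theorem rel
    (hrel : ∀ g, act g + ((δ g : Cˣ) : C) • act g⁻¹ = Matrix.trace (ρ g) • (1 : Module.End C Q))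
    (r : MonoidAlgebra C G) :
    actA act r + actA act (iota δ r) = Matrix.trace (rhoA ρ r) • (1 : Module.End C Q) := by
  induction r using MonoidAlgebra.induction_on with
  | of g => rw [iota_of, map_smul, actA_of, actA_of, rhoA_of, hrel]
  | add x y hx hy =>
    rw [iota_add, map_add, map_add, map_add, Matrix.trace_add, add_smul, ← hx, ← hy]
    abel
  | smul c x hx =>
    rw [iota_smul, map_smul, map_smul, map_smul, Matrix.trace_smul, smul_eq_mul, mul_smul, ← hx,
      smul_add]

/-- `(★)`: for `a ∈ ker ρ`, `a r = ι(r) a` on `Q`. -/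
theorem star
    (hrel : ∀ g, act g + ((δ g : Cˣ) : C) • act g⁻¹ = Matrix.trace (ρ g) • (1 : Module.End C Q))
    {a : MonoidAlgebra C G} (ha : rhoA ρ a = 0) (r : MonoidAlgebra C G) :
    actA act (a * r) = actA act (iota δ r) * actA act a := by
  have h1 := rel hrel (a * r)
  have e1 : rhoA ρ (a * r) = 0 := by rw [map_mul, ha, zero_mul]
  rw [e1, Matrix.trace_zero, zero_smul, iota_mul] at h1
  have h0 := rel hrel a
  rw [ha, Matrix.trace_zero, zero_smul] at h0
  have h0' : actA act (iota δ a) = - actA act a := by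
    rw [eq_neg_iff_add_eq_zero, add_comm]; exact h0
  rw [map_mul (actA act) (iota δ r), h0', mul_neg, ← sub_eq_add_neg, sub_eq_zero] at h1
  exact h1

/-- for `a ∈ ker ρ`, `a [r, s]` acts as zero on `Q`. -/
theorem comm_eq
    (hrel : ∀ g, act g + ((δ g : Cˣ) : C) • act g⁻¹ = Matrix.trace (ρ g) • (1 : Module.End C Q))
    {a : MonoidAlgebra C G} (ha : rhoA ρ a = 0) (r s : MonoidAlgebra C G) :
    actA act (a * r * s) = actA act (a * s * r) := by
  have har : rhoA ρ (a * r) = 0 := by rw [map_mul, ha, zero_mul]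
  rw [star hrel har s, map_mul (actA act) a r, ← mul_assoc, ← star hrel ha s,
    ← map_mul (actA act)]

/-- `ρ` on the group algebra is surjective. -/
theorem rhoA_surjective (hspan : Submodule.span C (Set.range ρ) = ⊤) :
    Function.Surjective (rhoA ρ) := by
  intro m
  have hm : m ∈ Submodule.span C (Set.range ρ) := by rw [hspan]; trivial
  induction hm using Submodule.span_induction with
  | mem x hx =>
    obtain ⟨g, rfl⟩ := hx
    exact ⟨of C G g, rhoA_of ρ g⟩
  | zero => exact ⟨0, map_zero _⟩
  | add x y _ _ hx hy =>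
    obtain ⟨a, rfl⟩ := hx
    obtain ⟨b, rfl⟩ := hy
    exact ⟨a + b, map_add _ _ _⟩
  | smul c x _ hx =>
    obtain ⟨a, rfl⟩ := hx
    exact ⟨c • a, map_smul _ _ _⟩

/-- **(BLR₂)**: the kernel of `C[G] → M₂(C)` acts as zero on `Q`. -/
theorem actA_eq_zero_of_rhoA_eq_zero (h2 : IsUnit (2 : C))
    (hspan : Submodule.span C (Set.range ρ) = ⊤)
    (hrel : ∀ g, act g + ((δ g : Cˣ) : C) • act g⁻¹ = Matrix.trace (ρ g) • (1 : Module.End C Q))
    {a : MonoidAlgebra C G} (ha : rhoA ρ a = 0) : actA act a = 0 := by
  obtain ⟨r, hr⟩ := rhoA_surjective hspan (Matrix.single (0 : Fin 2) (1 : Fin 2) (1 : C))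
  obtain ⟨s, hs⟩ := rhoA_surjective hspan (Matrix.single (1 : Fin 2) (0 : Fin 2) (1 : C))
  set c : MonoidAlgebra C G := r * s - s * r with hc
  have hρc : rhoA ρ (c * c) = 1 := by
    rw [map_mul, hc, map_sub, map_mul, map_mul, hr, hs]
    ext i j
    fin_cases i <;> fin_cases j <;>
      simp [Matrix.mul_apply, Matrix.single_apply]
  set a' : MonoidAlgebra C G := c * c - 1 with ha'
  have hρa' : rhoA ρ a' = 0 := by rw [ha', map_sub, hρc, map_one, sub_self]
  -- `a c` acts as zero
  have hac : actA act (a * c) = 0 := by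
    rw [hc, mul_sub, map_sub, ← mul_assoc, ← mul_assoc, comm_eq hrel ha r s, sub_self]
  -- hence `a (1 + a') = a c c` acts as zero
  have hacc : actA act a * (1 + actA act a') = 0 := by
    have : (1 : Module.End C Q) + actA act a' = actA act (c * c) := by
      rw [ha', map_sub, map_one]; abel
    rw [this, ← map_mul, ← mul_assoc, map_mul, hac, zero_mul]
  -- `(1 + a') (1 + ι a') = 1` on `Q`
  have hsum : actA act a' + actA act (iota δ a') = 0 := by
    have := rel hrel a'
    rwa [hρa', Matrix.trace_zero, zero_smul] at this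
  have hz : actA act (a' * iota δ a') = 0 := by
    have hfix : iota δ (a' * iota δ a') = a' * iota δ a' := by rw [iota_mul, iota_iota]
    have := rel hrel (a' * iota δ a')
    rw [hfix, map_mul (rhoA ρ), hρa', zero_mul, Matrix.trace_zero, zero_smul, ← two_smul C] at this
    obtain ⟨u, hu⟩ := h2
    have h3 := congrArg (fun x => ((u⁻¹ : Cˣ) : C) • x) this
    simp only [smul_zero, smul_smul] at h3
    rwa [← hu, Units.inv_mul, one_smul] at h3
  have hinv : (1 + actA act a') * (1 + actA act (iota δ a')) = 1 := by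
    have e : (1 + actA act a') * (1 + actA act (iota δ a')) =
        1 + (actA act a' + actA act (iota δ a')) + actA act (a' * iota δ a') := by
      rw [map_mul]; noncomm_ring
    rw [e, hsum, hz, add_zero, add_zero]
  calc actA act a = actA act a * ((1 + actA act a') * (1 + actA act (iota δ a'))) := by
        rw [hinv, mul_one]
    _ = (actA act a * (1 + actA act a')) * (1 + actA act (iota δ a')) := by rw [mul_assoc]
    _ = 0 := by rw [hacc, zero_mul]

/-- equal images under `ρ` ⟹ equal actions on `Q`. -/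
theorem actA_eq_of_rhoA_eq (h2 : IsUnit (2 : C))
    (hspan : Submodule.span C (Set.range ρ) = ⊤)
    (hrel : ∀ g, act g + ((δ g : Cˣ) : C) • act g⁻¹ = Matrix.trace (ρ g) • (1 : Module.End C Q))
    {a b : MonoidAlgebra C G} (hab : rhoA ρ a = rhoA ρ b) : actA act a = actA act b := by
  rw [← sub_eq_zero, ← map_sub]
  exact actA_eq_zero_of_rhoA_eq_zero h2 hspan hrel (by rw [map_sub, hab, sub_self])

/-- **`Q` is an `M₂(C)`-module compatibly with `G`.** -/
theorem exists_algHom (h2 : IsUnit (2 : C))
    (hspan : Submodule.span C (Set.range ρ) = ⊤)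
    (hrel : ∀ g, act g + ((δ g : Cˣ) : C) • act g⁻¹ = Matrix.trace (ρ g) • (1 : Module.End C Q)) :
    ∃ Φ : Matrix (Fin 2) (Fin 2) C →ₐ[C] Module.End C Q, ∀ g, Φ (ρ g) = act g := by
  have hsurj := rhoA_surjective hspan
  choose sec hsec using hsurj
  have key : ∀ {a b : MonoidAlgebra C G}, rhoA ρ a = rhoA ρ b → actA act a = actA act b :=
    fun hab => actA_eq_of_rhoA_eq h2 hspan hrel hab
  refine ⟨{ toFun := fun m => actA act (sec m)
            map_one' := ?_
            map_mul' := ?_
            map_zero' := ?_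
            map_add' := ?_
            commutes' := ?_ }, ?_⟩
  · rw [← map_one (actA act)]
    exact key (by rw [hsec, map_one])
  · intro m m'
    rw [← map_mul (actA act)]
    exact key (by rw [hsec, map_mul, hsec, hsec])
  · rw [← map_zero (actA act)]
    exact key (by rw [hsec, map_zero])
  · intro m m'
    rw [← map_add (actA act)]
    exact key (by rw [hsec, map_add, hsec, hsec])
  · intro c
    rw [← AlgHom.commutes (actA act) c]
    exact key (by rw [hsec, AlgHom.commutes])
  · intro g
    show actA act (sec (ρ g)) = act g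
    rw [← actA_of act g]
    exact key (by rw [hsec, rhoA_of])

end Main

end Fermat.Agent.GH.S32.Blr
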