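/-
GATE-H / S32 TATE SIDE, leaf (BLR₂, ring form with a residual coefficient ring) (helper93).
Mathlib-only.

Setting: `C` a commutative ring, `S` any `C`-algebra (think `End_C Q`), `act : G →* S`,
`δ : G →* Cˣ`, `t : G → C` with `act g + δ g • act g⁻¹ = t g` in `S`; `k` a commutative `C`-algebra
(think `C / 𝔫`, e.g. the residue field) such that scalars dying in `k` die in `S`;
`ρ : G →* M₂(k)` with `C`-span `M₂(k)` and `tr ρ(g) = t g` in `k`; `2` invertible in `S`.

* `actA_eq_zero_of_rhoA_eq_zero` : the kernel of `C[G] → M₂(k)` dies in `S`.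
* `exists_algHom` : `∃ Φ : M₂(k) →ₐ[C] S, Φ (ρ g) = act g`.
* `exists_algHom_of_ker_le` : the factorisation lemma used for it (a surjective algebra map and
  a map killing its kernel).

`Blr.lean` is the case `k = C`, `S = End_C Q`.
-/
import Fermat.Agent.GH.S32.Blr

set_option autoImplicit false

namespace Fermat.Agent.GH.S32.BlrRing

open MonoidAlgebra Fermat.Agent.GH.S32.Blr

/-- factorisation through a surjective algebra map -/
theorem exists_algHom_of_ker_le {C A B D : Type*} [CommSemiring C] [Ring A] [Ring B] [Ring D]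
    [Algebra C A] [Algebra C B] [Algebra C D] (f : A →ₐ[C] B) (hf : Function.Surjective f)
    (g : A →ₐ[C] D) (hker : ∀ a, f a = 0 → g a = 0) :
    ∃ h : B →ₐ[C] D, ∀ a, h (f a) = g a := by
  choose sec hsec using hf
  have key : ∀ {a b : A}, f a = f b → g a = g b := by
    intro a b hab
    rw [← sub_eq_zero, ← map_sub]
    exact hker _ (by rw [map_sub, hab, sub_self])
  refine ⟨{ toFun := fun m => g (sec m)
            map_one' := ?_
            map_mul' := ?_
            map_zero' := ?_
            map_add' := ?_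
            commutes' := ?_ }, ?_⟩
  · rw [← map_one g]
    exact key (by rw [hsec, map_one])
  · intro m m'
    rw [← map_mul g]
    exact key (by rw [hsec, map_mul, hsec, hsec])
  · rw [← map_zero g]
    exact key (by rw [hsec, map_zero])
  · intro m m'
    rw [← map_add g]
    exact key (by rw [hsec, map_add, hsec, hsec])
  · intro c
    rw [← AlgHom.commutes g c]
    exact key (by rw [hsec, AlgHom.commutes])
  · intro a
    exact key (hsec _)

variable {C : Type*} [CommRing C] {G : Type*} [Group G]
variable {S : Type*} [Ring S] [Algebra C S]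
variable {k : Type*} [CommRing k] [Algebra C k]
variable (ρ : G →* Matrix (Fin 2) (Fin 2) k) (act : G →* S) (δ : G →* Cˣ)

/-- `ρ` on the group algebra `C[G]` -/
noncomputable def rhoA : MonoidAlgebra C G →ₐ[C] Matrix (Fin 2) (Fin 2) k :=
  lift C _ G ρ

/-- the action on the group algebra -/
noncomputable def actA : MonoidAlgebra C G →ₐ[C] S :=
  lift C _ G act

theorem rhoA_of (g : G) : rhoA (C := C) ρ (of C G g) = ρ g := lift_of _ _

theorem actA_of (g : G) : actA (C := C) act (of C G g) = act g := lift_of _ _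

/-- the linear extension of `t : G → C` to the group algebra -/
noncomputable def tauA (t : G → C) : MonoidAlgebra C G →ₗ[C] C :=
  (Finsupp.linearCombination C t).comp (MonoidAlgebra.coeffLinearEquiv C).toLinearMap

theorem tauA_of (t : G → C) (g : G) : tauA t (of C G g) = t g := by
  unfold tauA
  simp [MonoidAlgebra.of_apply]

variable {ρ act δ}

/-- the basic relation `r + ι(r) = τ(r)` in `S`, for all `r` in the group algebra -/
theorem rel {t : G → C}
    (hrel : ∀ g, act g + ((δ g : Cˣ) : C) • act g⁻¹ = algebraMap C S (t g))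
    (r : MonoidAlgebra C G) :
    actA act r + actA act (iota δ r) = algebraMap C S (tauA t r) := by
  induction r using MonoidAlgebra.induction_on with
  | of g => rw [iota_of, map_smul, actA_of, actA_of, tauA_of, hrel]
  | add x y hx hy =>
    rw [iota_add, map_add, map_add, map_add, map_add, ← hx, ← hy]
    abel
  | smul c x hx =>
    rw [iota_smul, map_smul, map_smul, map_smul, smul_eq_mul, map_mul, ← hx, ← Algebra.smul_def,
      smul_add]

/-- `τ` lifts the trace of `ρ`. -/
theorem trace_rhoA {t : G → C} (htr : ∀ g, algebraMap C k (t g) = Matrix.trace (ρ g))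
    (r : MonoidAlgebra C G) :
    algebraMap C k (tauA t r) = Matrix.trace (rhoA (C := C) ρ r) := by
  induction r using MonoidAlgebra.induction_on with
  | of g => rw [tauA_of, rhoA_of, htr]
  | add x y hx hy => rw [map_add, map_add, map_add, Matrix.trace_add, hx, hy]
  | smul c x hx =>
    rw [map_smul (tauA t), smul_eq_mul, map_mul, map_smul (rhoA (C := C) ρ), Matrix.trace_smul,
      hx, Algebra.smul_def]

/-- the relation for elements of the kernel of `ρ` -/
theorem rel_of_ker {t : G → C}
    (hrel : ∀ g, act g + ((δ g : Cˣ) : C) • act g⁻¹ = algebraMap C S (t g))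
    (htr : ∀ g, algebraMap C k (t g) = Matrix.trace (ρ g))
    (hker : ∀ c : C, algebraMap C k c = 0 → algebraMap C S c = 0)
    {a : MonoidAlgebra C G} (ha : rhoA (C := C) ρ a = 0) :
    actA act a + actA act (iota δ a) = 0 := by
  rw [rel hrel a]
  apply hker
  rw [trace_rhoA htr, ha, Matrix.trace_zero]

/-- `(★)`: for `a ∈ ker ρ`, `a r = ι(r) a` in `S`. -/
theorem star {t : G → C}
    (hrel : ∀ g, act g + ((δ g : Cˣ) : C) • act g⁻¹ = algebraMap C S (t g))
    (htr : ∀ g, algebraMap C k (t g) = Matrix.trace (ρ g))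
    (hker : ∀ c : C, algebraMap C k c = 0 → algebraMap C S c = 0)
    {a : MonoidAlgebra C G} (ha : rhoA (C := C) ρ a = 0) (r : MonoidAlgebra C G) :
    actA act (a * r) = actA act (iota δ r) * actA act a := by
  have e1 : rhoA (C := C) ρ (a * r) = 0 := by rw [map_mul, ha, zero_mul]
  have h1 := rel_of_ker hrel htr hker e1
  rw [iota_mul] at h1
  have h0 := rel_of_ker hrel htr hker ha
  have h0' : actA act (iota δ a) = - actA act a := by
    rw [eq_neg_iff_add_eq_zero, add_comm]; exact h0
  rw [map_mul (actA act) (iota δ r), h0', mul_neg, ← sub_eq_add_neg, sub_eq_zero] at h1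
  exact h1

/-- for `a ∈ ker ρ`, `a [r, s]` dies in `S`. -/
theorem comm_eq {t : G → C}
    (hrel : ∀ g, act g + ((δ g : Cˣ) : C) • act g⁻¹ = algebraMap C S (t g))
    (htr : ∀ g, algebraMap C k (t g) = Matrix.trace (ρ g))
    (hker : ∀ c : C, algebraMap C k c = 0 → algebraMap C S c = 0)
    {a : MonoidAlgebra C G} (ha : rhoA (C := C) ρ a = 0) (r s : MonoidAlgebra C G) :
    actA act (a * r * s) = actA act (a * s * r) := by
  have har : rhoA (C := C) ρ (a * r) = 0 := by rw [map_mul, ha, zero_mul]
  rw [star hrel htr hker har s, map_mul (actA act) a r, ← mul_assoc, ← star hrel htr hker ha s,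
    ← map_mul (actA act)]

/-- `ρ` on the group algebra is surjective. -/
theorem rhoA_surjective (hspan : Submodule.span C (Set.range ρ) = ⊤) :
    Function.Surjective (rhoA (C := C) ρ) := by
  intro m
  have hm : m ∈ Submodule.span C (Set.range ρ) := by rw [hspan]; trivial
  induction hm using Submodule.span_induction with
  | mem x hx =>
    obtain ⟨g, rfl⟩ := hx
    exact ⟨of C G g, rhoA_of ρ g⟩
  | zero => exact ⟨0, map_zero _⟩
  | add x y _ _ hx hy =>
    obtain ⟨a, rfl⟩ := hx
    obtain ⟨b, rfl⟩ := hy
    exact ⟨a + b, map_add _ _ _⟩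
  | smul c x _ hx =>
    obtain ⟨a, rfl⟩ := hx
    exact ⟨c • a, map_smul _ _ _⟩

/-- the commutator element: `c = r s - s r` with `ρ(r) = E₀₁`, `ρ(s) = E₁₀`; `ρ(c²) = 1`. -/
theorem exists_comm (hspan : Submodule.span C (Set.range ρ) = ⊤) :
    ∃ r s : MonoidAlgebra C G,
      rhoA (C := C) ρ ((r * s - s * r) * (r * s - s * r)) = 1 := by
  obtain ⟨r, hr⟩ := rhoA_surjective hspan (Matrix.single (0 : Fin 2) (1 : Fin 2) (1 : k))
  obtain ⟨s, hs⟩ := rhoA_surjective hspan (Matrix.single (1 : Fin 2) (0 : Fin 2) (1 : k))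
  refine ⟨r, s, ?_⟩
  rw [map_mul, map_sub, map_mul, map_mul, hr, hs]
  ext i j
  fin_cases i <;> fin_cases j <;>
    simp [Matrix.mul_apply, Matrix.single_apply]

/-- **(BLR₂)**, ring form: the kernel of `C[G] → M₂(k)` dies in `S`. -/
theorem actA_eq_zero_of_rhoA_eq_zero (h2 : IsUnit (algebraMap C S 2))
    (hspan : Submodule.span C (Set.range ρ) = ⊤) {t : G → C}
    (hrel : ∀ g, act g + ((δ g : Cˣ) : C) • act g⁻¹ = algebraMap C S (t g))
    (htr : ∀ g, algebraMap C k (t g) = Matrix.trace (ρ g))
    (hker : ∀ c : C, algebraMap C k c = 0 → algebraMap C S c = 0)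
    {a : MonoidAlgebra C G} (ha : rhoA (C := C) ρ a = 0) : actA act a = 0 := by
  obtain ⟨r, s, hρc⟩ := exists_comm (C := C) hspan
  set c : MonoidAlgebra C G := r * s - s * r with hc
  set a' : MonoidAlgebra C G := c * c - 1 with ha'
  have hρa' : rhoA (C := C) ρ a' = 0 := by rw [ha', map_sub, hρc, map_one, sub_self]
  have hac : actA act (a * c) = 0 := by
    rw [hc, mul_sub, map_sub, ← mul_assoc, ← mul_assoc, comm_eq hrel htr hker ha r s, sub_self]
  have hacc : actA act a * (1 + actA act a') = 0 := by
    have : (1 : S) + actA act a' = actA act (c * c) := by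
      rw [ha', map_sub, map_one]; abel
    rw [this, ← map_mul, ← mul_assoc, map_mul, hac, zero_mul]
  have hsum : actA act a' + actA act (iota δ a') = 0 := rel_of_ker hrel htr hker hρa'
  have hz : actA act (a' * iota δ a') = 0 := by
    have hfix : iota δ (a' * iota δ a') = a' * iota δ a' := by rw [iota_mul, iota_iota]
    have hρz : rhoA (C := C) ρ (a' * iota δ a') = 0 := by rw [map_mul, hρa', zero_mul]
    have := rel_of_ker hrel htr hker hρz
    rw [hfix] at this
    obtain ⟨u, hu⟩ := h2
    have h3 : algebraMap C S 2 * actA act (a' * iota δ a') = 0 := by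
      rw [map_ofNat, two_mul]; exact this
    rw [← hu] at h3
    have := congrArg (fun x => ((u⁻¹ : Sˣ) : S) * x) h3
    simpa using this
  have hinv : (1 + actA act a') * (1 + actA act (iota δ a')) = 1 := by
    have e : (1 + actA act a') * (1 + actA act (iota δ a')) =
        1 + (actA act a' + actA act (iota δ a')) + actA act (a' * iota δ a') := by
      rw [map_mul]; noncomm_ring
    rw [e, hsum, hz, add_zero, add_zero]
  calc actA act a = actA act a * ((1 + actA act a') * (1 + actA act (iota δ a'))) := by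
        rw [hinv, mul_one]
    _ = (actA act a * (1 + actA act a')) * (1 + actA act (iota δ a')) := by rw [mul_assoc]
    _ = 0 := by rw [hacc, zero_mul]

/-- **`S` receives `M₂(k)` compatibly with `G`.** -/
theorem exists_algHom (h2 : IsUnit (algebraMap C S 2))
    (hspan : Submodule.span C (Set.range ρ) = ⊤) {t : G → C}
    (hrel : ∀ g, act g + ((δ g : Cˣ) : C) • act g⁻¹ = algebraMap C S (t g))
    (htr : ∀ g, algebraMap C k (t g) = Matrix.trace (ρ g))
    (hker : ∀ c : C, algebraMap C k c = 0 → algebraMap C S c = 0) :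
    ∃ Φ : Matrix (Fin 2) (Fin 2) k →ₐ[C] S,
      (∀ g, Φ (ρ g) = act g) ∧ ∀ a : MonoidAlgebra C G, Φ (rhoA (C := C) ρ a) = actA act a := by
  obtain ⟨Φ, hΦ⟩ := exists_algHom_of_ker_le (rhoA (C := C) ρ) (rhoA_surjective hspan) (actA act)
    (fun a ha => actA_eq_zero_of_rhoA_eq_zero h2 hspan hrel htr hker ha)
  refine ⟨Φ, fun g => ?_, hΦ⟩
  rw [← rhoA_of (C := C) ρ g, hΦ, actA_of]

end Fermat.Agent.GH.S32.BlrRing
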