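/-
GATE-H / S32 TATE SIDE, (GMA₂) step (i), residual part (helper93).  Mathlib-only.

`R` a local ring, `X` an `R`-module with an `R`-linear `G`-action `act` such that
`act g + δ g • act g⁻¹ = t g • 1`; `k` a field with `R ↠ k`; `ρ̄ : G →* M₂(k)` spanning with
`tr ρ̄ g = t g` in `k`.  By (BLR₂) in ring form, `M₂(k)` acts on `X ⧸ 𝔪 X`:

* `redEnd : End_R X →ₐ[R] End_R (X ⧸ 𝔪X)`;
* `exists_resid_algHom : ∃ Φ̄ : M₂(k) →ₐ[R] End_R (X ⧸ 𝔪X), Φ̄ (ρ̄_A a) = redEnd (act_A a)`;
* `Φ̄` is injective when `X ⧸ 𝔪X` is nontrivial (`M₂(k)` is simple);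
* consequences: `act_A a = 0 → ρ̄_A a = 0`, and `ρ̄_A a = 0 → act_A a` maps `X` into `𝔪 X`.
-/
import Fermat.Agent.GH.S32.BlrRing

set_option autoImplicit false

namespace Fermat.Agent.GH.S32.GmaRes

open MonoidAlgebra Fermat.Agent.GH.S32.BlrRing

variable {R : Type*} [CommRing R] [IsLocalRing R]
variable {X : Type*} [AddCommGroup X] [Module R X]

variable (R X) in
/-- `𝔪 X` -/
abbrev mX : Submodule R X := (IsLocalRing.maximalIdeal R) • (⊤ : Submodule R X)

theorem mX_le_comap (φ : Module.End R X) : mX R X ≤ Submodule.comap φ (mX R X) := by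
  rw [← Submodule.map_le_iff_le_comap, Submodule.map_smul'']
  exact Submodule.smul_mono le_rfl le_top

/-- reduction of endomorphisms modulo `𝔪 X` -/
noncomputable def redEnd : Module.End R X →ₐ[R] Module.End R (X ⧸ mX R X) where
  toFun φ := Submodule.mapQ _ _ φ (mX_le_comap φ)
  map_one' := by
    apply Submodule.linearMap_qext
    apply LinearMap.ext
    intro x
    rfl
  map_mul' φ ψ := by
    apply Submodule.linearMap_qext
    apply LinearMap.ext
    intro x
    rfl
  map_zero' := by
    apply Submodule.linearMap_qext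
    apply LinearMap.ext
    intro x
    simp
  map_add' φ ψ := by
    apply Submodule.linearMap_qext
    apply LinearMap.ext
    intro x
    simp
  commutes' r := by
    apply Submodule.linearMap_qext
    apply LinearMap.ext
    intro x
    simp [Module.algebraMap_end_apply]

theorem redEnd_mk (φ : Module.End R X) (x : X) :
    redEnd φ (Submodule.Quotient.mk x) = Submodule.Quotient.mk (φ x) := rfl

theorem redEnd_eq_zero_iff (φ : Module.End R X) :
    redEnd φ = 0 ↔ ∀ x, φ x ∈ mX R X := by
  constructor
  · intro h x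
    have := congrArg (fun f : Module.End R (X ⧸ mX R X) => f (Submodule.Quotient.mk x)) h
    simpa [redEnd_mk, Submodule.Quotient.mk_eq_zero] using this
  · intro h
    apply Submodule.linearMap_qext
    apply LinearMap.ext
    intro x
    simp only [LinearMap.comp_apply, Submodule.mkQ_apply, redEnd_mk, LinearMap.zero_apply]
    exact (Submodule.Quotient.mk_eq_zero _).mpr (h x)

variable {k : Type*} [Field k] [Algebra R k]

/-- scalars dying in `k` lie in `𝔪`. -/
theorem mem_maximalIdeal_of_algebraMap_eq_zero {c : R} (hc : algebraMap R k c = 0) :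
    c ∈ IsLocalRing.maximalIdeal R := by
  rw [IsLocalRing.mem_maximalIdeal]
  intro hu
  have := hu.map (algebraMap R k)
  rw [hc] at this
  exact not_isUnit_zero this

/-- scalars dying in `k` die on `X ⧸ 𝔪X`. -/
theorem algebraMap_end_eq_zero {c : R} (hc : algebraMap R k c = 0) :
    algebraMap R (Module.End R (X ⧸ mX R X)) c = 0 := by
  apply Submodule.linearMap_qext
  apply LinearMap.ext
  intro x
  simp only [LinearMap.comp_apply, Submodule.mkQ_apply, Module.algebraMap_end_apply,
    LinearMap.zero_apply]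
  rw [← Submodule.Quotient.mk_smul, Submodule.Quotient.mk_eq_zero]
  exact Submodule.smul_mem_smul (mem_maximalIdeal_of_algebraMap_eq_zero hc) trivial

variable {G : Type*} [Group G]
variable (act : G →* Module.End R X)

/-- the residual action -/
noncomputable def actBar : G →* Module.End R (X ⧸ mX R X) :=
  (redEnd (R := R) (X := X) : Module.End R X →* Module.End R (X ⧸ mX R X)).comp act

theorem actBar_apply (g : G) : actBar act g = redEnd (act g) := rfl

theorem actA_actBar (a : MonoidAlgebra R G) :
    actA (C := R) (actBar act) a = redEnd (actA (C := R) act a) := by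
  have : actA (C := R) (actBar act) = (redEnd (R := R) (X := X)).comp (actA (C := R) act) := by
    apply MonoidAlgebra.algHom_ext
    · intro g
      show actA (C := R) (actBar act) (of R G g) = redEnd (actA (C := R) act (of R G g))
      rw [actA_of, actA_of, actBar_apply]
    · ext
  rw [this]
  rfl

variable {act} {δ : G →* Rˣ} {t : G → R} {ρbar : G →* Matrix (Fin 2) (Fin 2) k}

/-- **`M₂(k)` acts on `X ⧸ 𝔪X`.** -/
theorem exists_resid_algHom (h2 : IsUnit (2 : R))
    (hrel : ∀ g, act g + ((δ g : Rˣ) : R) • act g⁻¹ = t g • (1 : Module.End R X))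
    (hspan : Submodule.span R (Set.range ρbar) = ⊤)
    (htr : ∀ g, algebraMap R k (t g) = Matrix.trace (ρbar g)) :
    ∃ Φbar : Matrix (Fin 2) (Fin 2) k →ₐ[R] Module.End R (X ⧸ mX R X),
      ∀ a : MonoidAlgebra R G, Φbar (rhoA (C := R) ρbar a) = redEnd (actA (C := R) act a) := by
  have h2' : IsUnit (algebraMap R (Module.End R (X ⧸ mX R X)) 2) := h2.map _
  have hrel' : ∀ g, actBar act g + ((δ g : Rˣ) : R) • actBar act g⁻¹ =
      algebraMap R (Module.End R (X ⧸ mX R X)) (t g) := by
    intro g
    rw [actBar_apply, actBar_apply, ← map_smul, ← map_add, hrel g, map_smul, map_one,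
      Algebra.algebraMap_eq_smul_one]
  obtain ⟨Φbar, -, hΦ⟩ := BlrRing.exists_algHom (ρ := ρbar) (act := actBar act) (δ := δ) h2' hspan
    hrel' htr (fun c hc => algebraMap_end_eq_zero hc)
  exact ⟨Φbar, fun a => by rw [hΦ, actA_actBar]⟩

/-- `Φ̄` is injective if `X ⧸ 𝔪X` is nontrivial. -/
theorem resid_injective [Nontrivial (X ⧸ mX R X)]
    (Φbar : Matrix (Fin 2) (Fin 2) k →ₐ[R] Module.End R (X ⧸ mX R X)) :
    Function.Injective Φbar :=
  (Φbar : Matrix (Fin 2) (Fin 2) k →+* Module.End R (X ⧸ mX R X)).injective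

end Fermat.Agent.GH.S32.GmaRes
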