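/-
GATE-H / S32 TATE SIDE, (GMA₂) step (i) (helper93).  Mathlib-only.

`R` an Artinian local ring with `2 ∈ Rˣ`, `X ≠ 0` a finite FAITHFUL `R`-module with an `R`-linear
`G`-action `act` such that `act g + δ g • act g⁻¹ = t g • 1`; `k` a field with `R ↠ k`;
`ρ̄ : G →* M₂(k)` spanning with `tr ρ̄ g = t g` in `k` (bundle `Hyp`).

`B := (actA act).range ⊆ End_R X` (the image of the group algebra).  This file produces ALL the
hypotheses of the abstract structure theorem (GMA-CORE, `GmaCore.nonempty_algEquiv`) for `B`:
the anti-involution `ι_B`, the trace `τ_B` (`b + ι_B b = τ_B b`), and the residual map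
`π : B →ₐ[R] M₂(k)`, surjective with nil kernel — see `core_hyps`.
-/
import Fermat.Agent.GH.S32.GmaRes

set_option autoImplicit false

namespace Fermat.Agent.GH.S32.GmaInst

open MonoidAlgebra Fermat.Agent.GH.S32.BlrRing Fermat.Agent.GH.S32.GmaRes
open Fermat.Agent.GH.S32.Blr (iota iota_of iota_add iota_smul iota_mul iota_one iota_iota)

/-- factorisation of linear maps through a surjective linear map -/
theorem exists_linearMap_of_ker_le {C A B D : Type*} [CommSemiring C] [AddCommGroup A]
    [AddCommGroup B] [AddCommGroup D] [Module C A] [Module C B] [Module C D]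
    (f : A →ₗ[C] B) (hf : Function.Surjective f)
    (g : A →ₗ[C] D) (hker : ∀ a, f a = 0 → g a = 0) :
    ∃ h : B →ₗ[C] D, ∀ a, h (f a) = g a := by
  choose sec hsec using hf
  have key : ∀ {a b : A}, f a = f b → g a = g b := by
    intro a b hab
    rw [← sub_eq_zero, ← map_sub]
    exact hker _ (by rw [map_sub, hab, sub_self])
  refine ⟨{ toFun := fun m => g (sec m)
            map_add' := ?_
            map_smul' := ?_ }, ?_⟩
  · intro m m'
    rw [← map_add g]
    exact key (by rw [hsec, map_add, hsec, hsec])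
  · intro c m
    rw [RingHom.id_apply, ← map_smul g]
    exact key (by rw [hsec, map_smul, hsec])
  · intro a
    exact key (hsec _)

variable {R : Type*} [CommRing R] [IsLocalRing R]
variable {X : Type*} [AddCommGroup X] [Module R X]
variable {k : Type*} [Field k] [Algebra R k]
variable {G : Type*} [Group G]

/-- the standing hypotheses of (GMA₂) -/
structure Hyp (act : G →* Module.End R X) (δ : G →* Rˣ) (t : G → R)
    (ρbar : G →* Matrix (Fin 2) (Fin 2) k) : Prop where
  h2 : IsUnit (2 : R)
  hfaith : ∀ r : R, (∀ x : X, r • x = 0) → r = 0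
  hrel : ∀ g, act g + ((δ g : Rˣ) : R) • act g⁻¹ = t g • (1 : Module.End R X)
  hspan : Submodule.span R (Set.range ρbar) = ⊤
  htr : ∀ g, algebraMap R k (t g) = Matrix.trace (ρbar g)

variable {act : G →* Module.End R X} {δ : G →* Rˣ} {t : G → R}
  {ρbar : G →* Matrix (Fin 2) (Fin 2) k}

namespace Hyp

variable (H : Hyp act δ t ρbar)
include H

theorem hrel' (g : G) :
    act g + ((δ g : Rˣ) : R) • act g⁻¹ = algebraMap R (Module.End R X) (t g) := by
  rw [H.hrel g, Algebra.algebraMap_eq_smul_one]

/-- `r + ι r = τ r` on `X`. -/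
theorem rel (r : MonoidAlgebra R G) :
    actA (C := R) act r + actA (C := R) act (iota δ r) =
      algebraMap R (Module.End R X) (tauA t r) :=
  BlrRing.rel H.hrel' r

section Artinian

variable [IsArtinianRing R] [Module.Finite R X] [Nontrivial X]

theorem nontrivial_quot : Nontrivial (X ⧸ mX R X) := by
  rw [Submodule.Quotient.nontrivial_iff]
  intro h
  have hle : (⊤ : Submodule R X) ≤ IsLocalRing.maximalIdeal R • (⊤ : Submodule R X) := h.ge
  have := Submodule.eq_bot_of_le_smul_of_le_jacobson_bot (IsLocalRing.maximalIdeal R)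
    (⊤ : Submodule R X) Module.Finite.fg_top hle (IsLocalRing.maximalIdeal_le_jacobson _)
  exact top_ne_bot this

/-- the kernel of the action is contained in the kernel of `ρ̄`. -/
theorem rhoA_eq_zero_of_actA_eq_zero {a : MonoidAlgebra R G} (ha : actA (C := R) act a = 0) :
    rhoA (C := R) ρbar a = 0 := by
  have := H.nontrivial_quot
  obtain ⟨Φbar, hΦ⟩ := exists_resid_algHom H.h2 H.hrel H.hspan H.htr
  apply resid_injective Φbar
  rw [hΦ, ha, map_zero, map_zero]

/-- elements of the kernel of `ρ̄` map `X` into `𝔪 X`. -/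
theorem actA_mem_mX {a : MonoidAlgebra R G} (ha : rhoA (C := R) ρbar a = 0) (x : X) :
    actA (C := R) act a x ∈ mX R X := by
  obtain ⟨Φbar, hΦ⟩ := exists_resid_algHom H.h2 H.hrel H.hspan H.htr
  have h := hΦ a
  rw [ha, map_zero] at h
  exact (redEnd_eq_zero_iff _).mp h.symm x

omit H [Nontrivial X] [Module.Finite R X] in
theorem pow_apply_mem (φ : Module.End R X) (hφ : ∀ x, φ x ∈ mX R X) (n : ℕ) (x : X) :
    (φ ^ n) x ∈ (IsLocalRing.maximalIdeal R) ^ n • (⊤ : Submodule R X) := by
  induction n generalizing x with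
  | zero => simp
  | succ n ih =>
    rw [pow_succ' φ n, Module.End.mul_apply]
    have h1 : (φ ^ n) x ∈ (IsLocalRing.maximalIdeal R) ^ n • (⊤ : Submodule R X) := ih x
    have h2 : φ ((φ ^ n) x) ∈
        Submodule.map φ ((IsLocalRing.maximalIdeal R) ^ n • (⊤ : Submodule R X)) :=
      Submodule.mem_map_of_mem h1
    rw [Submodule.map_smul''] at h2
    have h3 : Submodule.map φ (⊤ : Submodule R X) ≤ mX R X := by
      rintro _ ⟨y, -, rfl⟩
      exact hφ y
    have h4 := Submodule.smul_mono (le_refl ((IsLocalRing.maximalIdeal R) ^ n)) h3 h2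
    rwa [← Submodule.mul_smul, ← pow_succ] at h4

/-- elements of the kernel of `ρ̄` act nilpotently. -/
theorem isNilpotent_actA {a : MonoidAlgebra R G} (ha : rhoA (C := R) ρbar a = 0) :
    IsNilpotent (actA (C := R) act a) := by
  obtain ⟨n, hn⟩ := IsArtinianRing.isNilpotent_jacobson_bot (R := R)
  rw [IsLocalRing.jacobson_eq_maximalIdeal (⊥ : Ideal R) bot_ne_top] at hn
  refine ⟨n, ?_⟩
  apply LinearMap.ext
  intro x
  have := pow_apply_mem _ (H.actA_mem_mX ha) n x
  rw [hn] at this
  simpa using this

/-- a commutator acting invertibly -/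
theorem exists_comm_isUnit :
    ∃ r s : MonoidAlgebra R G, IsUnit (actA (C := R) act (r * s - s * r)) := by
  obtain ⟨r, s, hρc⟩ := BlrRing.exists_comm (C := R) H.hspan
  refine ⟨r, s, ?_⟩
  set c : MonoidAlgebra R G := r * s - s * r with hc
  have hker : rhoA (C := R) ρbar (c * c - 1) = 0 := by rw [map_sub, hρc, map_one, sub_self]
  clear_value c
  have hnil := H.isNilpotent_actA hker
  have hu : IsUnit (actA (C := R) act c * actA (C := R) act c) := by
    have e : actA (C := R) act c * actA (C := R) act c = 1 + actA (C := R) act (c * c - 1) := by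
      rw [map_sub, map_one, map_mul]; abel
    rw [e]
    exact hnil.isUnit_one_add
  obtain ⟨u, hu⟩ := hu
  refine ⟨⟨actA (C := R) act c, actA (C := R) act c * ↑u⁻¹, ?_, ?_⟩, rfl⟩
  · rw [← mul_assoc, ← hu, Units.mul_inv]
  · have h1 : (↑u⁻¹ : Module.End R X) * (actA (C := R) act c * actA (C := R) act c) = 1 := by
      rw [← hu, Units.inv_mul]
    have hcomm : actA (C := R) act c * (↑u⁻¹ : Module.End R X) =
        (↑u⁻¹ : Module.End R X) * actA (C := R) act c := by
      have hc2 : actA (C := R) act c * (u : Module.End R X) =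
          (u : Module.End R X) * actA (C := R) act c := by rw [hu, mul_assoc]
      calc actA (C := R) act c * (↑u⁻¹ : Module.End R X)
          = (↑u⁻¹ : Module.End R X) * (u : Module.End R X) *
              (actA (C := R) act c * (↑u⁻¹ : Module.End R X)) := by
            rw [Units.inv_mul, one_mul]
        _ = (↑u⁻¹ : Module.End R X) * ((u : Module.End R X) * actA (C := R) act c) *
              (↑u⁻¹ : Module.End R X) := by simp only [mul_assoc]
        _ = (↑u⁻¹ : Module.End R X) * (actA (C := R) act c * (u : Module.End R X)) *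
              (↑u⁻¹ : Module.End R X) := by rw [hc2]
        _ = (↑u⁻¹ : Module.End R X) * actA (C := R) act c := by
            simp only [mul_assoc, Units.mul_inv, mul_one]
    rw [hcomm, mul_assoc, h1]

/-- **descent of `ι` and `τ`**: if `r` acts as zero then so does `ι r`, and `τ r = 0`. -/
theorem descent {r : MonoidAlgebra R G} (hr : actA (C := R) act r = 0) :
    actA (C := R) act (iota δ r) = 0 ∧ tauA t r = 0 := by
  set u : R := tauA t r with hu
  have h0 : actA (C := R) act (iota δ r) = algebraMap R (Module.End R X) u := by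
    have := H.rel r
    rwa [hr, zero_add] at this
  -- `u • actA s'` is a scalar for every `s'`
  have hsc : ∀ s' : MonoidAlgebra R G, ∃ w : R,
      u • actA (C := R) act s' = algebraMap R (Module.End R X) w := by
    intro s'
    refine ⟨tauA t (r * iota δ s'), ?_⟩
    have h1 := H.rel (r * iota δ s')
    rw [map_mul, hr, zero_mul, zero_add, iota_mul, iota_iota, map_mul, h0,
      ← Algebra.commutes, ← Algebra.smul_def] at h1
    exact h1
  obtain ⟨r', s', hc⟩ := H.exists_comm_isUnit
  have hzero : u • actA (C := R) act (r' * s' - s' * r') = 0 := by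
    obtain ⟨w, hw⟩ := hsc r'
    rw [map_sub, map_mul, map_mul, smul_sub, ← smul_mul_assoc, hw, Algebra.commutes,
      ← hw, mul_smul_comm, sub_self]
  obtain ⟨v, hv⟩ := hc
  have hone : u • (1 : Module.End R X) = 0 := by
    have := congrArg (fun φ : Module.End R X => φ * ↑v⁻¹) hzero
    simp only [zero_mul, smul_mul_assoc] at this
    rwa [← hv, Units.mul_inv] at this
  have hu0 : u = 0 := by
    apply H.hfaith
    intro x
    have := congrArg (fun φ : Module.End R X => φ x) hone
    simpa using this
  exact ⟨by rw [h0, hu0, map_zero], hu0⟩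

end Artinian

end Hyp

/-- the image of the group algebra in `End_R X` -/
noncomputable abbrev B (act : G →* Module.End R X) : Subalgebra R (Module.End R X) :=
  (actA (C := R) act).range

/-- the group algebra onto its image -/
noncomputable def q (act : G →* Module.End R X) : MonoidAlgebra R G →ₐ[R] B act :=
  (actA (C := R) act).rangeRestrict

theorem q_surjective (act : G →* Module.End R X) : Function.Surjective (q act) :=
  AlgHom.rangeRestrict_surjective _

theorem coe_q (act : G →* Module.End R X) (a : MonoidAlgebra R G) :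
    ((q act a : B act) : Module.End R X) = actA (C := R) act a := rfl

theorem q_eq_zero_iff (act : G →* Module.End R X) (a : MonoidAlgebra R G) :
    q act a = 0 ↔ actA (C := R) act a = 0 := by
  rw [← coe_q, ← Subalgebra.coe_zero (B act), Subtype.ext_iff]

/-- `ι` as a linear map -/
noncomputable def iotaL (δ : G →* Rˣ) : MonoidAlgebra R G →ₗ[R] MonoidAlgebra R G where
  toFun := iota δ
  map_add' := iota_add δ
  map_smul' c r := iota_smul δ c r

theorem iotaL_apply (δ : G →* Rˣ) (a : MonoidAlgebra R G) : iotaL δ a = iota δ a := rfl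

namespace Hyp

variable (H : Hyp act δ t ρbar)
include H

variable [IsArtinianRing R] [Module.Finite R X] [Nontrivial X]

/-- **All hypotheses of the abstract structure theorem (GMA-CORE) for `B = (actA act).range`.** -/
theorem core_hyps :
    ∃ (ι : B act →ₗ[R] B act) (τ : B act →ₗ[R] R)
      (π : B act →ₐ[R] Matrix (Fin 2) (Fin 2) k),
      ι 1 = 1 ∧ (∀ a b, ι (a * b) = ι b * ι a) ∧ (∀ b, ι (ι b) = b) ∧
      (∀ b, b + ι b = algebraMap R (B act) (τ b)) ∧
      Function.Surjective π ∧ (∀ b, π b = 0 → IsNilpotent b) ∧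
      Function.Injective (algebraMap R (B act)) ∧
      (∀ a, ι (q act a) = q act (iota δ a)) ∧ (∀ a, τ (q act a) = tauA t a) ∧
      (∀ a, π (q act a) = rhoA (C := R) ρbar a) := by
  have hq := q_surjective act
  obtain ⟨ι, hι⟩ := exists_linearMap_of_ker_le (q act).toLinearMap hq
    ((q act).toLinearMap.comp (iotaL δ)) (fun a ha => by
      have ha' : actA (C := R) act a = 0 := (q_eq_zero_iff act a).mp ha
      exact (q_eq_zero_iff act _).mpr (H.descent ha').1)
  obtain ⟨τ, hτ⟩ := exists_linearMap_of_ker_le (q act).toLinearMap hq (tauA t) (fun a ha => by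
      have ha' : actA (C := R) act a = 0 := (q_eq_zero_iff act a).mp ha
      exact (H.descent ha').2)
  obtain ⟨π, hπ⟩ := exists_algHom_of_ker_le (q act) hq (rhoA (C := R) ρbar) (fun a ha =>
      H.rhoA_eq_zero_of_actA_eq_zero ((q_eq_zero_iff act a).mp ha))
  have hι' : ∀ a, ι (q act a) = q act (iota δ a) := fun a => hι a
  have hτ' : ∀ a, τ (q act a) = tauA t a := fun a => hτ a
  refine ⟨ι, τ, π, ?_, ?_, ?_, ?_, ?_, ?_, ?_, hι', hτ', hπ⟩
  · rw [← map_one (q act), hι', iota_one]
  · intro a b
    obtain ⟨a, rfl⟩ := hq a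
    obtain ⟨b, rfl⟩ := hq b
    rw [← map_mul, hι', iota_mul, map_mul, hι', hι']
  · intro b
    obtain ⟨b, rfl⟩ := hq b
    rw [hι', hι', iota_iota]
  · intro b
    obtain ⟨b, rfl⟩ := hq b
    rw [hι', hτ']
    apply Subtype.ext
    rw [Subalgebra.coe_add, coe_q, coe_q, H.rel b]
    rfl
  · intro m
    obtain ⟨a, ha⟩ := rhoA_surjective (C := R) H.hspan m
    exact ⟨q act a, by rw [hπ, ha]⟩
  · intro b hb
    obtain ⟨a, rfl⟩ := hq b
    rw [hπ] at hb
    obtain ⟨n, hn⟩ := H.isNilpotent_actA hb
    refine ⟨n, ?_⟩
    apply Subtype.ext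
    rw [Subalgebra.coe_pow, coe_q, hn]
    rfl
  · rw [injective_iff_map_eq_zero]
    intro r hr
    apply H.hfaith
    intro x
    have h1 := congrArg (fun b : B act => (b : Module.End R X) x) hr
    simpa using h1

end Hyp

end Fermat.Agent.GH.S32.GmaInst
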