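/-
GATE-H / S32 TATE SIDE, leaf (MATMOD) (helper93).  Mathlib-only.

Modules over `M₂(C)`, `C` a local ring: if `Φ : M₂(C) →ₐ[C] End_C Q` and `Q` is free of rank `2`
over `C`, then `Q` is the standard module: there is a `C`-linear equivalence `φ : C² ≃ Q` with
`Φ m (φ v) = φ (m *ᵥ v)`.

Together with `Blr.exists_algHom` this is "Carayol uniqueness" in the form needed for S32:
a `C[G]`-module `Q ≅ C²` on which `g + δ(g) g⁻¹ = tr ρ(g)` is `G`-isomorphic to `ρ`.
-/
import Fermat.Agent.GH.S32.Blr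

set_option autoImplicit false

namespace Fermat.Agent.GH.S32.MatMod

open Matrix

variable {C : Type*} [CommRing C] {Q : Type*} [AddCommGroup Q] [Module C Q]
variable (Φ : Matrix (Fin 2) (Fin 2) C →ₐ[C] Module.End C Q)

/-- the matrix units acting on `Q` -/
noncomputable def E (i j : Fin 2) : Module.End C Q := Φ (Matrix.single i j (1 : C))

theorem E_mul_E (i j k l : Fin 2) : E Φ i j * E Φ k l = if j = k then E Φ i l else 0 := by
  unfold E
  rw [← map_mul]
  split_ifs with h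
  · subst h
    rw [Matrix.single_mul_single_same, mul_one]
  · rw [Matrix.single_mul_single_of_ne _ _ _ _ h, map_zero]

theorem E_apply_E (i j k l : Fin 2) (q : Q) :
    E Φ i j (E Φ k l q) = if j = k then E Φ i l q else 0 := by
  have := congrArg (fun f : Module.End C Q => f q) (E_mul_E Φ i j k l)
  simp only [Module.End.mul_apply] at this
  rw [this]
  split_ifs <;> rfl

theorem sum_E : E Φ 0 0 + E Φ 1 1 = 1 := by
  unfold E
  rw [← map_add, ← map_one Φ]
  congr 1
  ext i j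
  fin_cases i <;> fin_cases j <;> simp

theorem decomp (m : Matrix (Fin 2) (Fin 2) C) :
    Φ m = m 0 0 • E Φ 0 0 + m 0 1 • E Φ 0 1 + m 1 0 • E Φ 1 0 + m 1 1 • E Φ 1 1 := by
  unfold E
  rw [← map_smul, ← map_smul, ← map_smul, ← map_smul, ← map_add, ← map_add, ← map_add]
  congr 1
  ext i j
  fin_cases i <;> fin_cases j <;> simp

/-- the "first column" submodule `E₀₀ Q` -/
noncomputable def Y : Submodule C Q := LinearMap.range (E Φ 0 0)

theorem E00_of_mem {y : Q} (hy : y ∈ Y Φ) : E Φ 0 0 y = y := by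
  obtain ⟨q, rfl⟩ := hy
  rw [E_apply_E, if_pos rfl]

theorem E00_mem (q : Q) : E Φ 0 0 q ∈ Y Φ := ⟨q, rfl⟩

theorem E01_mem (q : Q) : E Φ 0 1 q ∈ Y Φ := ⟨E Φ 0 1 q, by rw [E_apply_E, if_pos rfl]⟩

/-- `Q ≃ Y × Y`, `q ↦ (E₀₀ q, E₀₁ q)`. -/
noncomputable def splitEquiv : Q ≃ₗ[C] (Y Φ × Y Φ) where
  toFun q := (⟨E Φ 0 0 q, E00_mem Φ q⟩, ⟨E Φ 0 1 q, E01_mem Φ q⟩)
  map_add' q q' := by
    apply Prod.ext <;> apply Subtype.ext
    · show E Φ 0 0 (q + q') = E Φ 0 0 q + E Φ 0 0 q'
      rw [map_add]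
    · show E Φ 0 1 (q + q') = E Φ 0 1 q + E Φ 0 1 q'
      rw [map_add]
  map_smul' c q := by
    apply Prod.ext <;> apply Subtype.ext
    · show E Φ 0 0 (c • q) = c • E Φ 0 0 q
      rw [map_smul]
    · show E Φ 0 1 (c • q) = c • E Φ 0 1 q
      rw [map_smul]
  invFun z := (z.1 : Q) + E Φ 1 0 (z.2 : Q)
  left_inv q := by
    show E Φ 0 0 q + E Φ 1 0 (E Φ 0 1 q) = q
    rw [E_apply_E, if_pos rfl]
    have := congrArg (fun f : Module.End C Q => f q) (sum_E Φ)
    simpa using this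
  right_inv z := by
    obtain ⟨⟨y, hy⟩, ⟨y', hy'⟩⟩ := z
    apply Prod.ext <;> apply Subtype.ext
    · show E Φ 0 0 (y + E Φ 1 0 y') = y
      rw [map_add, E00_of_mem Φ hy, E_apply_E, if_neg (by decide), add_zero]
    · show E Φ 0 1 (y + E Φ 1 0 y') = y'
      rw [map_add, ← E00_of_mem Φ hy, E_apply_E, if_neg (by decide), zero_add, E_apply_E,
        if_pos rfl, E00_of_mem Φ hy']

variable [IsLocalRing C] [Module.Free C Q] [Module.Finite C Q]

/-- **The standard-module theorem.** -/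
theorem exists_equiv (hrank : Module.finrank C Q = 2) :
    ∃ φ : (Fin 2 → C) ≃ₗ[C] Q, ∀ (m : Matrix (Fin 2) (Fin 2) C) (v : Fin 2 → C),
      Φ m (φ v) = φ (m.mulVec v) := by
  -- `Y` is finite projective, hence free, of rank one
  have hfinY : Module.Finite C (Y Φ) := Module.Finite.range _
  have hprojY : Module.Projective C (Y Φ) :=
    Module.Projective.of_split (Y Φ).subtype ((E Φ 0 0).codRestrict (Y Φ) (E00_mem Φ)) (by
      apply LinearMap.ext
      rintro ⟨y, hy⟩
      apply Subtype.ext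
      simp only [LinearMap.coe_comp, Function.comp_apply, Submodule.subtype_apply,
        LinearMap.codRestrict_apply, LinearMap.id_coe, id_eq]
      exact E00_of_mem Φ hy)
  have hfreeY : Module.Free C (Y Φ) := Module.free_of_flat_of_isLocalRing
  have hrankY : Module.finrank C (Y Φ) = 1 := by
    have h := LinearEquiv.finrank_eq (splitEquiv Φ)
    rw [Module.finrank_prod, hrank] at h
    omega
  let b : Module.Basis (Fin 1) C (Y Φ) := Module.finBasisOfFinrankEq C (Y Φ) hrankY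
  set y₀ : Q := (b 0 : Q) with hy₀
  have hy₀mem : y₀ ∈ Y Φ := (b 0).2
  have hy₀00 : E Φ 0 0 y₀ = y₀ := E00_of_mem Φ hy₀mem
  -- every element of `Y` is a multiple of `y₀`
  have hgen : ∀ y ∈ Y Φ, ∃ c : C, y = c • y₀ := by
    intro y hy
    refine ⟨b.repr ⟨y, hy⟩ 0, ?_⟩
    have := b.sum_repr ⟨y, hy⟩
    rw [Fin.sum_univ_one] at this
    have h2 := congrArg Subtype.val this
    simpa using h2.symm
  -- `y₀` is torsion-free
  have hfree : ∀ c : C, c • y₀ = 0 → c = 0 := by
    intro c hc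
    have h1 : c • b 0 = 0 := by
      apply Subtype.ext
      simpa using hc
    have := b.linearIndependent
    rw [Fintype.linearIndependent_iff] at this
    have h2 := this (fun _ => c) (by rw [Fin.sum_univ_one]; exact h1) 0
    exact h2
  -- the action of the matrix units on `y₀` and `w := E₁₀ y₀`
  have a01 : E Φ 0 1 y₀ = 0 := by
    rw [← hy₀00, E_apply_E, if_neg (by decide)]
  have a11 : E Φ 1 1 y₀ = 0 := by
    rw [← hy₀00, E_apply_E, if_neg (by decide)]
  have b00 : E Φ 0 0 (E Φ 1 0 y₀) = 0 := by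
    rw [E_apply_E, if_neg (by decide)]
  have b01 : E Φ 0 1 (E Φ 1 0 y₀) = y₀ := by
    rw [E_apply_E, if_pos rfl, hy₀00]
  have b10 : E Φ 1 0 (E Φ 1 0 y₀) = 0 := by
    rw [E_apply_E, if_neg (by decide)]
  have b11 : E Φ 1 1 (E Φ 1 0 y₀) = E Φ 1 0 y₀ := by
    rw [E_apply_E, if_pos rfl]
  set w : Q := E Φ 1 0 y₀ with hw
  -- the map
  let φl : (Fin 2 → C) →ₗ[C] Q :=
    { toFun := fun v => v 0 • y₀ + v 1 • w
      map_add' := by intro v v'; simp only [Pi.add_apply, add_smul]; abel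
      map_smul' := by
        intro c v
        simp only [Pi.smul_apply, smul_eq_mul, mul_smul, RingHom.id_apply, smul_add] }
  have hφl : ∀ v, φl v = v 0 • y₀ + v 1 • w := fun v => rfl
  have hinj : Function.Injective φl := by
    rw [injective_iff_map_eq_zero]
    intro v hv
    rw [hφl] at hv
    have h0 := congrArg (E Φ 0 0) hv
    rw [map_add, map_smul, map_smul, hy₀00, b00, smul_zero, add_zero, map_zero] at h0
    have h1 := congrArg (E Φ 0 1) hv
    rw [map_add, map_smul, map_smul, a01, b01, smul_zero, zero_add, map_zero] at h1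
    funext i
    fin_cases i
    · exact hfree _ h0
    · exact hfree _ h1
  have hsurj : Function.Surjective φl := by
    intro q
    obtain ⟨c, hc⟩ := hgen _ (E00_mem Φ q)
    obtain ⟨c', hc'⟩ := hgen _ (E01_mem Φ q)
    refine ⟨![c, c'], ?_⟩
    rw [hφl]
    simp only [Matrix.cons_val_zero, Matrix.cons_val_one]
    rw [← hc, hw, ← map_smul, ← hc', E_apply_E, if_pos rfl]
    have := congrArg (fun f : Module.End C Q => f q) (sum_E Φ)
    simpa using this
  refine ⟨LinearEquiv.ofBijective φl ⟨hinj, hsurj⟩, ?_⟩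
  intro m v
  show Φ m (φl v) = φl (m.mulVec v)
  rw [hφl, hφl, decomp Φ m]
  simp only [LinearMap.add_apply, LinearMap.smul_apply, map_add, map_smul, hy₀00, a01, a11, b00,
    b01, b10, b11, ← hw, smul_zero, add_zero, zero_add]
  simp only [Matrix.mulVec, dotProduct, Fin.sum_univ_two, add_smul, mul_smul]
  rw [smul_add, smul_add, smul_comm (v 0) (m 0 0), smul_comm (v 1) (m 0 1),
    smul_comm (v 0) (m 1 0), smul_comm (v 1) (m 1 1)]
  abel

/-- **Carayol uniqueness via (BLR₂)**: a `C[G]`-module `Q`, free of rank two over the local ring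
`C`, on which `g + δ(g) g⁻¹` acts as `tr ρ(g)`, is `G`-isomorphic to `ρ` (`ρ` spanning `M₂(C)`). -/
theorem exists_equiv_of_rel {G : Type*} [Group G] (h2 : IsUnit (2 : C))
    {ρ : G →* Matrix (Fin 2) (Fin 2) C} (hspan : Submodule.span C (Set.range ρ) = ⊤)
    {act : G →* Module.End C Q} {δ : G →* Cˣ}
    (hrel : ∀ g, act g + ((δ g : Cˣ) : C) • act g⁻¹ = Matrix.trace (ρ g) • (1 : Module.End C Q))
    (hrank : Module.finrank C Q = 2) :
    ∃ φ : (Fin 2 → C) ≃ₗ[C] Q, ∀ (g : G) (v : Fin 2 → C), act g (φ v) = φ ((ρ g).mulVec v) := by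
  obtain ⟨Φ, hΦ⟩ := Blr.exists_algHom h2 hspan hrel
  obtain ⟨φ, hφ⟩ := exists_equiv Φ hrank
  exact ⟨φ, fun g v => by rw [← hΦ g, hφ]⟩

end Fermat.Agent.GH.S32.MatMod
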