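/-
GATE-H / S32 TATE SIDE, node SUBQUOT = INTERFACE-GMA (helper93).  Mathlib-only.

`R` an Artinian local ring, `2 ∈ Rˣ`; `X` a finite faithful `R`-module with an `R`-linear
`G`-action `act`; `δ : G →* Rˣ` with `act g + δ g • act g⁻¹ ∈ R • 1` for all `g`;
`f : R ↠ C` onto a local ring, `ρ : G →* M₂(C)` spanning, with `tr ρ g = f t` whenever
`act g + δ g • act g⁻¹ = t • 1`.

THEN `(C², ρ)` is an equivariant quotient of an `act`-stable subgroup of a finite power of `X`:
`IsSubquotPow (fun g x => act g x) (fun g v => ρ g *ᵥ v)` (helper47's `IsSubquot.lean`).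

Proof: (GMA₂) [`GmaInst.core_hyps` + `GmaCore` (helper51) through `GmaBridge`] gives
`Ψ : M₂(R) ↪ End_R X` with `act g = Ψ (ρ_R g)`; `Y = E₀₀ X` is faithful, the vector
`u = (E₀₀ x)_{x ∈ X} ∈ X^r` generates a copy `R² ≅ M₂(R) u ⊆ X^r`; reduce along `f` and identify
`(C², ρ_R mod f)` with `(C², ρ)` by Carayol uniqueness (`MatMod.exists_equiv_of_rel`).
-/
import Fermat.Agent.GH.S32.GmaInst
import Fermat.Agent.GH.S32.GmaBridge
import Fermat.Agent.GH.S32.MatMod
import Fermat.Agent.GH.S32.IsSubquot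

set_option autoImplicit false

namespace Fermat.Agent.GH.S32.Subquot

open MonoidAlgebra Fermat.Agent.GH.S32.BlrRing Fermat.Agent.GH.S32.GmaRes
  Fermat.Agent.GH.S32.GmaInst Fermat.Agent.GH.S32.MatMod

section Col

variable {C : Type*} [CommRing C] {Q : Type*} [AddCommGroup Q] [Module C Q]
variable (Φ : Matrix (Fin 2) (Fin 2) C →ₐ[C] Module.End C Q)

/-- the action of `M₂(C)` on the "column" spanned by `y₀ = E₀₀ y₀` and `E₁₀ y₀`. -/
theorem apply_col {y₀ : Q} (hy : E Φ 0 0 y₀ = y₀) (m : Matrix (Fin 2) (Fin 2) C)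
    (v : Fin 2 → C) :
    Φ m (v 0 • y₀ + v 1 • E Φ 1 0 y₀) =
      (m.mulVec v) 0 • y₀ + (m.mulVec v) 1 • E Φ 1 0 y₀ := by
  have a01 : E Φ 0 1 y₀ = 0 := by
    rw [← hy, E_apply_E, if_neg (by decide)]
  have a11 : E Φ 1 1 y₀ = 0 := by
    rw [← hy, E_apply_E, if_neg (by decide)]
  have b00 : E Φ 0 0 (E Φ 1 0 y₀) = 0 := by
    rw [E_apply_E, if_neg (by decide)]
  have b01 : E Φ 0 1 (E Φ 1 0 y₀) = y₀ := by
    rw [E_apply_E, if_pos rfl, hy]
  have b10 : E Φ 1 0 (E Φ 1 0 y₀) = 0 := by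
    rw [E_apply_E, if_neg (by decide)]
  have b11 : E Φ 1 1 (E Φ 1 0 y₀) = E Φ 1 0 y₀ := by
    rw [E_apply_E, if_pos rfl]
  set w : Q := E Φ 1 0 y₀ with hw
  rw [decomp Φ m]
  simp only [LinearMap.add_apply, LinearMap.smul_apply, map_add, map_smul, hy, a01, a11, b00,
    b01, b10, b11, ← hw, smul_zero, add_zero, zero_add]
  simp only [Matrix.mulVec, dotProduct, Fin.sum_univ_two, add_smul, mul_smul]
  rw [smul_add, smul_add, smul_comm (v 0) (m 0 0), smul_comm (v 1) (m 0 1),
    smul_comm (v 0) (m 1 0), smul_comm (v 1) (m 1 1)]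
  abel

end Col

section Copy

variable {R : Type*} [CommRing R] {X : Type*} [AddCommGroup X] [Module R X]
variable (Ψ : Matrix (Fin 2) (Fin 2) R →ₐ[R] Module.End R X)

/-- the map `R² → X^X`, `v ↦ (v₀ E₀₀ x + v₁ E₁₀ x)_x` -/
noncomputable def colMap : (Fin 2 → R) →ₗ[R] (X → X) where
  toFun v := fun x => v 0 • E Ψ 0 0 x + v 1 • E Ψ 1 0 (E Ψ 0 0 x)
  map_add' v w := by
    funext x
    simp only [Pi.add_apply, add_smul]
    abel
  map_smul' c v := by
    funext x
    simp only [Pi.smul_apply, smul_eq_mul, mul_smul, RingHom.id_apply, smul_add]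

theorem colMap_apply (v : Fin 2 → R) (x : X) :
    colMap Ψ v x = v 0 • E Ψ 0 0 x + v 1 • E Ψ 1 0 (E Ψ 0 0 x) := rfl

theorem E00_E00 (x : X) : E Ψ 0 0 (E Ψ 0 0 x) = E Ψ 0 0 x := by
  rw [E_apply_E, if_pos rfl]

/-- `M₂(R)` acts on the image of `colMap` through `mulVec`. -/
theorem apply_colMap (m : Matrix (Fin 2) (Fin 2) R) (v : Fin 2 → R) (x : X) :
    Ψ m (colMap Ψ v x) = colMap Ψ (m.mulVec v) x := by
  rw [colMap_apply, colMap_apply]
  exact apply_col Ψ (E00_E00 Ψ x) m v

theorem colMap_injective (hfaith : ∀ r : R, (∀ x : X, r • x = 0) → r = 0) :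
    Function.Injective (colMap Ψ) := by
  rw [injective_iff_map_eq_zero]
  intro v hv
  have hx : ∀ x, v 0 • E Ψ 0 0 x + v 1 • E Ψ 1 0 (E Ψ 0 0 x) = 0 := fun x => congrFun hv x
  -- `r • E₀₀ x = 0` for all `x` implies `r = 0`
  have key : ∀ r : R, (∀ x, r • E Ψ 0 0 x = 0) → r = 0 := by
    intro r hr
    apply hfaith
    intro x
    have h1 : x = E Ψ 0 0 x + E Ψ 1 0 (E Ψ 0 0 (E Ψ 0 1 x)) := by
      have := congrArg (fun f : Module.End R X => f x) (sum_E Ψ)
      simp only [LinearMap.add_apply, Module.End.one_apply] at this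
      rw [E_apply_E, if_pos rfl, E_apply_E, if_pos rfl]
      exact this.symm
    rw [h1, smul_add, hr, ← map_smul, hr, map_zero, add_zero]
  have h0 : ∀ x, v 0 • E Ψ 0 0 x = 0 := by
    intro x
    have := congrArg (E Ψ 0 0) (hx x)
    rw [map_add, map_smul, map_smul, E00_E00, E_apply_E, if_neg (by decide), smul_zero,
      add_zero, map_zero] at this
    exact this
  have h1 : ∀ x, v 1 • E Ψ 0 0 x = 0 := by
    intro x
    have := congrArg (E Ψ 0 1) (hx x)
    rw [map_add, map_smul, map_smul, E_apply_E, if_neg (by decide), smul_zero, zero_add,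
      E_apply_E, if_pos rfl, E00_E00, map_zero] at this
    exact this
  funext i
  fin_cases i
  · exact key _ h0
  · exact key _ h1

open Function in
/-- **the abstract copy lemma** -/
theorem isSubquotPow_of_matrix [Finite X]
    (hfaith : ∀ r : R, (∀ x : X, r • x = 0) → r = 0)
    {G : Type*} (act : G → X → X) (ρR : G → Matrix (Fin 2) (Fin 2) R)
    (hact : ∀ g x, act g x = Ψ (ρR g) x)
    {M' : Type*} [AddCommGroup M'] (act' : G → M' → M') (χ : (Fin 2 → R) →+ M')
    (hχ : Surjective χ) (hχeq : ∀ g v, χ ((ρR g).mulVec v) = act' g (χ v)) :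
    IsSubquotPow act act' := by
  have hinj := colMap_injective Ψ hfaith
  let eqv : (Fin 2 → R) ≃ₗ[R] LinearMap.range (colMap Ψ) := LinearEquiv.ofInjective _ hinj
  have heqv : ∀ v, ((eqv v : LinearMap.range (colMap Ψ)) : X → X) = colMap Ψ v := fun v => rfl
  let X₁ : AddSubgroup (X → X) := (LinearMap.range (colMap Ψ)).toAddSubgroup
  have hst : ∀ g, ∀ x ∈ X₁, (fun i => act g (x i)) ∈ X₁ := by
    rintro g _ ⟨v, rfl⟩
    refine ⟨(ρR g).mulVec v, ?_⟩
    funext i
    rw [hact, apply_colMap]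
  let fψ : X₁ →+ M' := χ.comp (eqv.symm.toLinearMap.toAddMonoidHom)
  have hfψ : ∀ v, fψ ⟨colMap Ψ v, ⟨v, rfl⟩⟩ = χ v := by
    intro v
    show χ (eqv.symm ⟨colMap Ψ v, ⟨v, rfl⟩⟩) = χ v
    congr 1
    apply eqv.injective
    rw [LinearEquiv.apply_symm_apply]
    exact Subtype.ext (heqv v).symm
  refine IsSubquotPow.of_fintype X₁ fψ ?_ hst ?_
  · intro y
    obtain ⟨v, rfl⟩ := hχ y
    exact ⟨⟨colMap Ψ v, ⟨v, rfl⟩⟩, hfψ v⟩
  · rintro g ⟨_, ⟨v, rfl⟩⟩
    have e1 : (⟨fun i => act g (colMap Ψ v i), hst g _ ⟨v, rfl⟩⟩ : X₁) =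
        ⟨colMap Ψ ((ρR g).mulVec v), ⟨_, rfl⟩⟩ := by
      apply Subtype.ext
      funext i
      show act g (colMap Ψ v i) = _
      rw [hact, apply_colMap]
    rw [e1, hfψ, hfψ, hχeq]

end Copy

section Main

variable {R : Type*} [CommRing R] [IsLocalRing R] [IsArtinianRing R]
variable {X : Type*} [AddCommGroup X] [Module R X] [Finite X]
variable {G : Type*} [Group G]
variable {C : Type*} [CommRing C] [IsLocalRing C]

/-- **INTERFACE-GMA (SUBQUOT).** -/
theorem isSubquotPow_of_gma (act : G →* Module.End R X) (δ : G →* Rˣ)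
    (h2 : IsUnit (2 : R))
    (hfaith : ∀ r : R, (∀ x : X, r • x = 0) → r = 0)
    (hsc : ∀ g, ∃ t : R, act g + ((δ g : Rˣ) : R) • act g⁻¹ = t • (1 : Module.End R X))
    (f : R →+* C) (hf : Function.Surjective f)
    (ρ : G →* Matrix (Fin 2) (Fin 2) C) (hspan : Submodule.span C (Set.range ρ) = ⊤)
    (htr : ∀ g t, act g + ((δ g : Rˣ) : R) • act g⁻¹ = t • (1 : Module.End R X) →
      Matrix.trace (ρ g) = f t) :
    IsSubquotPow (fun g x => act g x) (fun g (v : Fin 2 → C) => (ρ g).mulVec v) := by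
  classical
  choose t ht using hsc
  -- the residue field of `C` as an `R`-algebra
  let algRk : Algebra R (IsLocalRing.ResidueField C) :=
    ((IsLocalRing.residue C).comp f).toAlgebra
  have halg : ∀ r : R, algebraMap R (IsLocalRing.ResidueField C) r =
      IsLocalRing.residue C (f r) := fun r => rfl
  have hres : Function.Surjective (algebraMap R (IsLocalRing.ResidueField C)) :=
    (IsLocalRing.residue_surjective).comp hf
  -- the residual representation
  let ρbar : G →* Matrix (Fin 2) (Fin 2) (IsLocalRing.ResidueField C) :=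
    (((IsLocalRing.residue C).mapMatrix :
      Matrix (Fin 2) (Fin 2) C →+* Matrix (Fin 2) (Fin 2) (IsLocalRing.ResidueField C)) :
      Matrix (Fin 2) (Fin 2) C →* Matrix (Fin 2) (Fin 2) (IsLocalRing.ResidueField C)).comp ρ
  have hρbar : ∀ g, ρbar g = (ρ g).map (IsLocalRing.residue C) := fun g => rfl
  have hsmul : ∀ (r : R) (m : Matrix (Fin 2) (Fin 2) C),
      (f r • m).map (IsLocalRing.residue C) = r • m.map (IsLocalRing.residue C) := by
    intro r m
    ext i j
    rw [Matrix.map_apply, Matrix.smul_apply, Matrix.smul_apply, Matrix.map_apply, smul_eq_mul,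
      map_mul, Algebra.smul_def, halg]
  have hspanbar : Submodule.span R (Set.range ρbar) = ⊤ := by
    rw [eq_top_iff]
    rintro mbar -
    obtain ⟨m, rfl⟩ : ∃ m : Matrix (Fin 2) (Fin 2) C,
        m.map (IsLocalRing.residue C) = mbar := by
      choose l hl using IsLocalRing.residue_surjective (R := C)
      exact ⟨mbar.map l, by ext i j; simp [hl]⟩
    have hm : m ∈ Submodule.span C (Set.range ρ) := by rw [hspan]; trivial
    induction hm using Submodule.span_induction with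
    | mem x hx =>
      obtain ⟨g, rfl⟩ := hx
      exact Submodule.subset_span ⟨g, rfl⟩
    | zero =>
      have : (0 : Matrix (Fin 2) (Fin 2) C).map (IsLocalRing.residue C) = 0 := by
        ext i j; simp
      rw [this]
      exact Submodule.zero_mem _
    | add x y _ _ hx hy =>
      have : (x + y).map (IsLocalRing.residue C) =
          x.map (IsLocalRing.residue C) + y.map (IsLocalRing.residue C) := by
        ext i j; simp
      rw [this]
      exact Submodule.add_mem _ hx hy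
    | smul c x _ hx =>
      obtain ⟨r, rfl⟩ := hf c
      rw [hsmul]
      exact Submodule.smul_mem _ _ hx
  have htrbar : ∀ g, algebraMap R (IsLocalRing.ResidueField C) (t g) =
      Matrix.trace (ρbar g) := by
    intro g
    rw [halg, ← htr g (t g) (ht g), hρbar]
    simp [Matrix.trace, Fin.sum_univ_two]
  have H : Hyp act δ t ρbar := ⟨h2, hfaith, ht, hspanbar, htrbar⟩
  have : Nontrivial X := by
    by_contra hne
    rw [not_nontrivial_iff_subsingleton] at hne
    exact one_ne_zero (hfaith 1 (fun x => Subsingleton.elim _ _))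
  have : Module.Finite R X := Module.Finite.of_finite
  obtain ⟨ι, τ, π, -, hιmul, hιι, hτ, hπsurj, hπnil, hinj, -, -, -⟩ := H.core_hyps
  obtain ⟨Φ, -, -⟩ :=
    GmaBridge.exists_algEquiv hres h2 hinj ι hιmul hιι τ hτ π hπsurj hπnil
  let Ψ : Matrix (Fin 2) (Fin 2) R →ₐ[R] Module.End R X :=
    (B act).val.comp (Φ : Matrix (Fin 2) (Fin 2) R →ₐ[R] B act)
  have hΨinj : Function.Injective Ψ := Subtype.val_injective.comp Φ.injective
  let ρR : G →* Matrix (Fin 2) (Fin 2) R :=
    ((Φ.symm : B act →ₐ[R] Matrix (Fin 2) (Fin 2) R) : B act →* Matrix (Fin 2) (Fin 2) R).comp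
      (((q act : MonoidAlgebra R G →ₐ[R] B act) : MonoidAlgebra R G →* B act).comp (of R G))
  have hΨρ : ∀ g, Ψ (ρR g) = act g := by
    intro g
    show ((Φ (Φ.symm (q act (of R G g))) : B act) : Module.End R X) = act g
    rw [AlgEquiv.apply_symm_apply, coe_q, actA_of]
  -- the relation in `M₂(R)`
  have hrelR : ∀ g, ρR g + ((δ g : Rˣ) : R) • ρR g⁻¹ =
      t g • (1 : Matrix (Fin 2) (Fin 2) R) := by
    intro g
    apply hΨinj
    rw [map_add, map_smul, hΨρ, hΨρ, ht g, map_smul, map_one]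
  -- reduce along `f`
  let ρ' : G →* Matrix (Fin 2) (Fin 2) C :=
    ((f.mapMatrix : Matrix (Fin 2) (Fin 2) R →+* Matrix (Fin 2) (Fin 2) C) :
      Matrix (Fin 2) (Fin 2) R →* Matrix (Fin 2) (Fin 2) C).comp ρR
  have hρ' : ∀ g, ρ' g = (ρR g).map f := fun g => rfl
  let δC : G →* Cˣ := (Units.map (f : R →* C)).comp δ
  have hδC : ∀ g, ((δC g : Cˣ) : C) = f ((δ g : Rˣ) : R) := fun g => rfl
  have hrelC : ∀ g, ρ' g + ((δC g : Cˣ) : C) • ρ' g⁻¹ =
      Matrix.trace (ρ g) • (1 : Matrix (Fin 2) (Fin 2) C) := by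
    intro g
    have h : (ρR g + ((δ g : Rˣ) : R) • ρR g⁻¹).map f =
        (t g • (1 : Matrix (Fin 2) (Fin 2) R)).map f :=
      congrArg (fun m : Matrix (Fin 2) (Fin 2) R => m.map f) (hrelR g)
    rw [htr g (t g) (ht g), hρ', hρ', hδC]
    ext i j
    have hij := congrFun (congrFun h i) j
    simp only [Matrix.map_apply, Matrix.add_apply, Matrix.smul_apply, smul_eq_mul, map_add,
      map_mul, Matrix.one_apply] at hij ⊢
    rw [hij]
    split_ifs <;> simp
  -- the linear action on `C²`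
  let act' : G →* Module.End C (Fin 2 → C) :=
    ((Matrix.toLinAlgEquiv' : Matrix (Fin 2) (Fin 2) C ≃ₐ[C] Module.End C (Fin 2 → C)) :
      Matrix (Fin 2) (Fin 2) C →* Module.End C (Fin 2 → C)).comp ρ'
  have hact' : ∀ g v, act' g v = (ρ' g).mulVec v := fun g v => rfl
  have hrel' : ∀ g, act' g + ((δC g : Cˣ) : C) • act' g⁻¹ =
      Matrix.trace (ρ g) • (1 : Module.End C (Fin 2 → C)) := by
    intro g
    have h := congrArg (Matrix.toLinAlgEquiv' :
      Matrix (Fin 2) (Fin 2) C ≃ₐ[C] Module.End C (Fin 2 → C)) (hrelC g)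
    rw [map_add, map_smul, map_smul, map_one] at h
    exact h
  have h2C : IsUnit (2 : C) := by
    have := h2.map f
    rwa [map_ofNat] at this
  obtain ⟨φ, hφ⟩ := MatMod.exists_equiv_of_rel h2C hspan hrel' (Module.finrank_fin_fun C)
  -- the quotient map
  let χ : (Fin 2 → R) →+ (Fin 2 → C) :=
    (φ.symm.toLinearMap.toAddMonoidHom).comp
      ((f.compLeft (Fin 2) : (Fin 2 → R) →+* (Fin 2 → C)) : (Fin 2 → R) →+ (Fin 2 → C))
  have hχ : ∀ v, χ v = φ.symm (f ∘ v) := fun v => rfl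
  refine isSubquotPow_of_matrix Ψ hfaith (fun g x => act g x) (fun g => ρR g)
    (fun g x => by rw [hΨρ]) _ χ ?_ ?_
  · intro w
    have hw : ∀ i, ∃ r : R, f r = φ w i := fun i => hf _
    choose v hv using hw
    refine ⟨v, ?_⟩
    rw [hχ]
    have : f ∘ v = φ w := funext hv
    rw [this, LinearEquiv.symm_apply_apply]
  · intro g v
    rw [hχ, hχ]
    have e1 : f ∘ ((ρR g).mulVec v) = (ρ' g).mulVec (f ∘ v) := by
      funext i
      exact RingHom.map_mulVec f (ρR g) v i
    rw [e1, ← hact', ← LinearEquiv.apply_symm_apply φ (f ∘ v), hφ,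
      LinearEquiv.symm_apply_apply, LinearEquiv.symm_apply_apply]

end Main

end Fermat.Agent.GH.S32.Subquot
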