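/-
GATE-H / S32, node LOC, top (helper47): INTERFACE-GMA (`Subquot.isSubquotPow_of_gma`, helper93) in
"big Hecke ring" form — no locality, no faithfulness asked from the consumer.
-/
import Fermat.Agent.GH.S32.Loc
import Fermat.Agent.GH.S32.Subquot

set_option autoImplicit false

namespace Fermat.Agent.GH.S32

open Function Loc

/-- A stable subgroup is a sub(quotient). -/
theorem IsSubquotPow.of_subgroup {G M : Type*} [AddCommGroup M] {act : G → M → M}
    (Y : AddSubgroup M) (hst : ∀ g, ∀ x ∈ Y, act g x ∈ Y) :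
    IsSubquotPow act (fun g (y : Y) => (⟨act g y.1, hst g y.1 y.2⟩ : Y)) := by
  let X₁ : AddSubgroup (Unit → M) := Y.comap (Pi.evalAddMonoidHom (fun _ : Unit => M) ())
  let f : X₁ →+ Y :=
    { toFun := fun x => ⟨x.1 (), x.2⟩
      map_zero' := rfl
      map_add' := fun _ _ => rfl }
  refine IsSubquotPow.of_fintype (ι := Unit) X₁ f ?_ (fun g x hx => hst g _ hx) (fun _ _ => rfl)
  intro y
  exact ⟨⟨fun _ => y.1, y.2⟩, rfl⟩

variable {G : Type*} [Group G] {𝒯 : Type*} [CommRing 𝒯] {X : Type*} [AddCommGroup X] [Finite X]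
  {C : Type*} [CommRing C] [IsLocalRing C]

/-- **LOC**: the Tate-side subquotient theorem in "big Hecke ring" form. -/
theorem isSubquotPow_of_hecke (hecke : 𝒯 →+* AddMonoid.End X) (gal : G →* AddMonoid.End X)
    (hcomm : ∀ t g, Commute (hecke t) (gal g)) (h2 : IsUnit (2 : C)) (π : 𝒯 →+* C)
    (hπ : Surjective π) (hker : ∀ t, hecke t = 0 → π t = 0)
    (ρ : G →* Matrix (Fin 2) (Fin 2) C) (hspan : Submodule.span C (Set.range ρ) = ⊤)
    {m : ℕ} (hm : (m : AddMonoid.End X) = 0) (δ : G →* (ZMod m)ˣ)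
    (hCH : ∀ g, ∃ (t : 𝒯) (c : ℕ), (c : ZMod m) = δ g ∧
      hecke t = gal g + (c : AddMonoid.End X) * gal g⁻¹ ∧ π t = (ρ g).trace) :
    IsSubquotPow (fun g x => gal g x) (fun g (v : Fin 2 → C) => (ρ g).mulVec v) := by
  set 𝔪 : Ideal 𝒯 := (IsLocalRing.maximalIdeal C).comap π with h𝔪
  have : 𝔪.IsMaximal := Ideal.comap_isMaximal_of_surjective π hπ
  obtain ⟨k, e, he1, he2⟩ := exists_cut hecke 𝔪
  have heu : IsUnit (π e) := by
    rw [← IsLocalRing.notMem_maximalIdeal]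
    intro h
    have h1 : π (e - 1) ∈ IsLocalRing.maximalIdeal C := he1
    rw [map_sub, map_one] at h1
    have h3 : (1 : C) ∈ IsLocalRing.maximalIdeal C := by
      have := Ideal.sub_mem _ h h1
      rwa [sub_sub_cancel] at this
    exact (IsLocalRing.maximalIdeal.isMaximal C).ne_top ((Ideal.eq_top_iff_one _).mpr h3)
  have hle := annihilator_le_ker hecke 𝔪 k π hker e he2 heu
  have : Nontrivial (Rloc hecke 𝔪 k) := nontrivial_Rloc hecke 𝔪 k π hle
  have : IsLocalRing (Rloc hecke 𝔪 k) := isLocalRing hecke 𝔪 k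
  have h2m : (2 : 𝒯) ∉ 𝔪 := by
    intro h
    have h1 : π 2 ∈ IsLocalRing.maximalIdeal C := h
    rw [map_ofNat] at h1
    exact (IsLocalRing.notMem_maximalIdeal.mpr h2) h1
  have h2R : IsUnit (2 : Rloc hecke 𝔪 k) := by
    have := isUnit_mk_of_notMem hecke 𝔪 k h2m
    rwa [map_ofNat] at this
  have key := Subquot.isSubquotPow_of_gma (actR hecke 𝔪 k gal hcomm) (δR hecke 𝔪 k hm δ) h2R
    (eq_zero_of_forall_smul hecke 𝔪 k)
    (fun g => by
      obtain ⟨t, c, hc, ht, -⟩ := hCH g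
      exact ⟨_, rel_of hecke 𝔪 k gal hcomm hm δ g t c hc ht⟩)
    (fR hecke 𝔪 k π hle) (fR_surjective hecke 𝔪 k π hle hπ) ρ hspan
    (fun g r hr => by
      obtain ⟨t, c, hc, ht, htr⟩ := hCH g
      rw [eq_mk_of_rel hecke 𝔪 k gal hcomm hm δ g t c hc ht r hr, fR_mk, htr])
  refine IsSubquotPow.trans ?_ key
  exact IsSubquotPow.of_subgroup (M := X) (act := fun g x => gal g x)
    (prim hecke 𝔪 k).toAddSubgroup (fun g x hx => gal_mem_prim hecke 𝔪 k gal hcomm g x hx)

end Fermat.Agent.GH.S32
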