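/-
GATE-H / S32 (helper47): a representation on a free module of rank two, reduced modulo an ideal,
in matrix form.  Mathlib only.

`ρ : G →* Module.End T V`, `b : Basis (Fin 2) T V`, `I : Ideal T`:

* `rhoC b I ρ : G →* Matrix (Fin 2) (Fin 2) (T ⧸ I)`, `trace_rhoC`, `span_rhoC`;
* `vecEquiv b I : (Fin 2 → T ⧸ I) ≃+ V ⧸ I • ⊤` with
  `vecEquiv_mulVec : vecEquiv (rhoC g *ᵥ v) = mapQ (ρ g) (vecEquiv v)`.
-/
import Mathlib

set_option autoImplicit false

namespace Fermat.Agent.GH.S32.RhoC

open Function

variable {T : Type*} [CommRing T] {V : Type*} [AddCommGroup V] [Module T V]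
  (b : Module.Basis (Fin 2) T V) (I : Ideal T) {G : Type*} [Group G] (ρ : G →* Module.End T V)

/-- `ρ` modulo `I`, in matrix form -/
noncomputable def rhoC : G →* Matrix (Fin 2) (Fin 2) (T ⧸ I) :=
  ((RingHom.mapMatrix (Ideal.Quotient.mk I)).toMonoidHom.comp
    ((LinearMap.toMatrixAlgEquiv b : Module.End T V →ₐ[T] Matrix (Fin 2) (Fin 2) T) :
      Module.End T V →* Matrix (Fin 2) (Fin 2) T)).comp ρ

theorem rhoC_apply (g : G) :
    rhoC b I ρ g = (LinearMap.toMatrix b b (ρ g)).map (Ideal.Quotient.mk I) := rfl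

theorem trace_rhoC (g : G) :
    (rhoC b I ρ g).trace = Ideal.Quotient.mk I (LinearMap.trace T V (ρ g)) := by
  rw [rhoC_apply, LinearMap.trace_eq_matrix_trace T b, Matrix.trace, Matrix.trace, map_sum]
  rfl

/-- the reduction map `End_T V → M₂(T ⧸ I)`, `T`-linear -/
noncomputable def redLin : Module.End T V →ₗ[T] Matrix (Fin 2) (Fin 2) (T ⧸ I) where
  toFun f := (LinearMap.toMatrix b b f).map (Ideal.Quotient.mk I)
  map_add' f g := by
    rw [map_add, Matrix.map_add]
    intro x y
    exact map_add _ x y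
  map_smul' t f := by
    rw [map_smul]
    ext i j
    rw [RingHom.id_apply, Matrix.map_apply, Matrix.smul_apply, Matrix.smul_apply,
      Matrix.map_apply, smul_eq_mul, map_mul, Algebra.smul_def]
    rfl

theorem redLin_surjective : Surjective (redLin b I) := by
  intro m
  choose t ht using fun i j => Ideal.Quotient.mk_surjective (m i j)
  refine ⟨Matrix.toLin b b (Matrix.of t), ?_⟩
  show (LinearMap.toMatrix b b (Matrix.toLin b b (Matrix.of t))).map (Ideal.Quotient.mk I) = m
  rw [LinearMap.toMatrix_toLin]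
  ext i j
  exact ht i j

theorem span_rhoC (hspan : Submodule.span T (Set.range ρ) = ⊤) :
    Submodule.span (T ⧸ I) (Set.range (rhoC b I ρ)) = ⊤ := by
  rw [eq_top_iff]
  rintro m -
  obtain ⟨f, rfl⟩ := redLin_surjective b I m
  have hf : f ∈ Submodule.span T (Set.range ρ) := by rw [hspan]; trivial
  induction hf using Submodule.span_induction with
  | mem x hx =>
    obtain ⟨g, rfl⟩ := hx
    exact Submodule.subset_span ⟨g, rfl⟩
  | zero => rw [map_zero]; exact Submodule.zero_mem _
  | add x y _ _ hx hy => rw [map_add]; exact Submodule.add_mem _ hx hy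
  | smul a x _ hx =>
    rw [map_smul]
    have e : a • redLin b I x = (Ideal.Quotient.mk I a) • redLin b I x := by
      ext i j
      rw [Matrix.smul_apply, Matrix.smul_apply, Algebra.smul_def, smul_eq_mul]
      rfl
    rw [e]
    exact Submodule.smul_mem _ _ hx

/-- coordinates modulo `I` -/
noncomputable def coordMod : V →ₗ[T] (Fin 2 → T ⧸ I) where
  toFun v i := Ideal.Quotient.mk I (b.repr v i)
  map_add' v w := by
    funext i
    simp
  map_smul' t v := by
    funext i
    simp [Algebra.smul_def]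

theorem coordMod_apply (v : V) (i : Fin 2) :
    coordMod b I v i = Ideal.Quotient.mk I (b.repr v i) := rfl

theorem coordMod_surjective : Surjective (coordMod b I) := by
  intro c
  choose t ht using fun i => Ideal.Quotient.mk_surjective (c i)
  refine ⟨b.equivFun.symm t, ?_⟩
  funext i
  rw [coordMod_apply, ← ht i]
  congr 1
  have := congrFun (b.equivFun.apply_symm_apply t) i
  exact this

theorem ker_coordMod : LinearMap.ker (coordMod b I) = I • (⊤ : Submodule T V) := by
  apply le_antisymm
  · intro v hv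
    rw [LinearMap.mem_ker] at hv
    have hi : ∀ i, b.repr v i ∈ I := fun i => by
      have := congrFun hv i
      rwa [coordMod_apply, Pi.zero_apply, Ideal.Quotient.eq_zero_iff_mem] at this
    rw [← b.sum_repr v]
    exact Submodule.sum_mem _ fun i _ => Submodule.smul_mem_smul (hi i) Submodule.mem_top
  · intro v hv
    rw [LinearMap.mem_ker]
    refine Submodule.smul_induction_on hv ?_ ?_
    · intro a ha w _
      funext i
      rw [coordMod_apply, map_smul, Finsupp.smul_apply, smul_eq_mul, Pi.zero_apply,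
        Ideal.Quotient.eq_zero_iff_mem]
      exact I.mul_mem_right _ ha
    · intro x y hx hy
      rw [map_add, hx, hy, add_zero]

/-- `V ⧸ I • ⊤ ≃ (T ⧸ I)²` -/
noncomputable def quotEquiv : (V ⧸ (I • (⊤ : Submodule T V))) ≃ₗ[T] (Fin 2 → T ⧸ I) :=
  (Submodule.quotEquivOfEq _ _ (ker_coordMod b I).symm).trans
    ((coordMod b I).quotKerEquivOfSurjective (coordMod_surjective b I))

theorem quotEquiv_mk (v : V) :
    quotEquiv b I (Submodule.Quotient.mk v) = coordMod b I v := rfl

/-- `(T ⧸ I)² ≃+ V ⧸ I • ⊤` -/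
noncomputable def vecEquiv : (Fin 2 → T ⧸ I) ≃+ (V ⧸ (I • (⊤ : Submodule T V))) :=
  (quotEquiv b I).symm.toAddEquiv

theorem coordMod_rho (g : G) (v : V) :
    coordMod b I (ρ g v) = (rhoC b I ρ g).mulVec (coordMod b I v) := by
  have h := LinearMap.toMatrix_mulVec_repr b b (ρ g) v
  funext i
  rw [coordMod_apply, ← congrFun h i, rhoC_apply]
  simp only [Matrix.mulVec, dotProduct, Matrix.map_apply, coordMod_apply, map_sum, map_mul]

theorem vecEquiv_mulVec (g : G) (hI : I • (⊤ : Submodule T V) ≤ (I • (⊤ : Submodule T V)).comap (ρ g))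
    (v : Fin 2 → T ⧸ I) :
    vecEquiv b I ((rhoC b I ρ g).mulVec v) =
      Submodule.mapQ _ _ (ρ g) hI (vecEquiv b I v) := by
  obtain ⟨w, rfl⟩ := (quotEquiv b I).surjective v
  obtain ⟨x, rfl⟩ := Submodule.Quotient.mk_surjective _ w
  have h1 : vecEquiv b I (quotEquiv b I (Submodule.Quotient.mk x)) = Submodule.Quotient.mk x :=
    (quotEquiv b I).symm_apply_apply _
  rw [h1, Submodule.mapQ_apply, quotEquiv_mk, ← coordMod_rho, ← quotEquiv_mk]
  exact (quotEquiv b I).symm_apply_apply _

end Fermat.Agent.GH.S32.RhoC
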