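/-
GATE-H / S32, node INST (helper47): for a Hecke–Galois datum `H` and an ideal `I` of finite index,
`H.ρ.V ⧸ I • ⊤` with its level action is an equivariant subquotient of a finite power of a Kummer
group `K n` of any Kummer level data `D` (with `D.Comm`).
-/
import Fermat.Prelude.Def_GaloisRep_Flat
import Fermat.Agent.GH.S32.InstAux47
import Fermat.Agent.GH.S32.RhoC
import Fermat.Agent.GH.S32.LocTop

set_option autoImplicit false

noncomputable section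

namespace Fermat.Agent.GH.S32.Inst

open TensorProduct CuspForm Function IsLocalRing
open Fermat.Agent.Common_helper32 Fermat.Agent.GJ.Tate Fermat.Agent.GH.S32.InstCore
  Fermat.Agent.GH.S32.InstAux47

variable {p : ℕ} {N : ℕ} [NeZero N] {S : Finset ℕ}
  {𝒪 : Type} [CommRing 𝒪] [IsDomain 𝒪] [IsDiscreteValuationRing 𝒪]
  [IsAdicComplete (IsLocalRing.maximalIdeal 𝒪) 𝒪]
  {θ : CuspForm.heckeAlgebra N 2 (↑S : Set ℕ) →+* IsLocalRing.ResidueField 𝒪}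
  {T : Type} [CommRing T] [IsLocalRing T] [IsNoetherianRing T]
  [IsAdicComplete (IsLocalRing.maximalIdeal T) T] [Algebra 𝒪 T] [IsLocalHom (algebraMap 𝒪 T)]
  [Module.Finite 𝒪 T] [Module.Free 𝒪 T]

/-- `𝒪 ⊗ 𝕋 → T` -/
def piT (H : CuspForm.HeckeGaloisRepDatum N (↑S : Set ℕ) 𝒪 θ T) :
    𝒪 ⊗[ℤ] heckeAlgebra N 2 (↑S : Set ℕ) →ₐ[𝒪] T :=
  Algebra.TensorProduct.lift (Algebra.ofId 𝒪 T) H.π.toIntAlgHom (fun _ _ => Commute.all _ _)

theorem piT_tmul (H : CuspForm.HeckeGaloisRepDatum N (↑S : Set ℕ) 𝒪 θ T) (r : 𝒪)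
    (t : heckeAlgebra N 2 (↑S : Set ℕ)) : piT H (r ⊗ₜ t) = algebraMap 𝒪 T r * H.π t := by
  rw [piT, Algebra.TensorProduct.lift_tmul]
  rfl

theorem piT_surjective (H : CuspForm.HeckeGaloisRepDatum N (↑S : Set ℕ) 𝒪 θ T) :
    Surjective (piT H) := by
  have h : (piT H).range = ⊤ := by
    rw [eq_top_iff, ← H.adjoin_range_π]
    apply Algebra.adjoin_le
    rintro _ ⟨t, rfl⟩
    refine ⟨1 ⊗ₜ t, ?_⟩
    show piT H (1 ⊗ₜ t) = H.π t
    rw [piT_tmul, map_one, one_mul]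
  intro x
  have hx : x ∈ (piT H).range := by rw [h]; trivial
  exact hx

/-- **INST**: the level action on `V ⧸ I • ⊤` is a subquotient of a power of some `K n`. -/
theorem isSubquotPow_gal (D : KumLevelData N S p) (hm : D.Comm)
    [Finite (IsLocalRing.ResidueField 𝒪)] [CharZero 𝒪]
    (hp : p.Prime) (hp2 : p ≠ 2) (hp𝒪 : (p : 𝒪) ∈ IsLocalRing.maximalIdeal 𝒪)
    (hpS : p ∈ S) (hNS : ∀ q : ℕ, q.Prime → q ∣ N → q ∈ S)
    (H : CuspForm.HeckeGaloisRepDatum N (↑S : Set ℕ) 𝒪 θ T) (I : Ideal T) [Finite (T ⧸ I)] :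
    ∃ n : ℕ, IsSubquotPow (fun (σ : GQ) (x : D.K n) => D.gal n σ x)
      (fun (σ : GQ) => H.ρ.levelAction I σ) := by
  have : Fact p.Prime := ⟨hp⟩
  by_cases hI : I = ⊤
  · -- the trivial case
    refine ⟨0, ?_⟩
    have : Subsingleton (H.ρ.V ⧸ (I • (⊤ : Submodule T H.ρ.V))) := by
      rw [hI, Submodule.top_smul]
      exact Submodule.Quotient.subsingleton_iff.mpr rfl
    exact isSubquotPow_of_subsingleton _ _
  have hpT : (p : T) ∈ maximalIdeal T := by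
    have h := map_nonunit (algebraMap 𝒪 T) (p : 𝒪) hp𝒪
    rwa [map_natCast] at h
  have hnt : Nontrivial (T ⧸ I) := Ideal.Quotient.nontrivial_iff.mpr hI
  have hloc : IsLocalRing (T ⧸ I) :=
    IsLocalRing.of_surjective' (Ideal.Quotient.mk I) Ideal.Quotient.mk_surjective
  have h2 : IsUnit (2 : T ⧸ I) := by
    have := (isUnit_two hp hp2 hpT).map (Ideal.Quotient.mk I)
    rwa [map_ofNat] at this
  obtain ⟨k, hk⟩ := exists_pow_le_of_finite_quotient I hI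
  obtain ⟨c, hc⟩ := exists_shift D 𝒪
  set n := k + c with hn
  refine ⟨n, ?_⟩
  -- the matrix form of `ρ mod I`
  let b : Module.Basis (Fin 2) T H.ρ.V := Module.finBasisOfFinrankEq T H.ρ.V H.ρ.finrank_eq
  have hspan := RhoC.span_rhoC b I H.ρ.ρ (span_range_eq_top_of_residual_absIrr H.ρ H.residual_absIrr)
  -- finiteness
  have hp0 : ((p ^ n : ℕ) : 𝒪) ≠ 0 := by
    rw [Nat.cast_ne_zero]
    exact pow_ne_zero n hp.ne_zero
  have hfinι : Finite (𝒪 ⧸ Ideal.span {((p ^ n : ℕ) : 𝒪)}) := finite_quotient_span hp0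
  let _ : Fintype (𝒪 ⧸ Ideal.span {((p ^ n : ℕ) : 𝒪)}) := Fintype.ofFinite _
  let s : (𝒪 ⧸ Ideal.span {((p ^ n : ℕ) : 𝒪)}) → 𝒪 := Quotient.out
  have hs : ∀ r : 𝒪, ∃ (i : 𝒪 ⧸ Ideal.span {((p ^ n : ℕ) : 𝒪)}) (r' : 𝒪),
      r = s i + ((p ^ n : ℕ) : 𝒪) * r' := by
    intro r
    refine ⟨Ideal.Quotient.mk _ r, ?_⟩
    have h1 : Ideal.Quotient.mk (Ideal.span {((p ^ n : ℕ) : 𝒪)}) (r - s (Ideal.Quotient.mk _ r)) = 0 := by
      rw [map_sub, sub_eq_zero]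
      exact (Quotient.out_eq _).symm
    rw [Ideal.Quotient.eq_zero_iff_mem, Ideal.mem_span_singleton'] at h1
    obtain ⟨a, ha⟩ := h1
    exact ⟨a, by rw [mul_comm, ha]; ring⟩
  have hKfin : Finite (D.K n) := finite_K D hp.ne_zero n
  have hXfin : Finite (𝒪 ⊗[ℤ] D.K n) :=
    Finite.of_surjective _ (sumMap_surjective D 𝒪 s n hs)
  -- the three links
  have link1 := isSubquotPow_galX D 𝒪 s n hs
  have link3 : IsSubquotPow (fun (σ : GQ) (v : Fin 2 → T ⧸ I) => (RhoC.rhoC b I H.ρ.ρ σ).mulVec v)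
      (fun (σ : GQ) => H.ρ.levelAction I σ) :=
    IsSubquotPow.of_addEquiv (RhoC.vecEquiv b I) fun σ v =>
      RhoC.vecEquiv_mulVec b I H.ρ.ρ σ _ v
  refine link1.trans (IsSubquotPow.trans ?_ link3)
  -- the Frobenius hypothesis in the shape of `exists_hecke_approx`
  have hfrob : ∀ ℓ : ℕ, ℓ.Prime → ℓ ∉ S → ∀ A : ValuationSubring Qb, A.LiesOverPrime ℓ →
      ∀ σ : GQ, A.IsFrobeniusAt σ ℓ →
        LinearMap.charpoly (H.ρ.ρ σ) =
          Polynomial.X ^ 2 - Polynomial.C (H.π (heckeTl N S ℓ)) * Polynomial.X +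
            Polynomial.C ((ℓ : T)) := by
    intro ℓ hℓ hℓS A hA σ hσ
    have hℓN : ¬ ℓ ∣ N := fun h => hℓS (hNS ℓ hℓ h)
    have hℓS' : ℓ ∉ (↑S : Set ℕ) := by simpa using hℓS
    rw [heckeTl_eq hℓ hℓN hℓS']
    exact H.charpoly_frob ℓ hℓ hℓN hℓS' A hA σ hσ
  refine isSubquotPow_of_hecke (heckeX D 𝒪 n) (galX D 𝒪 n)
    (commute_heckeX_galX D 𝒪 hm hNS n) h2
    ((Ideal.Quotient.mk I).comp (piT H).toRingHom)
    (Ideal.Quotient.mk_surjective.comp (piT_surjective H)) ?_ (RhoC.rhoC b I H.ρ.ρ) hspan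
    (natCast_pow_eq_zero D 𝒪 n) (cycMod p n) ?_
  · -- `hker`
    intro t' ht'
    obtain ⟨t'', rfl⟩ := hc k t' ht'
    show Ideal.Quotient.mk I (piT H (((p : 𝒪) ^ k) • t'')) = 0
    rw [map_smul, Ideal.Quotient.eq_zero_iff_mem, Algebra.smul_def, map_pow, map_natCast]
    exact I.mul_mem_right _ (hk (Ideal.pow_mem_pow hpT k))
  · -- `hCH`
    intro g
    obtain ⟨t, c', h1, h2', h3⟩ := exists_hecke_approx D.tateLevels hpS H.π H.ρ hfrob k n g
    refine ⟨(1 : 𝒪) ⊗ₜ t, c', h3.symm, ?_, ?_⟩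
    · rw [heckeX_one_tmul, galX_apply, galX_apply]
      have h2'' : D.heckeHom n t = D.gal n g + (c' : AddMonoid.End (D.K n)) * D.gal n g⁻¹ := h2'
      rw [h2'', map_add, map_mul, map_natCast]
    · show Ideal.Quotient.mk I (piT H ((1 : 𝒪) ⊗ₜ t)) = _
      rw [piT_tmul, map_one, one_mul, RhoC.trace_rhoC, eq_comm, ← sub_eq_zero, ← map_sub,
        Ideal.Quotient.eq_zero_iff_mem]
      exact hk h1

end Fermat.Agent.GH.S32.Inst
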