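/-
GATE-H / S32, side facts for node INST (helper61).  Mathlib + `GH/S32/IsSubquot` only.

* `isSubquotPow_tensor` : if `m • X = 0` and `R ⧸ (m)` is finite, then `R ⊗[ℤ] X` (with any additive
  action `act'` which is `a ⊗ₜ x ↦ a ⊗ₜ act g x` on pure tensors, e.g. `(gal g).baseChange R`) is an
  equivariant quotient of a finite power of `(X, act)`.
* `finite_quotient_span_natCast` : `R ⧸ (m)` is finite for a discrete valuation ring `R` of
  characteristic zero with finite residue field and `m ≠ 0`.
* `finite_residueField_of_moduleFinite` : `ResidueField T` is finite when `T` is a finite local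
  algebra (local structure map) over a local ring with finite residue field.
-/
import Mathlib
import Fermat.Agent.GH.S32.IsSubquot

set_option autoImplicit false

open scoped TensorProduct

namespace Fermat.Agent.GH.S32

section Tensor

variable {G : Type*} {X : Type*} [AddCommGroup X] (R : Type*) [CommRing R]

/-- `R ⊗[ℤ] X` is an equivariant quotient of a finite power of `X` when `X` is killed by `m` and
`R ⧸ (m)` is finite. -/
theorem isSubquotPow_tensor (m : ℕ) (hm : ∀ x : X, m • x = 0)
    [Finite (R ⧸ Ideal.span {(m : R)})]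
    (act : G → X → X) (act' : G → (R ⊗[ℤ] X) → (R ⊗[ℤ] X))
    (hadd : ∀ g y z, act' g (y + z) = act' g y + act' g z)
    (htmul : ∀ g (a : R) (x : X), act' g (a ⊗ₜ[ℤ] x) = a ⊗ₜ[ℤ] act g x) :
    IsSubquotPow act act' := by
  classical
  have : Fintype (R ⧸ Ideal.span {(m : R)}) := Fintype.ofFinite _
  -- representatives
  let c : (R ⧸ Ideal.span {(m : R)}) → R := fun i => Quotient.out i
  have hc : ∀ i, Ideal.Quotient.mk (Ideal.span {(m : R)}) (c i) = i := fun i => Quotient.out_eq i
  -- the additive form of `act'`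
  have hzero : ∀ g, act' g 0 = 0 := by
    intro g
    have h := hadd g 0 0
    rw [add_zero] at h
    exact left_eq_add.mp h
  let actH : G → (R ⊗[ℤ] X) →+ (R ⊗[ℤ] X) := fun g =>
    { toFun := act' g
      map_zero' := hzero g
      map_add' := hadd g }
  -- the map `(x_i) ↦ ∑ c_i ⊗ x_i`
  let Φ : ((R ⧸ Ideal.span {(m : R)}) → X) →+ R ⊗[ℤ] X :=
    ∑ i, ((TensorProduct.mk ℤ R X (c i)).toAddMonoidHom).comp (Pi.evalAddMonoidHom (fun _ => X) i)
  have hΦ : ∀ x, Φ x = ∑ i, c i ⊗ₜ[ℤ] x i := by
    intro x
    simp [Φ]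
  -- pure tensors are in the image
  have hpure : ∀ (a : R) (x : X), ∃ y, Φ y = a ⊗ₜ[ℤ] x := by
    intro a x
    have h1 : a - c (Ideal.Quotient.mk _ a) ∈ Ideal.span {(m : R)} := by
      rw [← Ideal.Quotient.eq, hc]
    obtain ⟨b, hb⟩ := Ideal.mem_span_singleton.mp h1
    have h2 : a = c (Ideal.Quotient.mk _ a) + (m : R) * b := by
      rw [← hb]
      ring
    refine ⟨Pi.single (Ideal.Quotient.mk _ a) x, ?_⟩
    rw [hΦ, Finset.sum_eq_single (Ideal.Quotient.mk _ a)]
    · rw [Pi.single_eq_same]
      conv_rhs => rw [h2]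
      rw [TensorProduct.add_tmul]
      have h3 : ((m : R) * b) ⊗ₜ[ℤ] x = 0 := by
        have h4 : ((m : R) * b) = (m : ℤ) • b := by rw [natCast_zsmul, nsmul_eq_mul]
        rw [h4, TensorProduct.smul_tmul, natCast_zsmul, hm, TensorProduct.tmul_zero]
      rw [h3, add_zero]
    · intro j _ hj
      rw [Pi.single_eq_of_ne hj, TensorProduct.tmul_zero]
    · intro h
      exact absurd (Finset.mem_univ _) h
  have hsurj : Function.Surjective Φ := by
    intro t
    induction t using TensorProduct.induction_on with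
    | zero => exact ⟨0, map_zero Φ⟩
    | tmul a x => exact hpure a x
    | add s t hs ht =>
      obtain ⟨y, rfl⟩ := hs
      obtain ⟨z, rfl⟩ := ht
      exact ⟨y + z, map_add Φ y z⟩
  refine IsSubquotPow.of_fintype (ι := R ⧸ Ideal.span {(m : R)}) ⊤
    (Φ.comp (⊤ : AddSubgroup ((R ⧸ Ideal.span {(m : R)}) → X)).subtype) ?_
    (fun _ _ _ => AddSubgroup.mem_top _) ?_
  · intro t
    obtain ⟨y, hy⟩ := hsurj t
    exact ⟨⟨y, AddSubgroup.mem_top _⟩, hy⟩
  · intro g x
    change Φ (fun i => act g (x.1 i)) = actH g (Φ x.1)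
    rw [hΦ, hΦ, map_sum]
    refine Finset.sum_congr rfl fun i _ => ?_
    exact (htmul g (c i) (x.1 i)).symm

end Tensor

section Finiteness

/-- in a discrete valuation ring of characteristic zero with finite residue field, `R ⧸ (m)` is
finite for every nonzero natural number `m`. -/
theorem finite_quotient_span_natCast (R : Type*) [CommRing R] [IsDomain R]
    [IsDiscreteValuationRing R] [CharZero R] [Finite (IsLocalRing.ResidueField R)]
    (m : ℕ) (hm : m ≠ 0) : Finite (R ⧸ Ideal.span {(m : R)}) := by
  have hm' : (m : R) ≠ 0 := Nat.cast_ne_zero.mpr hm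
  have hI : Ideal.span {(m : R)} ≠ ⊥ := by
    rw [Ne, Ideal.span_singleton_eq_bot]
    exact hm'
  obtain ⟨n, hn⟩ := IsDiscreteValuationRing.ideal_eq_span_pow_irreducible hI
    (IsDiscreteValuationRing.exists_irreducible R).choose_spec
  set ϖ := (IsDiscreteValuationRing.exists_irreducible R).choose with hϖ
  have hϖirr : Irreducible ϖ := (IsDiscreteValuationRing.exists_irreducible R).choose_spec
  have hmax : IsLocalRing.maximalIdeal R = Ideal.span {ϖ} := hϖirr.maximalIdeal_eq
  have hfin : Finite (R ⧸ IsLocalRing.maximalIdeal R) :=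
    inferInstanceAs (Finite (IsLocalRing.ResidueField R))
  have hpow : Finite (R ⧸ (IsLocalRing.maximalIdeal R) ^ n) :=
    Ideal.finite_quotient_pow (IsNoetherian.noetherian _) n
  rw [hn, ← Ideal.span_singleton_pow, ← hmax]
  exact hpow

/-- the residue field of a finite local algebra over a local ring with finite residue field is
finite. -/
theorem finite_residueField_of_moduleFinite (𝒪 T : Type*) [CommRing 𝒪] [IsLocalRing 𝒪]
    [CommRing T] [IsLocalRing T] [Algebra 𝒪 T] [IsLocalHom (algebraMap 𝒪 T)]
    [Module.Finite 𝒪 T] [Finite (IsLocalRing.ResidueField 𝒪)] :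
    Finite (IsLocalRing.ResidueField T) := by
  have : Module.Finite (IsLocalRing.ResidueField 𝒪) (IsLocalRing.ResidueField T) := inferInstance
  exact Module.finite_of_finite (IsLocalRing.ResidueField 𝒪)

end Finiteness

end Fermat.Agent.GH.S32
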