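/-
GATE-H / S32, TOP (helper47).

`s32_of_gates_of_s19 : K18sPow → TowerGate N S p → (frozen S19 at level N, prime p) → frozen S32`.

* `exists_kumLevelData_equiv` : the Kummer level data of `S31Top` with `K n ≃+ J₀(N)[p^n]`
  Galois-equivariantly (`GH/KummerEquivariant`, helper83) and `Comm`.
* `isSubquotPow_levelAction` : `V ⧸ I • ⊤` is an equivariant subquotient of a power of `J₀(N)[p^n]`
  (`Inst.isSubquotPow_gal`).
* closure of finite flat models under subquotients of powers: `FlatMod.lean` (helper61) on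
  `GH/Closure` (helper57) and `GH/N0` (helper5, helper30).
-/
import Fermat.Agent.GH.S32.Inst
import Fermat.Agent.GH.S32.FlatMod
import Fermat.Agent.GH.S32.InstAux
import Fermat.Agent.GH.KummerEquivariant
import Fermat.Agent.GJ.Tate.S31Top

set_option autoImplicit false

open CuspForm ModularCurve

namespace Fermat.Agent.GH.S32.Top

open Fermat.Agent.GJ.KumGroup Fermat.Agent.GJ.Kum.KumType Fermat.Agent.GJ.J4Asm
open Fermat.Agent.GJ.KumFinal (hnMemHyp hnDivHyp)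
open Fermat.Agent.GJ.Tate Fermat.Agent.GJ.Tate.S31Top Fermat.Agent.Common_helper32
open Fermat.Agent.GH

/-- `ℚ̄`. -/
local notation "Qb" => AlgebraicClosure ℚ

variable {p : ℕ} {N : ℕ} [NeZero N] {S : Finset ℕ}

/-- The Kummer level data from the two gates, with `Comm` and the equivariant identification of
the Kummer groups with the torsion of `J₀(N)`. -/
theorem exists_kumLevelData_equiv (hK : K18sPow) (hT : TowerGate N S p) (hp : p.Prime)
    (hpS : p ∈ S) (hNS : ∀ q : ℕ, q.Prime → q ∣ N → q ∈ S) :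
    ∃ D : KumLevelData N S p, D.Comm ∧ ∀ n : ℕ,
      ∃ e : D.K n ≃+ ↥(Submodule.torsionBy ℤ (JZero N) ((p : ℤ) ^ n)),
        ∀ (σ : GQ) (x : D.K n), e (D.gal n σ x) = GH.Top.torsAct N ((p : ℤ) ^ n) σ (e x) := by
  have : NeZero p := ⟨hp.ne_zero⟩
  obtain ⟨Λ, _, _, _, act, hact, hΘall⟩ := hT
  choose Θ hsurj hker hrel using hΘall
  have hpos : ∀ n : ℕ, 0 < p ^ n := fun n => pow_pos hp.pos n
  have hΘT : ∀ n (ℓ : ℕ), ℓ.Prime → ℓ ∉ S → ∀ x,
      Θ n (act (heckeTl N S ℓ) x) = (kumModelPow N hK (p ^ n) (hpos n)).T ℓ (Θ n x) := by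
    intro n ℓ hℓ hℓS x
    have hℓN : ¬ ℓ ∣ N := fun h => hℓS (hNS ℓ hℓ h)
    have hℓS' : ℓ ∉ (↑S : Set ℕ) := by simpa using hℓS
    have : NeZero ℓ := ⟨hℓ.ne_zero⟩
    obtain ⟨u, hu⟩ := exists_rep (K := Qb) (F := FK N) (p := p ^ n) (Θ n x)
    set hM := hnMemHyp N hℓ hℓN with hMdef
    set hD := hnDivHyp N (p ^ n) hℓ hℓN with hDdef
    set u' : pDivUnits Qb (FK N) (p ^ n) := ⟨heckeUnits hM u, heckeUnits_mem hM hD u u.2⟩ with hu'
    have h1 := hrel n ℓ hℓ hℓN hℓS' x u u' hu rfl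
    have h2 := kumModel_T_cls_of_eq (p := p ^ n) (fun _ hℓ hℓN => hnMemHyp N hℓ hℓN)
      (fun _ hℓ hℓN => hnDivHyp N (p ^ n) hℓ hℓN)
      (fun _ hℓ hℓNm => (es_hyps_pow N hK (hpos n) hℓ hℓNm).1)
      (fun _ hℓ hℓNm => (es_hyps_pow N hK (hpos n) hℓ hℓNm).2) hℓ hℓN u u' rfl
    rw [heckeTl_eq hℓ hℓN hℓS']
    exact h1.trans (h2.symm.trans (congrArg ((kumModelPow N hK (p ^ n) (hpos n)).T ℓ) hu).symm)
  refine ⟨KumLevelData.ofKumModels hp hpS hNS Λ act hact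
    (fun n => kumModelPow N hK (p ^ n) (hpos n)) Θ hsurj hker hΘT,
    ofKumModels_comm hp hpS hNS Λ act hact _ Θ hsurj hker hΘT, fun n => ?_⟩
  refine ⟨KummerEquivariant.kumTorsionBy N p n, fun σ x => ?_⟩
  apply Subtype.ext
  rw [GH.Top.coe_torsAct]
  exact KummerEquivariant.coe_kumTorsionBy_gal N p n σ x

variable {𝒪 : Type} [CommRing 𝒪] [IsDomain 𝒪] [IsDiscreteValuationRing 𝒪]
  [IsAdicComplete (IsLocalRing.maximalIdeal 𝒪) 𝒪]
  {θ : CuspForm.heckeAlgebra N 2 (↑S : Set ℕ) →+* IsLocalRing.ResidueField 𝒪}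
  {T : Type} [CommRing T] [IsLocalRing T] [IsNoetherianRing T]
  [IsAdicComplete (IsLocalRing.maximalIdeal T) T] [Algebra 𝒪 T] [IsLocalHom (algebraMap 𝒪 T)]
  [Module.Finite 𝒪 T] [Module.Free 𝒪 T]

/-- **the Tate side of S32**: every finite level `V ⧸ I • ⊤` of the representation of a
Hecke–Galois datum is an equivariant subquotient of a finite power of some `J₀(N)[p^n]`. -/
theorem isSubquotPow_levelAction (hK : K18sPow) (hT : TowerGate N S p)
    [Finite (IsLocalRing.ResidueField 𝒪)] [CharZero 𝒪]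
    (hp : p.Prime) (hp2 : p ≠ 2) (hp𝒪 : (p : 𝒪) ∈ IsLocalRing.maximalIdeal 𝒪)
    (hpS : p ∈ S) (hNS : ∀ q : ℕ, q.Prime → q ∣ N → q ∈ S)
    (H : CuspForm.HeckeGaloisRepDatum N (↑S : Set ℕ) 𝒪 θ T) (I : Ideal T) [Finite (T ⧸ I)] :
    ∃ n : ℕ, IsSubquotPow
      (fun (σ : GQ) (x : ↥(Submodule.torsionBy ℤ (JZero N) ((p : ℤ) ^ n))) =>
        GH.Top.torsAct N ((p : ℤ) ^ n) σ x)
      (fun (σ : GQ) (v : H.ρ.V ⧸ (I • (⊤ : Submodule T H.ρ.V))) => H.ρ.levelAction I σ v) := by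
  obtain ⟨D, hm, he⟩ := exists_kumLevelData_equiv hK hT hp hpS hNS
  obtain ⟨n, hn⟩ := Inst.isSubquotPow_gal D hm hp hp2 hp𝒪 hpS hNS H I
  obtain ⟨e, hequiv⟩ := he n
  refine ⟨n, IsSubquotPow.trans ?_ hn⟩
  exact IsSubquotPow.of_addEquiv e.symm fun σ y => by
    apply e.injective
    rw [AddEquiv.apply_symm_apply, hequiv, AddEquiv.apply_symm_apply]

/-- **S32 from the two GATE-J gates and the frozen S19 conclusion** at level `N` and the prime
`p`. -/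
theorem s32_of_gates_of_s19 (hK : K18sPow) (hT : TowerGate N S p)
    [Finite (IsLocalRing.ResidueField 𝒪)] [CharZero 𝒪]
    (hp : p.Prime) (hp2 : p ≠ 2) (hp𝒪 : (p : 𝒪) ∈ IsLocalRing.maximalIdeal 𝒪)
    (hpS : p ∈ S) (hNS : ∀ q : ℕ, q.Prime → q ∣ N → q ∈ S)
    (hS19 : ∀ k : ℕ,
      ∃ (H : Type) (_ : CommRing H) (_ : HopfAlgebra (GaloisRep.ratLocalizedAt p) H),
        Module.Finite (GaloisRep.ratLocalizedAt p) H ∧ Module.Flat (GaloisRep.ratLocalizedAt p) H ∧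
        Coalgebra.IsCocomm (GaloisRep.ratLocalizedAt p) H ∧
        ∃ e : WithConv (H →ₐ[GaloisRep.ratLocalizedAt p] AlgebraicClosure ℚ) ≃
            ↥(Submodule.torsionBy ℤ (JZero N) ((p : ℤ) ^ k)),
          (∀ f g, e (f * g) = e f + e g) ∧
          ∀ (σ : AlgebraicClosure ℚ ≃ₐ[ℚ] AlgebraicClosure ℚ)
            (f g : WithConv (H →ₐ[GaloisRep.ratLocalizedAt p] AlgebraicClosure ℚ)),
            (∀ h : H, g h = σ (f h)) → ((e g : JZero N)) = σ • (e f : JZero N))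
    (H : CuspForm.HeckeGaloisRepDatum N (↑S : Set ℕ) 𝒪 θ T) :
    H.ρ.IsFlatAt p := by
  have : Fact p.Prime := ⟨hp⟩
  refine isFlatAt_of_isSubquotPow H.ρ p (finite_residueField_of_moduleFinite 𝒪 T) fun I hI => ?_
  obtain ⟨n, hn⟩ := isSubquotPow_levelAction hK hT hp hp2 hp𝒪 hpS hNS H I
  exact ⟨↥(Submodule.torsionBy ℤ (JZero N) ((p : ℤ) ^ n)), inferInstance,
    fun σ x => GH.Top.torsAct N ((p : ℤ) ^ n) σ x, flatMod_torsion_of_s19 N p n (hS19 n), hn⟩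

end Fermat.Agent.GH.S32.Top
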