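/-
GATE-H / S32, FINAL (helper47): the frozen statement S32 from the frozen statement S19, with
GATE-J's two gates plugged (`k18sAux`, `towerGateC`, exactly as in `Fermat/Agent/S31.lean`).

`Fermat/Agent/S32.lean` is then
`Final.s32_of_s19 (fun p _ ℓ _ hℓp k => Fermat.Agent.S19.result p ℓ hℓp k) hp hp2 hp𝒪 hpN hpS hNS H`.
-/
import Fermat.Agent.GH.S32.Top
import Fermat.Agent.GJ.Tate.S30Final
import Fermat.Agent.GJ.Tate.TowerGateCInst
import Fermat.Agent.GJ.J1.K18sAllFinal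

set_option autoImplicit false

open CuspForm ModularCurve

namespace Fermat.Agent.GH.S32.Final

/-- the frozen statement S19, as a proposition -/
def S19Stmt : Prop :=
  ∀ (p : ℕ) [NeZero p] (ℓ : ℕ) [Fact ℓ.Prime] (_ : ¬ ℓ ∣ p) (k : ℕ),
    ∃ (H : Type) (_ : CommRing H) (_ : HopfAlgebra (GaloisRep.ratLocalizedAt ℓ) H),
      Module.Finite (GaloisRep.ratLocalizedAt ℓ) H ∧ Module.Flat (GaloisRep.ratLocalizedAt ℓ) H ∧
      Coalgebra.IsCocomm (GaloisRep.ratLocalizedAt ℓ) H ∧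
      ∃ e : WithConv (H →ₐ[GaloisRep.ratLocalizedAt ℓ] AlgebraicClosure ℚ) ≃
          ↥(Submodule.torsionBy ℤ (JZero p) ((ℓ : ℤ) ^ k)),
        (∀ f g, e (f * g) = e f + e g) ∧
        ∀ (σ : AlgebraicClosure ℚ ≃ₐ[ℚ] AlgebraicClosure ℚ)
          (f g : WithConv (H →ₐ[GaloisRep.ratLocalizedAt ℓ] AlgebraicClosure ℚ)),
          (∀ h : H, g h = σ (f h)) → ((e g : JZero p)) = σ • (e f : JZero p)

variable {p : ℕ} {N : ℕ} [NeZero N] {S : Finset ℕ}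
  {𝒪 : Type} [CommRing 𝒪] [IsDomain 𝒪] [IsDiscreteValuationRing 𝒪]
  [IsAdicComplete (IsLocalRing.maximalIdeal 𝒪) 𝒪]
  {θ : CuspForm.heckeAlgebra N 2 (↑S : Set ℕ) →+* IsLocalRing.ResidueField 𝒪}
  {T : Type} [CommRing T] [IsLocalRing T] [IsNoetherianRing T]
  [IsAdicComplete (IsLocalRing.maximalIdeal T) T] [Algebra 𝒪 T] [IsLocalHom (algebraMap 𝒪 T)]
  [Module.Finite 𝒪 T] [Module.Free 𝒪 T]

/-- **The frozen statement S32 from the frozen statement S19.** -/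
theorem s32_of_s19 (hS19 : S19Stmt)
    [Finite (IsLocalRing.ResidueField 𝒪)] [CharZero 𝒪]
    (hp : p.Prime) (hp2 : p ≠ 2) (hp𝒪 : (p : 𝒪) ∈ IsLocalRing.maximalIdeal 𝒪) (hpN : ¬ p ∣ N)
    (hpS : p ∈ S) (hNS : ∀ q : ℕ, q.Prime → q ∣ N → q ∈ S)
    (H : CuspForm.HeckeGaloisRepDatum N (↑S : Set ℕ) 𝒪 θ T) :
    H.ρ.IsFlatAt p := by
  have : Fact p.Prime := ⟨hp⟩
  exact Fermat.Agent.GH.S32.Top.s32_of_gates_of_s19
    (Fermat.Agent.GJ.Tate.S30Final.k18sPow_of_aux Fermat.Agent.GJ.J1.K18sAllFinal.k18sAux)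
    (Fermat.Agent.GJ.Tate.S30Top.towerGate_of_towerGateC
      (Fermat.Agent.GJ.Tate.TowerGateCInst.towerGateC p N S))
    hp hp2 hp𝒪 hpS hNS (fun k => hS19 N p hpN k) H

end Fermat.Agent.GH.S32.Final
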