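/-
GATE-H / S32 leaf **KUMEQ** (helper14): the Kummer isomorphism of `X₀(N)_ℚ̄`

  `kummerEquivFK N m : Additive (Kum ℚ̄ F_N m) ≃+ J₀(N)(ℚ̄)[m]`     (`GH/TorsionCount.lean`)

is **Galois equivariant**: the coefficientwise Galois action `KumType.gal N m σ` on Kummer classes
(`GJ/Kum/KumType.lean`) corresponds to the prelude's Galois action `σ • ·` on `JZero N`.

* `divDiv_smul`      : `divDiv m (g • u) = g • divDiv m u` for a semilinear automorphism `g`
                       (generic, any function field with principal divisors);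
* `kum_semilinear`   : the generic Kummer map intertwines `g` on units with `g • ·` on `Pic⁰`;
* `kummerEquivFK_gal_mk` / `kummerEquivFK_gal` : equivariance of `kummerEquivFK N m` (on
                       representatives / on classes);
* `kumTorsionBy`     : the same isomorphism with target `Submodule.torsionBy ℤ (JZero N) m`
                       (the S19 / S32 spelling) and `kumTorsionBy_gal`, its equivariance;
* `kumTorsionBy_symm_smul` : the inverse direction.
-/
import Mathlib
import Fermat.Agent.GH.TorsionCount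
import Fermat.Agent.GJ.Kum.KumType

set_option autoImplicit false

open CongruenceSubgroup AlgebraicCurve ModularCurve

noncomputable section

namespace Fermat.Agent.GH.S32.KumEquivariant

open Fermat.Agent.GJ.KumGroup Fermat.Agent.GH Fermat.Agent.GH.TorsionCount
open Fermat.Agent.GJ.Kum

local notation "GQ" => (AlgebraicClosure ℚ ≃ₐ[ℚ] AlgebraicClosure ℚ)

/-! ### Generic part: semilinear automorphisms and `divDiv` -/

section Generic

variable {K F : Type*} [Field K] [Field F] [Algebra K F] [HasPrincipalDivisors K F]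
variable (m : ℕ) [NeZero m]

omit [NeZero m] in
/-- `(1/m)·div (g u) = g • ((1/m)·div u)` as soon as `v ↦ g v` on units is given by `g • ·`. -/
theorem divDiv_smul (g : SemilinearAut K F) (u u' : pDivUnits K F m)
    (h : ((u' : Fˣ) : F) = g • ((u : Fˣ) : F)) :
    KummerPic.divDiv m u' = g • KummerPic.divDiv m u := by
  ext v
  rw [SemilinearAut.divisor_smul_apply, KummerPic.divDiv_apply, KummerPic.divDiv_apply, h,
    GJ.Kum.GalDiv.ord_smul_eq]

/-- the generic Kummer map intertwines a semilinear automorphism on representatives with its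
action on `Pic⁰`. -/
theorem kum_semilinear (g : SemilinearAut K F) (u u' : pDivUnits K F m)
    (h : ((u' : Fˣ) : F) = g • ((u : Fˣ) : F)) :
    ((KummerPic.kum m (Additive.ofMul (Kum.mk u')) : Pic0.torsion K F m) : Pic0 K F) =
      g • ((KummerPic.kum m (Additive.ofMul (Kum.mk u)) : Pic0.torsion K F m) : Pic0 K F) := by
  rw [KummerPic.kum_mk, KummerPic.kum_mk, SemilinearAut.pic0_smul_mk]
  refine congrArg Pic0.mk (Subtype.ext ?_)
  rw [SemilinearAut.coe_degZeroSMulHom]
  exact divDiv_smul m g u u' h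

end Generic

/-! ### The modular curve `X₀(N)` -/

section Modular

variable (N : ℕ) [NeZero N] (m : ℕ) [NeZero m]

/-- **KUMEQ, on representatives**: `kummerEquivFK (σ u) = σ • kummerEquivFK u`. -/
theorem kummerEquivFK_gal_mk (σ : GQ) (u : pDivUnits Kb (FK N) m) :
    ((kummerEquivFK N m (Additive.ofMul (Kum.mk
        ⟨KumType.galUnits N σ u, KumType.galUnits_mem N m σ u u.2⟩)) :
          Pic0.torsion Kb (FK N) m) : JZero N) =
      σ • ((kummerEquivFK N m (Additive.ofMul (Kum.mk u)) : Pic0.torsion Kb (FK N) m) :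
        JZero N) := by
  have := hasPrincipalDivisors_FK N
  exact kum_semilinear m (arithmeticGalois (modularFunctionFieldFull N) σ) u
    ⟨KumType.galUnits N σ u, KumType.galUnits_mem N m σ u u.2⟩ rfl

/-- **KUMEQ, on classes**: `kummerEquivFK (gal σ x) = σ • kummerEquivFK x`. -/
theorem kummerEquivFK_gal (σ : GQ) (x : Additive (Kum Kb (FK N) m)) :
    ((kummerEquivFK N m (KumType.gal N m σ x) : Pic0.torsion Kb (FK N) m) : JZero N) =
      σ • ((kummerEquivFK N m x : Pic0.torsion Kb (FK N) m) : JZero N) := by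
  obtain ⟨u, rfl⟩ := KumType.exists_rep x
  rw [KumType.gal_mk]
  exact kummerEquivFK_gal_mk N m σ u

/-- the Kummer isomorphism onto `Submodule.torsionBy ℤ (JZero N) m` (the S19 / S32 spelling; the
carrier is definitionally `Pic0.torsion ℚ̄ F_N m`). -/
def kumTorsionBy : Additive (Kum Kb (FK N) m) ≃+ ↥(Submodule.torsionBy ℤ (JZero N) (m : ℤ)) :=
  kummerEquivFK N m

theorem coe_kumTorsionBy (x : Additive (Kum Kb (FK N) m)) :
    ((kumTorsionBy N m x : ↥(Submodule.torsionBy ℤ (JZero N) (m : ℤ))) : JZero N) =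
      ((kummerEquivFK N m x : Pic0.torsion Kb (FK N) m) : JZero N) := rfl

/-- **KUMEQ, packaged**: `e (gal σ x) = σ • e x` in `JZero N`. -/
theorem kumTorsionBy_gal (σ : GQ) (x : Additive (Kum Kb (FK N) m)) :
    ((kumTorsionBy N m (KumType.gal N m σ x) : ↥(Submodule.torsionBy ℤ (JZero N) (m : ℤ))) :
        JZero N) =
      σ • ((kumTorsionBy N m x : ↥(Submodule.torsionBy ℤ (JZero N) (m : ℤ))) : JZero N) :=
  kummerEquivFK_gal N m σ x

theorem kumTorsionBy_gal_mk (σ : GQ) (u : pDivUnits Kb (FK N) m) :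
    ((kumTorsionBy N m (Additive.ofMul (Kum.mk
        ⟨KumType.galUnits N σ u, KumType.galUnits_mem N m σ u u.2⟩)) :
          ↥(Submodule.torsionBy ℤ (JZero N) (m : ℤ))) : JZero N) =
      σ • ((kumTorsionBy N m (Additive.ofMul (Kum.mk u)) :
        ↥(Submodule.torsionBy ℤ (JZero N) (m : ℤ))) : JZero N) :=
  kummerEquivFK_gal_mk N m σ u

omit [NeZero N] [NeZero m] in
/-- the Galois action preserves `J₀(N)[m]` -/
theorem smul_mem_torsionBy (σ : GQ) {x : JZero N}
    (hx : x ∈ Submodule.torsionBy ℤ (JZero N) (m : ℤ)) :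
    σ • x ∈ Submodule.torsionBy ℤ (JZero N) (m : ℤ) := by
  rw [Submodule.mem_torsionBy_iff] at hx ⊢
  rw [galois_smul_pic0_def, ← SemilinearAut.smul_zsmul, hx]
  exact smul_zero (A := JZero N) (arithmeticGalois (modularFunctionFieldFull N) σ)

/-- **KUMEQ, inverse direction**: `e⁻¹ (σ • y) = gal σ (e⁻¹ y)`. -/
theorem kumTorsionBy_symm_smul (σ : GQ) (y : ↥(Submodule.torsionBy ℤ (JZero N) (m : ℤ))) :
    (kumTorsionBy N m).symm ⟨σ • (y : JZero N), smul_mem_torsionBy N m σ y.2⟩ =
      KumType.gal N m σ ((kumTorsionBy N m).symm y) := by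
  apply (kumTorsionBy N m).injective
  rw [AddEquiv.apply_symm_apply]
  apply Subtype.ext
  rw [kumTorsionBy_gal, AddEquiv.apply_symm_apply]

/-- **KUMEQ, existence form** (interface 4647): an additive isomorphism
`Additive (Kum ℚ̄ F_N m) ≃+ J₀(N)[m]` intertwining `KumType.gal` with the Galois action. -/
theorem exists_equivariant_kummerEquiv :
    ∃ e : Additive (Kum Kb (FK N) m) ≃+ ↥(Submodule.torsionBy ℤ (JZero N) (m : ℤ)),
      ∀ (σ : GQ) (x : Additive (Kum Kb (FK N) m)),
        ((e (KumType.gal N m σ x) : ↥(Submodule.torsionBy ℤ (JZero N) (m : ℤ))) : JZero N) =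
          σ • ((e x : ↥(Submodule.torsionBy ℤ (JZero N) (m : ℤ))) : JZero N) :=
  ⟨kumTorsionBy N m, kumTorsionBy_gal N m⟩

end Modular

end Fermat.Agent.GH.S32.KumEquivariant
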