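/-
GATE-H / S32, leaf FAITHO (helper93, second seat offered to helper47; Mathlib-only).

Artin–Rees "uniform faithfulness" over ANY Noetherian base ring `R` (the `ℤ`-version is
`GJ/Tate/LevelsOfKum.exists_faith_shift`): if a commutative `R`-algebra `A` acts faithfully on a
finite free `R`-module `M`, there is a shift `c` such that every `a` with
`a M ⊆ ϖ ^ (n + c) M` lies in `ϖ ^ n A`.
-/
import Mathlib

set_option autoImplicit false

namespace Fermat.Agent.GH.S32.FaithShiftGen

variable {R : Type*} [CommRing R] {M : Type*} [AddCommGroup M] [Module R M] [Module.Free R M]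

/-- An endomorphism of a free module with image in `m M` is divisible by `m`. -/
theorem end_mem_span_smul_top (f : Module.End R M) (m : R)
    (h : ∀ x : M, ∃ y : M, f x = m • y) :
    f ∈ (Ideal.span {m}) • (⊤ : Submodule R (Module.End R M)) := by
  classical
  let b := Module.Free.chooseBasis R M
  choose y hy using fun i => h (b i)
  have hf : f = m • b.constr R y := by
    apply b.ext
    intro i
    rw [LinearMap.smul_apply, Module.Basis.constr_basis, hy i]
  rw [hf]
  exact Submodule.smul_mem_smul (Ideal.mem_span_singleton_self m) Submodule.mem_top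

variable [IsNoetherianRing R] [Module.Finite R M]

/-- **Uniform faithfulness** (Artin–Rees) over a Noetherian ring. -/
theorem exists_faith_shift {A : Type*} [Ring A] [Algebra R A]
    (act : A →ₐ[R] Module.End R M) (hinj : Function.Injective act) (ϖ : R) :
    ∃ c : ℕ, ∀ (n : ℕ) (a : A), (∀ x : M, ∃ y : M, act a x = ϖ ^ (n + c) • y) →
      ∃ a' : A, a = ϖ ^ n • a' := by
  set I : Ideal R := Ideal.span {ϖ} with hI
  set φ : A →ₗ[R] Module.End R M := act.toLinearMap with hφ
  obtain ⟨k, hk⟩ := Ideal.exists_pow_inf_eq_pow_smul I (LinearMap.range φ)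
  refine ⟨k, fun n a ha => ?_⟩
  have h1 : act a ∈ I ^ (n + k) • (⊤ : Submodule R (Module.End R M)) := by
    rw [hI, Ideal.span_singleton_pow]
    exact end_mem_span_smul_top _ _ ha
  have h2 : act a ∈ LinearMap.range φ := ⟨a, rfl⟩
  have h3 : act a ∈ I ^ (n + k) • (⊤ : Submodule R (Module.End R M)) ⊓ LinearMap.range φ :=
    ⟨h1, h2⟩
  rw [hk (n + k) (Nat.le_add_left k n), Nat.add_sub_cancel] at h3
  have h4 : act a ∈ I ^ n • LinearMap.range φ := Submodule.smul_mono le_rfl inf_le_right h3
  rw [hI, Ideal.span_singleton_pow, Submodule.ideal_span_singleton_smul,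
    Submodule.mem_smul_pointwise_iff_exists] at h4
  obtain ⟨_, ⟨a', rfl⟩, ha'⟩ := h4
  refine ⟨a', hinj ?_⟩
  rw [← ha', map_smul]
  rfl

/-- the same with a natural number `p` and `ℕ`-scalar multiplication in the conclusion -/
theorem exists_faith_shift_nat {A : Type*} [Ring A] [Algebra R A]
    (act : A →ₐ[R] Module.End R M) (hinj : Function.Injective act) (p : ℕ) :
    ∃ c : ℕ, ∀ (n : ℕ) (a : A), (∀ x : M, ∃ y : M, act a x = (p ^ (n + c)) • y) →
      ∃ a' : A, a = (p ^ n) • a' := by
  obtain ⟨c, hc⟩ := exists_faith_shift act hinj (p : R)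
  refine ⟨c, fun n a ha => ?_⟩
  obtain ⟨a', ha'⟩ := hc n a (fun x => by
    obtain ⟨y, hy⟩ := ha x
    exact ⟨y, by rw [hy, ← Nat.cast_pow, Nat.cast_smul_eq_nsmul]⟩)
  exact ⟨a', by rw [ha', ← Nat.cast_pow, Nat.cast_smul_eq_nsmul]⟩

end Fermat.Agent.GH.S32.FaithShiftGen
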