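/-
GATE-H / S32, Tate side, (GMA₂) core with a GENERAL residue field (helper51; helper93 4652):
the statements of `GmaCore` with `IsLocalRing.ResidueField R` replaced by any field `k` with
`[Algebra R k]` and `algebraMap R k` surjective.  Reduction to `GmaCore` through the induced
isomorphism `k ≃ ResidueField R`.  Mathlib-only.
-/
import Mathlib
import Fermat.Agent.GH.S32.GmaCore

set_option autoImplicit false

noncomputable section

namespace Fermat.Agent.GH.S32.GmaCoreField

open Fermat.Agent.GH.S32.GmaCore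

variable {R : Type*} [CommRing R] [IsLocalRing R] {k : Type*} [Field k] [Algebra R k]
  (hres : Function.Surjective (algebraMap R k))

include hres in
theorem ker_algebraMap_le : RingHom.ker (algebraMap R k) ≤ RingHom.ker (IsLocalRing.residue R) := by
  have h1 : (RingHom.ker (algebraMap R k)).IsMaximal :=
    RingHom.ker_isMaximal_of_surjective (algebraMap R k) hres
  rw [IsLocalRing.eq_maximalIdeal h1, IsLocalRing.ker_residue]

/-- the comparison `k → ResidueField R` -/
def toRes : k →+* IsLocalRing.ResidueField R :=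
  (algebraMap R k).liftOfSurjective hres ⟨IsLocalRing.residue R, ker_algebraMap_le hres⟩

theorem toRes_algebraMap (r : R) : toRes hres (algebraMap R k r) = IsLocalRing.residue R r :=
  RingHom.liftOfSurjective_comp_apply (algebraMap R k) hres
    ⟨IsLocalRing.residue R, ker_algebraMap_le hres⟩ r

theorem toRes_injective : Function.Injective (toRes (R := R) hres) := (toRes hres).injective

theorem toRes_surjective : Function.Surjective (toRes (R := R) hres) := by
  intro c
  obtain ⟨r, rfl⟩ := IsLocalRing.residue_surjective c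
  exact ⟨algebraMap R k r, toRes_algebraMap hres r⟩

variable {B : Type*} [Ring B] [Algebra R B]
  (π : B →+* Matrix (Fin 2) (Fin 2) k)

/-- the transported residual map `B → M₂(ResidueField R)` -/
def piRes : B →+* Matrix (Fin 2) (Fin 2) (IsLocalRing.ResidueField R) :=
  (toRes (R := R) hres).mapMatrix.comp π

theorem piRes_apply (b : B) : piRes hres π b = (π b).map (toRes (R := R) hres) := rfl

theorem piRes_surjective (hπsurj : Function.Surjective π) :
    Function.Surjective (piRes (R := R) hres π) := by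
  intro M
  obtain ⟨N, hN⟩ : ∃ N : Matrix (Fin 2) (Fin 2) k, N.map (toRes (R := R) hres) = M := by
    refine ⟨Matrix.of fun i j => (toRes_surjective hres (M i j)).choose, ?_⟩
    ext i j
    exact (toRes_surjective hres (M i j)).choose_spec
  obtain ⟨b, rfl⟩ := hπsurj N
  exact ⟨b, hN⟩

theorem piRes_eq_zero {b : B} (h : piRes (R := R) hres π b = 0) : π b = 0 := by
  have h1 : (π b).map (toRes (R := R) hres) = (0 : Matrix (Fin 2) (Fin 2) k).map (toRes hres) := by
    rw [← piRes_apply, h]
    ext i j
    simp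
  exact Matrix.map_injective (toRes_injective (R := R) hres) h1

theorem piRes_algebraMap
    (hπR : ∀ r : R, π (algebraMap R B r) =
      algebraMap k (Matrix (Fin 2) (Fin 2) k) (algebraMap R k r)) (r : R) :
    piRes hres π (algebraMap R B r) =
      algebraMap (IsLocalRing.ResidueField R)
        (Matrix (Fin 2) (Fin 2) (IsLocalRing.ResidueField R)) (IsLocalRing.residue R r) := by
  rw [piRes_apply, hπR, Matrix.algebraMap_eq_diagonal, Matrix.algebraMap_eq_diagonal,
    Matrix.diagonal_map (map_zero _)]
  congr 1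
  funext i
  exact toRes_algebraMap hres r

include hres in
/-- **(GMA₂) core, matrix-unit form, general residue field.** -/
theorem exists_matrix_units (D : TraceInv R B) (h2 : IsUnit (2 : R))
    (hinj : Function.Injective (algebraMap R B))
    (hπsurj : Function.Surjective π) (hπnil : ∀ b, π b = 0 → IsNilpotent b)
    (hπR : ∀ r : R, π (algebraMap R B r) =
      algebraMap k (Matrix (Fin 2) (Fin 2) k) (algebraMap R k r)) :
    ∃ e x y e' : B, IsUnits e x y e' ∧
      (∀ b : B, ∃ α β γ δ : R, b = α • e + β • x + γ • y + δ • e') ∧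
      (∀ r : R, r • e = 0 → r = 0) ∧ (∀ r : R, r • e' = 0 → r = 0) ∧
      D.tr e = 1 ∧ D.tr x = 0 ∧ D.tr y = 0 ∧ D.tr e' = 1 ∧ D.inv e = e' :=
  GmaCore.exists_matrix_units D h2 hinj (piRes hres π) (piRes_surjective hres π hπsurj)
    (fun b hb => hπnil b (piRes_eq_zero hres π hb)) (piRes_algebraMap hres π hπR)

include hres in
/-- **(GMA₂) core, general residue field** (helper93 4652): `∃ Φ : M₂(R) ≃ₐ[R] B` with
`τ (Φ M) = tr M` and `ι (Φ M) = Φ (adj M)`. -/
theorem exists_algEquiv (h2 : IsUnit (2 : R)) (hinj : Function.Injective (algebraMap R B))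
    (ι : B →ₗ[R] B) (hιmul : ∀ a b, ι (a * b) = ι b * ι a) (hιι : ∀ b, ι (ι b) = b)
    (τ : B →ₗ[R] R) (hτ : ∀ b, b + ι b = algebraMap R B (τ b))
    (hπsurj : Function.Surjective π) (hπnil : ∀ b, π b = 0 → IsNilpotent b)
    (hπR : ∀ r : R, π (algebraMap R B r) =
      algebraMap k (Matrix (Fin 2) (Fin 2) k) (algebraMap R k r)) :
    ∃ Φ : Matrix (Fin 2) (Fin 2) R ≃ₐ[R] B,
      (∀ M, τ (Φ M) = Matrix.trace M) ∧ (∀ M, ι (Φ M) = Φ (Matrix.adjugate M)) :=
  GmaCore.exists_algEquiv h2 hinj ι hιmul hιι τ hτ (piRes hres π)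
    (piRes_surjective hres π hπsurj) (fun b hb => hπnil b (piRes_eq_zero hres π hb))
    (piRes_algebraMap hres π hπR)

include hres in
/-- **(GMA₂) core, general residue field**, `Nonempty` form (binder order of helper93 4626 with
`k`, `hres` in front; `hι1` accepted and unused). -/
theorem nonempty_algEquiv (h2 : IsUnit (2 : R)) (hinj : Function.Injective (algebraMap R B))
    (ι : B →ₗ[R] B) (_hι1 : ι 1 = 1) (hιmul : ∀ a b, ι (a * b) = ι b * ι a)
    (hιι : ∀ b, ι (ι b) = b)
    (τ : B →ₗ[R] R) (hτ : ∀ b, b + ι b = algebraMap R B (τ b))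
    (hπsurj : Function.Surjective π) (hπnil : ∀ b, π b = 0 → IsNilpotent b)
    (hπR : ∀ r : R, π (algebraMap R B r) =
      algebraMap k (Matrix (Fin 2) (Fin 2) k) (algebraMap R k r)) :
    Nonempty (Matrix (Fin 2) (Fin 2) R ≃ₐ[R] B) := by
  obtain ⟨Φ, -, -⟩ := exists_algEquiv hres π h2 hinj ι hιmul hιι τ hτ hπsurj hπnil hπR
  exact ⟨Φ⟩

end Fermat.Agent.GH.S32.GmaCoreField
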